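import Mathlib

/-!
# Hyperbolic three space

`H3` is the upper half space `{(z, t) : z ∈ ℂ, 0 < t}` with the action of `GL₂(ℂ)`.  The point
`p` corresponds to the positive hermitian matrix `herm p` of determinant one, on which `g` acts
by `X ↦ g X gᴴ / |det g|`.
-/

set_option autoImplicit false

noncomputable section

open Matrix ComplexConjugate
open scoped MatrixGroups

namespace FermatAgent.LT

/-- The upper half space model of hyperbolic three space. -/
@[ext]
structure H3 where
  /-- horizontal coordinate -/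
  z : ℂ
  /-- height -/
  t : ℝ
  t_pos : 0 < t

namespace H3

/-- The base point `j = (0, 1)`. -/
def base : H3 := ⟨0, 1, one_pos⟩

instance : Inhabited H3 := ⟨base⟩

/-- The hermitian matrix attached to a point. -/
def herm (p : H3) : Matrix (Fin 2) (Fin 2) ℂ :=
  !![((p.t ^ 2 + Complex.normSq p.z) / p.t : ℝ), p.z / (p.t : ℂ);
     conj p.z / (p.t : ℂ), (p.t⁻¹ : ℝ)]

/-- The Hermitian matrix determines the point. -/
lemma herm_injective : Function.Injective herm := by
  intro p q h
  have h11 := congrFun (congrFun h 1) 1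
  have h01 := congrFun (congrFun h 0) 1
  simp [herm] at h11 h01
  have ht : p.t = q.t := h11
  apply H3.ext _ ht
  rw [ht] at h01
  have : (q.t : ℂ) ≠ 0 := by exact_mod_cast q.t_pos.ne'
  field_simp at h01
  exact h01

/-- Denominator of the action. -/
def den (g : Matrix (Fin 2) (Fin 2) ℂ) (p : H3) : ℝ :=
  Complex.normSq (g 1 0 * p.z + g 1 1) + Complex.normSq (g 1 0) * p.t ^ 2

/-- The denominator is positive. -/
lemma den_pos (g : GL (Fin 2) ℂ) (p : H3) : 0 < den g.val p := by
  have hd : g.val 0 0 * g.val 1 1 - g.val 0 1 * g.val 1 0 ≠ 0 := by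
    rw [← Matrix.det_fin_two]
    exact (Matrix.GeneralLinearGroup.det g).ne_zero
  unfold den
  by_cases hc : g.val 1 0 = 0
  · have hdd : g.val 1 1 ≠ 0 := by
      intro h; apply hd; simp [hc, h]
    simp [hc, hdd]
  · have : 0 < Complex.normSq (g.val 1 0) * p.t ^ 2 :=
      mul_pos (Complex.normSq_pos.mpr hc) (pow_pos p.t_pos 2)
    linarith [Complex.normSq_nonneg (g.val 1 0 * p.z + g.val 1 1)]

/-- The action on points. -/
def act (g : GL (Fin 2) ℂ) (p : H3) : H3 where
  z := ((g.val 0 0 * p.z + g.val 0 1) * conj (g.val 1 0 * p.z + g.val 1 1) +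
      g.val 0 0 * conj (g.val 1 0) * (p.t : ℂ) ^ 2) / (den g.val p : ℂ)
  t := ‖g.val.det‖ * p.t / den g.val p
  t_pos := by
    have hdet : (0 : ℝ) < ‖g.val.det‖ :=
      norm_pos_iff.mpr (Matrix.GeneralLinearGroup.det g).ne_zero
    exact div_pos (mul_pos hdet p.t_pos) (den_pos g p)

/-- The action on Hermitian matrices. -/
lemma herm_act (g : GL (Fin 2) ℂ) (p : H3) :
    herm (act g p) = (‖g.val.det‖ : ℂ)⁻¹ • (g.val * herm p * g.valᴴ) := by
  have hden : (den g.val p : ℂ) ≠ 0 := by exact_mod_cast (den_pos g p).ne'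
  have ht : (p.t : ℂ) ≠ 0 := by exact_mod_cast p.t_pos.ne'
  have hn : (‖g.val.det‖ : ℂ) ≠ 0 := by
    exact_mod_cast (norm_pos_iff.mpr (Matrix.GeneralLinearGroup.det g).ne_zero).ne'
  have hdetsq : (‖g.val.det‖ : ℂ) ^ 2 = g.val.det * conj g.val.det := by
    rw [Complex.mul_conj, Complex.normSq_eq_norm_sq]; push_cast; ring
  have hD : (den g.val p : ℂ) = (g.val 1 0 * p.z + g.val 1 1) *
      conj (g.val 1 0 * p.z + g.val 1 1) + g.val 1 0 * conj (g.val 1 0) * (p.t : ℂ) ^ 2 := by
    simp [den, Complex.normSq_eq_conj_mul_self]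
    ring
  rw [Matrix.det_fin_two] at hdetsq
  simp only [map_sub, map_mul, map_add] at hdetsq hD
  ext i j
  fin_cases i <;> fin_cases j <;>
    simp [herm, act, Matrix.mul_apply, Fin.sum_univ_two, Matrix.det_fin_two,
      Complex.normSq_eq_conj_mul_self]
  all_goals
    field_simp
    grind

instance : MulAction (GL (Fin 2) ℂ) H3 where
  smul := act
  one_smul p := herm_injective <| by
    show herm (act 1 p) = _
    rw [herm_act]; simp
  mul_smul g h p := herm_injective <| by
    show herm (act (g * h) p) = herm (act g (act h p))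
    rw [herm_act, herm_act, herm_act]
    simp [Matrix.det_mul, Matrix.mul_assoc, Matrix.conjTranspose_mul, smul_smul, mul_comm]

/-- The action is the defining one. -/
lemma smul_def (g : GL (Fin 2) ℂ) (p : H3) : g • p = act g p := rfl

/-- The height of a transformed point. -/
lemma t_smul (g : GL (Fin 2) ℂ) (p : H3) :
    (g • p).t = ‖g.val.det‖ * p.t / den g.val p := rfl

lemma scalar_smul (u : ℂˣ) (p : H3) : GeneralLinearGroup.scalar (Fin 2) u • p = p := by
  apply herm_injective
  rw [smul_def, herm_act]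
  have hu : (u : ℂ) ≠ 0 := u.ne_zero
  have hn : ((‖(u : ℂ)‖ : ℂ)) ≠ 0 := by simp
  have h2 : (‖(u : ℂ)‖ : ℂ) ^ 2 = u * conj (u : ℂ) := by
    rw [Complex.mul_conj, Complex.normSq_eq_norm_sq]; push_cast; ring
  ext i j
  fin_cases i <;> fin_cases j <;>
    simp [Matrix.mul_apply, Fin.sum_univ_two, GeneralLinearGroup.coe_scalar]
  all_goals
    field_simp
    grind

instance : MulAction (PGL(2, ℂ)) H3 := ProjGenLinGroup.mulActionOfGL scalar_smul

/-- The projective action. -/
lemma mk_smul (g : GL (Fin 2) ℂ) (p : H3) :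
    (ProjGenLinGroup.mk g) • p = g • p := rfl

/-- The point `(z, t)` written as `[[t, z], [0, 1]] • j`. -/
lemma exists_smul_base (p : H3) :
    ∃ g : GL (Fin 2) ℂ, g • base = p ∧ g.val = !![(p.t : ℂ), p.z; 0, 1] := by
  have h : (!![(p.t : ℂ), p.z; 0, 1] : Matrix (Fin 2) (Fin 2) ℂ).det ≠ 0 := by
    simp [Matrix.det_fin_two, p.t_pos.ne']
  refine ⟨GeneralLinearGroup.mkOfDetNeZero _ h, ?_, rfl⟩
  ext <;> simp [smul_def, act, den, base, GeneralLinearGroup.mkOfDetNeZero,
    Matrix.det_fin_two, abs_of_pos p.t_pos]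

end H3

end FermatAgent.LT
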