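import Mathlib
import Fermat.Agent.LT.Base.Hyp3

/-!
# The invariant measure on hyperbolic three space
-/

set_option autoImplicit false

noncomputable section

open Matrix ComplexConjugate MeasureTheory
open scoped MatrixGroups ENNReal

namespace FermatAgent.LT

namespace H3

/-- The euclidean space containing the upper half space. -/
abbrev E3 := WithLp 2 (ℂ × ℝ)

/-- Coordinates. -/
def coord (p : H3) : E3 := WithLp.toLp 2 (p.z, p.t)

/-- The inverse of `coord`, with junk value `base` below the boundary. -/
def ofCoord (x : E3) : H3 := if h : 0 < x.snd then ⟨x.fst, x.snd, h⟩ else base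

/-- The open upper half space. -/
def half : Set E3 := {x | 0 < x.snd}

lemma coord_injective : Function.Injective coord := by
  intro p q h
  have h1 := congrArg WithLp.ofLp h
  simp [coord] at h1
  exact H3.ext h1.1 h1.2

/-- Coordinates lie in the half space. -/
lemma coord_mem (p : H3) : coord p ∈ half := p.t_pos

@[simp] lemma ofCoord_coord (p : H3) : ofCoord (coord p) = p := by
  simp [ofCoord, coord, p.t_pos]

/-- Coordinates of a point with given coordinates. -/
lemma coord_ofCoord {x : E3} (h : x ∈ half) : coord (ofCoord x) = x := by
  simp only [half, Set.mem_ofPred_eq] at h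
  simp [ofCoord, coord, h]
  rfl

instance : TopologicalSpace H3 := .induced coord inferInstance

instance : MeasurableSpace H3 := .comap coord inferInstance

lemma continuous_coord : Continuous coord := continuous_induced_dom

/-- Coordinates form an embedding. -/
lemma isEmbedding_coord : Topology.IsEmbedding coord := ⟨⟨rfl⟩, coord_injective⟩

instance : T2Space H3 := isEmbedding_coord.t2Space

instance : SecondCountableTopology H3 := isEmbedding_coord.isInducing.secondCountableTopology

instance : BorelSpace H3 where
  measurable_eq := by
    show MeasurableSpace.comap coord inferInstance = borel H3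
    rw [(BorelSpace.measurable_eq : (inferInstance : MeasurableSpace E3) = borel E3)]
    exact borel_comap.symm

/-- The horizontal coordinate is continuous. -/
lemma continuous_z : Continuous fun p : H3 => p.z :=
  (continuous_fst.comp (WithLp.prod_continuous_ofLp 2 ℂ ℝ)).comp continuous_coord

/-- The height is continuous. -/
lemma continuous_t : Continuous fun p : H3 => p.t :=
  (continuous_snd.comp (WithLp.prod_continuous_ofLp 2 ℂ ℝ)).comp continuous_coord

/-- Maps with continuous coordinates are continuous. -/
lemma continuous_mk {X : Type*} [TopologicalSpace X] {f : X → H3}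
    (hz : Continuous fun x => (f x).z) (ht : Continuous fun x => (f x).t) : Continuous f := by
  rw [isEmbedding_coord.isInducing.continuous_iff]
  exact (WithLp.prod_continuous_toLp 2 ℂ ℝ).comp (hz.prodMk ht)

/-- The action is continuous. -/
lemma continuous_smul_const (g : GL (Fin 2) ℂ) : Continuous fun p : H3 => g • p := by
  have hden : Continuous fun p : H3 => den g.val p :=
    (Complex.continuous_normSq.comp ((continuous_const.mul continuous_z).add continuous_const)).add
      (continuous_const.mul (continuous_t.pow 2))
  apply continuous_mk
  · show Continuous fun p : H3 => (act g p).z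
    unfold act
    refine Continuous.div ?_ (Complex.continuous_ofReal.comp hden)
      fun p => by exact_mod_cast (den_pos g p).ne'
    exact (((continuous_const.mul continuous_z).add continuous_const).mul
      (Complex.continuous_conj.comp ((continuous_const.mul continuous_z).add continuous_const))).add
      (continuous_const.mul ((Complex.continuous_ofReal.comp continuous_t).pow 2))
  · show Continuous fun p : H3 => (act g p).t
    unfold act
    exact (continuous_const.mul continuous_t).div hden fun p => (den_pos g p).ne'

/-- The inverse of coordinates is measurable. -/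
lemma measurable_ofCoord : Measurable ofCoord := by
  rw [measurable_comap_iff]
  have : (coord ∘ ofCoord) = fun x => if 0 < x.snd then x else coord base := by
    funext x
    by_cases h : 0 < x.snd
    · simp only [Function.comp, if_pos h]; exact coord_ofCoord h
    · simp [Function.comp, ofCoord, h]
  rw [this]
  exact Measurable.ite (measurableSet_lt measurable_const
    ((continuous_snd.comp (WithLp.prod_continuous_ofLp 2 ℂ ℝ)).measurable))
    measurable_id measurable_const

/-- Lebesgue measure on `E3`. -/
def vol3 : Measure E3 := Measure.map (WithLp.toLp 2) (volume : Measure (ℂ × ℝ))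

instance instVolProdHaar : (volume : Measure (ℂ × ℝ)).IsAddHaarMeasure :=
  inferInstanceAs ((volume : Measure ℂ).prod (volume : Measure ℝ)).IsAddHaarMeasure

instance : vol3.IsAddHaarMeasure :=
  (WithLp.prodContinuousLinearEquiv 2 ℝ ℂ ℝ).symm.isAddHaarMeasure_map volume

/-- The density `t⁻³`. -/
def dens (x : E3) : ℝ≥0∞ := ENNReal.ofReal ((x.snd)⁻¹ ^ 3)

/-- The invariant measure `dz dt / t³`. -/
def vol : Measure H3 := Measure.map ofCoord ((vol3.restrict half).withDensity dens)

lemma measurable_snd3 : Measurable fun x : E3 => x.snd :=
  (continuous_snd.comp (WithLp.prod_continuous_ofLp 2 ℂ ℝ)).measurable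

/-- The half space is measurable. -/
lemma measurableSet_half : MeasurableSet half := measurableSet_lt measurable_const measurable_snd3

/-- The density is measurable. -/
lemma measurable_dens : Measurable dens :=
  ENNReal.measurable_ofReal.comp (measurable_snd3.inv.pow_const 3)

/-- Integration in coordinates. -/
lemma lintegral_vol {F : H3 → ℝ≥0∞} (hF : Measurable F) :
    ∫⁻ p, F p ∂vol = ∫⁻ x in half, dens x * F (ofCoord x) ∂vol3 := by
  rw [vol, lintegral_map hF measurable_ofCoord]
  show ∫⁻ a, (F ∘ ofCoord) a ∂_ = _
  rw [lintegral_withDensity_eq_lintegral_mul _ measurable_dens (hF.comp measurable_ofCoord)]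
  rfl

/-- Invariance of `vol` follows from a change of variables on the half space. -/
lemma measurePreserving_of_coord (g : GL (Fin 2) ℂ) (f : E3 → E3) (f' : E3 → E3 →L[ℝ] E3)
    (hf : ∀ x ∈ half, HasFDerivWithinAt f (f' x) half x)
    (heq : ∀ x ∈ half, f x = coord (g • ofCoord x))
    (hdet : ∀ x ∈ half, ENNReal.ofReal |(f' x).det| * dens (f x) = dens x) :
    MeasurePreserving (fun p : H3 => g • p) vol vol := by
  have hm : Measurable fun p : H3 => g • p := (continuous_smul_const g).measurable
  refine ⟨hm, ?_⟩
  apply Measure.ext_of_lintegral
  intro F hF
  rw [lintegral_map hF hm]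
  show ∫⁻ p, (F ∘ fun p => g • p) p ∂vol = _
  rw [lintegral_vol (hF.comp hm), lintegral_vol hF]
  have hinj : Set.InjOn f half := by
    intro x hx y hy h
    rw [heq x hx, heq y hy] at h
    have h2 := MulAction.injective g (coord_injective h)
    rw [← coord_ofCoord hx, ← coord_ofCoord hy, h2]
  have himg : f '' half = half := by
    ext y
    constructor
    · rintro ⟨x, hx, rfl⟩; rw [heq x hx]; exact coord_mem _
    · intro hy
      refine ⟨coord (g⁻¹ • ofCoord y), coord_mem _, ?_⟩
      rw [heq _ (coord_mem _), ofCoord_coord, smul_inv_smul, coord_ofCoord hy]
  have key := lintegral_image_eq_lintegral_abs_det_fderiv_mul vol3 measurableSet_half hf hinj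
    (fun y => dens y * F (ofCoord y))
  rw [himg] at key
  rw [key]
  refine setLIntegral_congr_fun measurableSet_half fun x hx => ?_
  simp only [Function.comp]
  rw [← mul_assoc, hdet x hx, heq x hx, ofCoord_coord]

end H3

end FermatAgent.LT
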