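import Mathlib
import Fermat.Agent.LT.Base.Hyp3Measure

/-!
# Invariance of the hyperbolic measure
-/

set_option autoImplicit false

noncomputable section

open Matrix ComplexConjugate MeasureTheory
open scoped MatrixGroups ENNReal

namespace FermatAgent.LT

namespace H3

lemma act_upper (g : GL (Fin 2) ℂ) (hc : g.val 1 0 = 0) (p : H3) :
    g • p = ⟨g.val 0 0 / g.val 1 1 * p.z + g.val 0 1 / g.val 1 1,
      ‖g.val 0 0 / g.val 1 1‖ * p.t, by
        have hdet : g.val.det ≠ 0 := (Matrix.GeneralLinearGroup.det g).ne_zero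
        rw [Matrix.det_fin_two, hc, mul_zero, sub_zero] at hdet
        exact mul_pos (norm_pos_iff.mpr (div_ne_zero (left_ne_zero_of_mul hdet)
          (right_ne_zero_of_mul hdet))) p.t_pos⟩ := by
  have hdet : g.val.det ≠ 0 := (Matrix.GeneralLinearGroup.det g).ne_zero
  rw [Matrix.det_fin_two, hc, mul_zero, sub_zero] at hdet
  have hd : g.val 1 1 ≠ 0 := right_ne_zero_of_mul hdet
  have hden : den g.val p = Complex.normSq (g.val 1 1) := by simp [den, hc]
  apply H3.ext
  · show (act g p).z = _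
    simp only [act, hden, hc, map_zero, mul_zero, zero_mul, zero_add, add_zero,
      Complex.normSq_eq_conj_mul_self]
    have : conj (g.val 1 1) ≠ 0 := by simpa using hd
    field_simp
  · show (act g p).t = _
    simp only [act, hden, Complex.normSq_eq_norm_sq, Matrix.det_fin_two, hc, mul_zero, sub_zero,
      norm_mul, norm_div]
    have : ‖g.val 1 1‖ ≠ 0 := by simpa using hd
    field_simp

/-- The affine map `x ↦ (a z + b, |a| t)` in coordinates. -/
def affLin (a : ℂ) : E3 →L[ℝ] E3 :=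
  ((WithLp.prodContinuousLinearEquiv 2 ℝ ℂ ℝ).symm : ℂ × ℝ →L[ℝ] E3).comp
    (((a • ContinuousLinearMap.id ℝ ℂ).prodMap (‖a‖ • ContinuousLinearMap.id ℝ ℝ)).comp
      ((WithLp.prodContinuousLinearEquiv 2 ℝ ℂ ℝ) : E3 →L[ℝ] ℂ × ℝ))

lemma det_affLin (a : ℂ) : (affLin a).det = ‖a‖ ^ 3 := by
  have h1 : LinearMap.det ((a • ContinuousLinearMap.id ℝ ℂ : ℂ →L[ℝ] ℂ) : ℂ →ₗ[ℝ] ℂ) =
      ‖a‖ ^ 2 := by
    have h : ((a • ContinuousLinearMap.id ℝ ℂ : ℂ →L[ℝ] ℂ) : ℂ →ₗ[ℝ] ℂ) =
        LinearMap.mul ℝ ℂ a := by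
      refine LinearMap.ext fun x => ?_
      simp
    rw [h, ← LinearMap.det_toMatrix Complex.basisOneI, Matrix.det_fin_two]
    simp [LinearMap.toMatrix_apply, Complex.coe_basisOneI, Complex.coe_basisOneI_repr]
    rw [← Complex.normSq_eq_norm_sq, Complex.normSq_apply]
  unfold affLin ContinuousLinearMap.det
  erw [LinearMap.det_conj
    ((((a • ContinuousLinearMap.id ℝ ℂ).prodMap (‖a‖ • ContinuousLinearMap.id ℝ ℝ)) :
      ℂ × ℝ →L[ℝ] ℂ × ℝ) : ℂ × ℝ →ₗ[ℝ] ℂ × ℝ)
    (WithLp.prodContinuousLinearEquiv 2 ℝ ℂ ℝ).symm.toLinearEquiv]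
  rw [show (((a • ContinuousLinearMap.id ℝ ℂ).prodMap (‖a‖ • ContinuousLinearMap.id ℝ ℝ) :
      ℂ × ℝ →L[ℝ] ℂ × ℝ) : ℂ × ℝ →ₗ[ℝ] ℂ × ℝ) =
    LinearMap.prodMap ((a • ContinuousLinearMap.id ℝ ℂ : ℂ →L[ℝ] ℂ) : ℂ →ₗ[ℝ] ℂ)
      (‖a‖ • LinearMap.id : ℝ →ₗ[ℝ] ℝ) from rfl, LinearMap.det_prodMap, h1]
  simp
  ring

lemma measurePreserving_upper (g : GL (Fin 2) ℂ) (hc : g.val 1 0 = 0) :
    MeasurePreserving (fun p : H3 => g • p) vol vol := by
  have hdet : g.val.det ≠ 0 := (Matrix.GeneralLinearGroup.det g).ne_zero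
  rw [Matrix.det_fin_two, hc, mul_zero, sub_zero] at hdet
  set a := g.val 0 0 / g.val 1 1
  have ha : a ≠ 0 := div_ne_zero (left_ne_zero_of_mul hdet) (right_ne_zero_of_mul hdet)
  refine measurePreserving_of_coord g
    (fun x => affLin a x + WithLp.toLp 2 (g.val 0 1 / g.val 1 1, (0 : ℝ)))
    (fun _ => affLin a) (fun x _ => ((affLin a).hasFDerivAt.add_const _).hasFDerivWithinAt)
    (fun x hx => ?_) (fun x hx => ?_)
  · rw [act_upper g hc]
    simp only [half, Set.mem_ofPred_eq] at hx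
    simp [affLin, coord, ofCoord, hx, a]
    apply WithLp.ofLp_injective
    simp [Prod.ext_iff]
  · simp only [half, Set.mem_ofPred_eq] at hx
    have hn : (0:ℝ) < ‖a‖ := norm_pos_iff.mpr ha
    rw [det_affLin, dens, dens, ← ENNReal.ofReal_mul (abs_nonneg _)]
    congr 1
    simp [affLin, abs_of_pos (pow_pos hn 3)]
    field_simp

/-- The Weyl element. -/
def weyl : GL (Fin 2) ℂ :=
  GeneralLinearGroup.mkOfDetNeZero !![0, -1; 1, 0] (by simp [Matrix.det_fin_two])

/-- The reflection `(z, t) ↦ (-conj z, t)`. -/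
def reflZ : E3 →L[ℝ] E3 :=
  ((WithLp.prodContinuousLinearEquiv 2 ℝ ℂ ℝ).symm : ℂ × ℝ →L[ℝ] E3).comp
    (((-(Complex.conjCLE : ℂ →L[ℝ] ℂ)).prodMap (ContinuousLinearMap.id ℝ ℝ)).comp
      ((WithLp.prodContinuousLinearEquiv 2 ℝ ℂ ℝ) : E3 →L[ℝ] ℂ × ℝ))

lemma reflZ_apply (x : E3) : reflZ x = WithLp.toLp 2 (-conj x.fst, x.snd) := rfl

lemma abs_det_of_involutive {E : Type*} [AddCommGroup E] [Module ℝ E] (f : E →ₗ[ℝ] E)
    (hf : ∀ x, f (f x) = x) : |LinearMap.det f| = 1 := by
  have h : LinearMap.det f * LinearMap.det f = 1 := by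
    rw [← map_mul, show f * f = LinearMap.id from LinearMap.ext hf, LinearMap.det_id]
  rcases mul_self_eq_one_iff.mp h with h1 | h1 <;> rw [h1] <;> simp

lemma measurePreserving_weyl : MeasurePreserving (fun p : H3 => weyl • p) vol vol := by
  refine measurePreserving_of_coord weyl
    (reflZ ∘ EuclideanGeometry.inversion (0 : E3) 1)
    (fun x => reflZ.comp
      ((1 / dist x 0) ^ 2 • ((ℝ ∙ (x - 0))ᗮ.reflection : E3 →L[ℝ] E3)))
    (fun x hx => ?_) (fun x hx => ?_) (fun x hx => ?_)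
  · have hne : x ≠ 0 := by
      rintro rfl
      simp [half] at hx
    exact (reflZ.hasFDerivAt.comp x
      (EuclideanGeometry.hasFDerivAt_inversion hne)).hasFDerivWithinAt
  · simp only [half, Set.mem_ofPred_eq] at hx
    have hn : ‖x‖ ^ 2 = Complex.normSq x.fst + x.snd ^ 2 := by
      rw [WithLp.prod_norm_sq_eq_of_L2, Complex.normSq_eq_norm_sq]
      simp
    have hpos : 0 < ‖x‖ ^ 2 := by
      rw [hn]; positivity [Complex.normSq_nonneg x.fst]
    simp only [Function.comp, EuclideanGeometry.inversion, reflZ_apply, coord, ofCoord, dif_pos hx,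
      smul_def, act, den, weyl, GeneralLinearGroup.mkOfDetNeZero]
    simp [Matrix.det_fin_two, dist_zero_right, hn, one_div, inv_pow]
    refine ⟨?_, ?_⟩ <;> ring
  · simp only [half, Set.mem_ofPred_eq] at hx
    have hne : x ≠ 0 := by
      rintro rfl
      simp at hx
    have hd : 0 < dist x 0 := by simpa using hne
    have hfin : Module.finrank ℝ E3 = 3 := by
      rw [(WithLp.linearEquiv 2 ℝ (ℂ × ℝ)).finrank_eq]
      simp [Complex.finrank_real_complex]
    have h1 : |reflZ.det| = 1 := by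
      refine abs_det_of_involutive _ fun y => ?_
      show reflZ (reflZ y) = y
      simp [reflZ_apply]
      rfl
    have h2 : |LinearMap.det (((ℝ ∙ (x - 0))ᗮ.reflection : E3 →L[ℝ] E3) : E3 →ₗ[ℝ] E3)| = 1 :=
      abs_det_of_involutive _ fun y => Submodule.reflection_reflection _ y
    have h3 : |(reflZ.comp ((1 / dist x 0) ^ 2 •
        ((ℝ ∙ (x - 0))ᗮ.reflection : E3 →L[ℝ] E3))).det| = ((1 / dist x 0) ^ 2) ^ 3 := by
      unfold ContinuousLinearMap.det at h1 ⊢
      rw [ContinuousLinearMap.toLinearMap_comp, LinearMap.det_comp,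
        ContinuousLinearMap.toLinearMap_smul, LinearMap.det_smul, hfin, abs_mul, abs_mul, h1, h2]
      simp
    rw [h3, dens, dens, ← ENNReal.ofReal_mul (by positivity)]
    congr 1
    simp [Function.comp, EuclideanGeometry.inversion, reflZ_apply, dist_zero_right]
    have : ‖x‖ ≠ 0 := by simpa using hne
    field_simp

/-- The group preserves the hyperbolic volume. -/
theorem measurePreserving_smul (g : GL (Fin 2) ℂ) :
    MeasurePreserving (fun p : H3 => g • p) vol vol := by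
  by_cases hc : g.val 1 0 = 0
  · exact measurePreserving_upper g hc
  · have hdet : g.val.det ≠ 0 := (Matrix.GeneralLinearGroup.det g).ne_zero
    have h1 : (!![g.val.det / g.val 1 0, g.val 0 0; 0, g.val 1 0] :
        Matrix (Fin 2) (Fin 2) ℂ).det ≠ 0 := by
      simp [Matrix.det_fin_two, hc]
      rwa [Matrix.det_fin_two] at hdet
    have h2 : (!![(1 : ℂ), g.val 1 1 / g.val 1 0; 0, 1] : Matrix (Fin 2) (Fin 2) ℂ).det ≠ 0 := by
      simp [Matrix.det_fin_two]
    have hg : g = GeneralLinearGroup.mkOfDetNeZero _ h1 * weyl *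
        GeneralLinearGroup.mkOfDetNeZero _ h2 := by
      apply Units.ext
      ext i j
      fin_cases i <;> fin_cases j <;>
        simp [weyl, GeneralLinearGroup.mkOfDetNeZero, Matrix.mul_apply, Fin.sum_univ_two,
          Matrix.det_fin_two] <;> field_simp
      ring
    have := ((measurePreserving_upper (GeneralLinearGroup.mkOfDetNeZero _ h1)
      (by simp [GeneralLinearGroup.mkOfDetNeZero])).comp measurePreserving_weyl).comp
      (measurePreserving_upper (GeneralLinearGroup.mkOfDetNeZero _ h2)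
        (by simp [GeneralLinearGroup.mkOfDetNeZero]))
    convert this using 1
    funext p
    show g • p = _
    refine (congrArg (· • p) hg).trans ?_
    simp [mul_smul]

instance : MeasurableConstSMul (GL (Fin 2) ℂ) H3 := ⟨fun g => (continuous_smul_const g).measurable⟩

instance : SMulInvariantMeasure (GL (Fin 2) ℂ) H3 vol :=
  ⟨fun g _s hs => (measurePreserving_smul g).measure_preimage hs.nullMeasurableSet⟩

end H3

end FermatAgent.LT
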