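import Mathlib
import Fermat.Agent.LT.Base.Hyp3Inv

/-!
# The adelic quotient without completions

For a number field `L`, the group `G = PGL₂(L)` and, at a finite place `v`, its subgroup `locK v`
of classes with a representative that is integral at `v` with unit determinant.  By density
`G ⧸ locK v` is the local coset space, so the finite adelic coset space is the set of families
of cosets, almost all trivial.
-/

set_option autoImplicit false

noncomputable section

open Matrix IsDedekindDomain NumberField Filter MeasureTheory
open scoped MatrixGroups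

namespace FermatAgent.LT

variable {L : Type*} [Field L] [NumberField L]

/-- `PGL₂` of a field. -/
abbrev G2 (L : Type*) [Field L] := PGL(2, L)

/-- The local ring at `v` inside the field. -/
def locRing (v : HeightOneSpectrum (𝓞 L)) : ValuationSubring L := (v.valuation L).valuationSubring

/-- `GL₂` of the local ring at `v`. -/
def locGL (v : HeightOneSpectrum (𝓞 L)) : Subgroup (GL (Fin 2) L) where
  carrier := {g | (∀ i j, v.valuation L (g.val i j) ≤ 1) ∧ v.valuation L g.val.det = 1}
  one_mem' := by
    refine ⟨fun i j => ?_, by simp⟩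
    fin_cases i <;> fin_cases j <;> simp
  mul_mem' := by
    rintro g h ⟨hg, hgd⟩ ⟨hh, hhd⟩
    refine ⟨fun i j => ?_, by simp [Matrix.det_mul, hgd, hhd]⟩
    simp only [Units.val_mul, Matrix.mul_apply, Fin.sum_univ_two]
    refine le_trans ((v.valuation L).map_add _ _) (max_le ?_ ?_) <;>
      simp only [map_mul] <;> exact mul_le_one' (hg _ _) (hh _ _)
  inv_mem' := by
    rintro g ⟨hg, hgd⟩
    refine ⟨fun i j => ?_, ?_⟩
    · rw [Matrix.coe_units_inv, Matrix.inv_def]
      simp only [Matrix.smul_apply, smul_eq_mul, map_mul, Ring.inverse_eq_inv', map_inv₀, hgd,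
        inv_one, one_mul]
      rw [Matrix.adjugate_fin_two]
      fin_cases i <;> fin_cases j <;> simp [hg]
    · have h1 : g.val.det * (g⁻¹).val.det = 1 := by
        rw [← Matrix.det_mul, Units.mul_inv, Matrix.det_one]
      have h2 := congrArg (v.valuation L) h1
      rwa [map_mul, map_one, hgd, one_mul] at h2

/-- The principal congruence subgroup of level one at `v`, modulo scalars. -/
def locCongr (v : HeightOneSpectrum (𝓞 L)) : Subgroup (GL (Fin 2) L) where
  carrier := {g | g ∈ locGL v ∧ v.valuation L (g.val 0 1) < 1 ∧ v.valuation L (g.val 1 0) < 1 ∧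
    v.valuation L (g.val 0 0 - g.val 1 1) < 1}
  one_mem' := ⟨(locGL v).one_mem, by simp, by simp, by simp⟩
  mul_mem' := by
    rintro g h ⟨hg, g01, g10, gd⟩ ⟨hh, h01, h10, hd⟩
    refine ⟨(locGL v).mul_mem hg hh, ?_, ?_, ?_⟩
    all_goals simp only [Units.val_mul, Matrix.mul_apply, Fin.sum_univ_two]
    · exact (v.valuation L).map_add_lt (by
        rw [map_mul]; exact Right.mul_lt_one_of_le_of_lt (hg.1 _ _) h01) (by
        rw [map_mul]; exact mul_lt_one_of_lt_of_le g01 (hh.1 _ _))
    · exact (v.valuation L).map_add_lt (by
        rw [map_mul]; exact mul_lt_one_of_lt_of_le g10 (hh.1 _ _)) (by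
        rw [map_mul]; exact Right.mul_lt_one_of_le_of_lt (hg.1 _ _) h10)
    · rw [show g.val 0 0 * h.val 0 0 + g.val 0 1 * h.val 1 0 -
          (g.val 1 0 * h.val 0 1 + g.val 1 1 * h.val 1 1) =
          ((g.val 0 0 - g.val 1 1) * h.val 0 0 + g.val 1 1 * (h.val 0 0 - h.val 1 1)) +
          (g.val 0 1 * h.val 1 0 - g.val 1 0 * h.val 0 1) by ring]
      refine (v.valuation L).map_add_lt ((v.valuation L).map_add_lt ?_ ?_)
        (lt_of_le_of_lt ((v.valuation L).map_sub _ _) (max_lt ?_ ?_)) <;> rw [map_mul]
      · exact mul_lt_one_of_lt_of_le gd (hh.1 _ _)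
      · exact Right.mul_lt_one_of_le_of_lt (hg.1 _ _) hd
      · exact mul_lt_one_of_lt_of_le g01 (hh.1 _ _)
      · exact mul_lt_one_of_lt_of_le g10 (hh.1 _ _)
  inv_mem' := by
    rintro g ⟨hg, g01, g10, gd⟩
    refine ⟨(locGL v).inv_mem hg, ?_⟩
    rw [Matrix.coe_units_inv, Matrix.inv_def, Matrix.adjugate_fin_two]
    simp only [Matrix.smul_apply, smul_eq_mul, Ring.inverse_eq_inv', Matrix.of_apply,
      Matrix.cons_val', Matrix.cons_val_zero, Matrix.cons_val_one, Matrix.empty_val',
      Matrix.cons_val_fin_one, ← mul_sub, map_mul, map_inv₀, hg.2, inv_one, one_mul,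
      Valuation.map_neg]
    exact ⟨g01, g10, by rwa [Valuation.map_sub_swap]⟩

/-- `PGL₂` of the local ring at `v`. -/
def locK (v : HeightOneSpectrum (𝓞 L)) : Subgroup (G2 L) :=
  (locGL v).map ProjGenLinGroup.mk

/-- The image of the congruence subgroup in `PGL₂`. -/
def locK1 (v : HeightOneSpectrum (𝓞 L)) : Subgroup (G2 L) :=
  (locCongr v).map ProjGenLinGroup.mk

/-- The congruence subgroup lies in the maximal compact group. -/
lemma locK1_le (v : HeightOneSpectrum (𝓞 L)) : locK1 v ≤ locK v :=
  Subgroup.map_mono fun _ hg => hg.1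

/-- Almost all valuations of a nonzero element are one. -/
lemma eventually_valuation_eq_one {x : L} (hx : x ≠ 0) :
    ∀ᶠ v : HeightOneSpectrum (𝓞 L) in cofinite, v.valuation L x = 1 := by
  have h1 := HeightOneSpectrum.Support.finite (𝓞 L) x
  have h2 := HeightOneSpectrum.Support.finite (𝓞 L) x⁻¹
  refine Set.Finite.subset (h1.union h2) fun v hv => ?_
  simp only [Set.mem_compl_iff, Set.mem_ofPred_eq] at hv
  rcases lt_or_gt_of_ne hv with h | h
  · right
    show 1 < v.valuation L x⁻¹
    rw [map_inv₀]
    exact (one_lt_inv₀ (by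
      refine lt_of_le_of_ne zero_le (Ne.symm ?_)
      simpa using hx)).mpr h
  · exact Or.inl h

/-- Almost all valuations are at most one. -/
lemma eventually_valuation_le_one (x : L) :
    ∀ᶠ v : HeightOneSpectrum (𝓞 L) in cofinite, v.valuation L x ≤ 1 := by
  refine Set.Finite.subset (HeightOneSpectrum.Support.finite (𝓞 L) x) fun v hv => ?_
  simpa [HeightOneSpectrum.Support] using hv

/-- A matrix is integral at almost all places. -/
lemma eventually_mem_locGL (g : GL (Fin 2) L) :
    ∀ᶠ v : HeightOneSpectrum (𝓞 L) in cofinite, g ∈ locGL v := by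
  have h1 : ∀ᶠ v : HeightOneSpectrum (𝓞 L) in cofinite, ∀ i j, v.valuation L (g.val i j) ≤ 1 :=
    eventually_all.mpr fun i => eventually_all.mpr fun j => eventually_valuation_le_one _
  exact h1.and (eventually_valuation_eq_one (Matrix.GeneralLinearGroup.det g).ne_zero)

/-- A class is integral at almost all places. -/
lemma eventually_mem_locK (g : G2 L) :
    ∀ᶠ v : HeightOneSpectrum (𝓞 L) in cofinite, g ∈ locK v := by
  induction g using Matrix.ProjGenLinGroup.induction_on with
  | mk g => exact (eventually_mem_locGL g).mono fun v hv => ⟨g, hv, rfl⟩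

variable (L) in
/-- A level: local subgroups, almost all maximal. -/
structure Level where
  /-- the subgroup at a place -/
  loc : HeightOneSpectrum (𝓞 L) → Subgroup (G2 L)
  le : ∀ v, loc v ≤ locK v
  eventually_eq : ∀ᶠ v : HeightOneSpectrum (𝓞 L) in cofinite, loc v = locK v

open Classical in
/-- Level one at a finite set of places, maximal elsewhere. -/
def Level.ofFinset (S : Finset (HeightOneSpectrum (𝓞 L))) : Level L where
  loc v := if v ∈ S then locK1 v else locK v
  le v := by split_ifs; exacts [locK1_le v, le_rfl]
  eventually_eq := (S.finite_toSet.subset fun v hv => by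
    by_contra h
    exact hv (if_neg (by simpa using h)))

/-- The finite adelic coset space of level `U`. -/
def FinCoset (U : Level L) : Type _ :=
  {x : (v : HeightOneSpectrum (𝓞 L)) → G2 L ⧸ U.loc v //
    ∀ᶠ v in cofinite, x v = QuotientGroup.mk 1}

namespace FinCoset

variable {U : Level L}

instance : SMul (G2 L) (FinCoset U) where
  smul g x := ⟨fun v => g • x.1 v, by
    filter_upwards [x.2, eventually_mem_locK g, U.eventually_eq] with v hv hg hU
    rw [hv]
    show QuotientGroup.mk (g * 1) = _
    rw [mul_one, QuotientGroup.eq, mul_one, hU]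
    exact inv_mem hg⟩

/-- The action is componentwise. -/
@[simp] lemma smul_apply (g : G2 L) (x : FinCoset U) (v : HeightOneSpectrum (𝓞 L)) :
    (g • x).1 v = g • x.1 v := rfl

/-- Families of cosets are determined by components. -/
@[ext] lemma ext {x y : FinCoset U} (h : ∀ v, x.1 v = y.1 v) : x = y := Subtype.ext (funext h)

instance : MulAction (G2 L) (FinCoset U) where
  one_smul x := by ext v; simp
  mul_smul g h x := by ext v; simp [mul_smul]

instance : Inhabited (FinCoset U) :=
  ⟨⟨fun _ => QuotientGroup.mk 1, Eventually.of_forall fun _ => rfl⟩⟩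

instance : MeasurableSpace (FinCoset U) := ⊤

instance : MeasurableSingletonClass (FinCoset U) := ⟨fun _ => trivial⟩

end FinCoset

variable (L) in
/-- Points at infinity. -/
abbrev InfPts := InfinitePlace L → H3

instance : MulAction (G2 L) (InfPts L) where
  smul g y w := (ProjGenLinGroup.map w.embedding g) • y w
  one_smul y := by
    funext w
    show (ProjGenLinGroup.map w.embedding (1 : G2 L)) • y w = y w
    simp
  mul_smul g h y := by
    funext w
    show (ProjGenLinGroup.map w.embedding (g * h)) • y w = _
    rw [map_mul, mul_smul]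
    rfl

omit [NumberField L] in
/-- The action at infinity is componentwise. -/
lemma infPts_smul_apply (g : G2 L) (y : InfPts L) (w : InfinitePlace L) :
    (g • y) w = (ProjGenLinGroup.map w.embedding g) • y w := rfl

/-- The space on which `PGL₂(L)` acts. -/
abbrev Space (U : Level L) := InfPts L × FinCoset U

namespace Space

variable (U : Level L)

instance countableNumberField : Countable L :=
  (Module.finBasis ℚ L).repr.injective.countable

instance countableGL : Countable (GL (Fin 2) L) :=
  haveI : Countable (Matrix (Fin 2) (Fin 2) L) := inferInstanceAs (Countable (Fin 2 → Fin 2 → L))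
  Units.val_injective.countable

instance : Countable (G2 L) :=
  Matrix.ProjGenLinGroup.mk_surjective.countable

instance countableIdeal : Countable (Ideal (𝓞 L)) :=
  haveI : Countable (𝓞 L) := RingOfIntegers.coe_injective.countable
  Function.Surjective.countable
    (f := fun s : Finset (𝓞 L) => Ideal.span (s : Set (𝓞 L))) fun I => IsNoetherian.noetherian I

instance : Countable (HeightOneSpectrum (𝓞 L)) :=
  Function.Injective.countable (f := fun v : HeightOneSpectrum (𝓞 L) => v.asIdeal)
    fun _ _ h => HeightOneSpectrum.ext h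

instance (v : HeightOneSpectrum (𝓞 L)) : Countable (G2 L ⧸ U.loc v) :=
  Quotient.mk_surjective.countable

open Classical in
instance : Countable (FinCoset U) := by
  let f : FinCoset U → Σ s : Finset (HeightOneSpectrum (𝓞 L)), (v : s) → G2 L ⧸ U.loc v :=
    fun x => ⟨(Filter.eventually_cofinite.mp x.2).toFinset, fun v => x.1 v⟩
  let g : (Σ s : Finset (HeightOneSpectrum (𝓞 L)), (v : s) → G2 L ⧸ U.loc v) →
      ((v : HeightOneSpectrum (𝓞 L)) → G2 L ⧸ U.loc v) :=
    fun a v => if h : v ∈ a.1 then a.2 ⟨v, h⟩ else QuotientGroup.mk 1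
  refine Function.Injective.countable (f := f) fun x y h => ?_
  have key : ∀ z : FinCoset U, g (f z) = z.1 := by
    intro z; funext v
    by_cases hv : v ∈ (f z).1
    · simp only [g, dif_pos hv]; rfl
    · simp only [g, dif_neg hv]
      simpa [f, eq_comm] using hv
  exact Subtype.ext (by rw [← key x, ← key y, h])

/-- The invariant measure on the space. -/
def vol : Measure (Space U) :=
  (Measure.pi fun _ => H3.vol).prod Measure.count

end Space

end FermatAgent.LT
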