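import Mathlib
import Fermat.Agent.LT.Base.Places

/-!
# Hecke operators and level one actions on the completion-free coset space
-/

set_option autoImplicit false

noncomputable section

open Matrix IsDedekindDomain NumberField Filter
open scoped MatrixGroups

namespace FermatAgent.LT

variable {L : Type*} [Field L] [NumberField L]

/-- The elementary divisor set `K diag(π, 1) K` at `v`: classes of integral matrices whose
determinant has valuation exactly one step below `1`. -/
def heckeSet (v : HeightOneSpectrum (𝓞 L)) : Set (G2 L) :=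
  ProjGenLinGroup.mk '' {g : GL (Fin 2) L | (∀ i j, v.valuation L (g.val i j) ≤ 1) ∧
    v.valuation L g.val.det = WithZero.exp (-1 : ℤ)}

lemma heckeSet_mul_left {v : HeightOneSpectrum (𝓞 L)} {k g : G2 L} (hk : k ∈ locK v)
    (hg : g ∈ heckeSet v) : k * g ∈ heckeSet v := by
  obtain ⟨k', hk', rfl⟩ := hk
  obtain ⟨g', ⟨h1, h2⟩, rfl⟩ := hg
  refine ⟨k' * g', ⟨fun i j => ?_, ?_⟩, map_mul _ _ _⟩
  · simp only [Units.val_mul, Matrix.mul_apply, Fin.sum_univ_two]
    refine le_trans ((v.valuation L).map_add _ _) (max_le ?_ ?_) <;>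
      simp only [map_mul] <;> exact mul_le_one' (hk'.1 _ _) (h1 _ _)
  · rw [Units.val_mul, Matrix.det_mul, map_mul, hk'.2, one_mul, h2]

lemma heckeSet_mul_right {v : HeightOneSpectrum (𝓞 L)} {k g : G2 L} (hk : k ∈ locK v)
    (hg : g ∈ heckeSet v) : g * k ∈ heckeSet v := by
  obtain ⟨k', hk', rfl⟩ := hk
  obtain ⟨g', ⟨h1, h2⟩, rfl⟩ := hg
  refine ⟨g' * k', ⟨fun i j => ?_, ?_⟩, map_mul _ _ _⟩
  · simp only [Units.val_mul, Matrix.mul_apply, Fin.sum_univ_two]
    refine le_trans ((v.valuation L).map_add _ _) (max_le ?_ ?_) <;>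
      simp only [map_mul] <;> exact mul_le_one' (h1 _ _) (hk'.1 _ _)
  · rw [Units.val_mul, Matrix.det_mul, map_mul, hk'.2, mul_one, h2]

namespace FinCoset

variable {U : Level L}

open Classical in
/-- Replace the component at `v`. -/
def update (x : FinCoset U) (v : HeightOneSpectrum (𝓞 L)) (c : G2 L ⧸ U.loc v) : FinCoset U :=
  ⟨Function.update x.1 v c, by
    filter_upwards [x.2, (Set.finite_singleton v).compl_mem_cofinite] with w hw hne
    rw [Function.update_of_ne (by simpa using hne), hw]⟩

/-- The cosets adjacent to a coset at `v`. -/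
def adj (v : HeightOneSpectrum (𝓞 L)) (c : G2 L ⧸ U.loc v) : Set (G2 L ⧸ U.loc v) :=
  {d | ∃ g h : G2 L, QuotientGroup.mk g = c ∧ QuotientGroup.mk h = d ∧ g⁻¹ * h ∈ heckeSet v}

/-- Membership in the neighbours. -/
lemma mem_adj_iff {v : HeightOneSpectrum (𝓞 L)} {g h : G2 L} :
    (QuotientGroup.mk h : G2 L ⧸ U.loc v) ∈ adj v (QuotientGroup.mk g) ↔
      g⁻¹ * h ∈ heckeSet v := by
  refine ⟨?_, fun h1 => ⟨g, h, rfl, rfl, h1⟩⟩
  rintro ⟨g', h', hg, hh, hmem⟩
  rw [QuotientGroup.eq] at hg hh
  have := heckeSet_mul_left (inv_mem (U.le v hg)) (heckeSet_mul_right (U.le v hh) hmem)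
  have e : (g'⁻¹ * g)⁻¹ * (g'⁻¹ * h' * (h'⁻¹ * h)) = g⁻¹ * h := by group
  rwa [e] at this

end FinCoset

variable {U : Level L}

/-- The Hecke operator at a place where the level is maximal: the sum over adjacent cosets. -/
def heckeOp (v : HeightOneSpectrum (𝓞 L)) (φ : Space U → ℂ) (x : Space U) : ℂ :=
  ∑' d : FinCoset.adj v (x.2.1 v), φ (x.1, x.2.update v d)

/-- Right translation of the component at `v` by an element normalising the level there. -/
def rightMul (v : HeightOneSpectrum (𝓞 L)) (k : G2 L) (hk : ∀ u ∈ U.loc v, k⁻¹ * u * k ∈ U.loc v)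
    (x : Space U) : Space U :=
  (x.1, x.2.update v (Quotient.liftOn' (x.2.1 v) (fun g => (QuotientGroup.mk (g * k)))
    fun a b hab => by
      rw [QuotientGroup.leftRel_apply] at hab
      show (QuotientGroup.mk (a * k) : G2 L ⧸ U.loc v) = QuotientGroup.mk (b * k)
      rw [QuotientGroup.eq]
      have e : (a * k)⁻¹ * (b * k) = k⁻¹ * (a⁻¹ * b) * k := by group
      rw [e]
      exact hk _ hab))

/-- Apply a point kernel at one infinite place. -/
def radialOp (w : InfinitePlace L) (k : H3 → H3 → ℝ) (φ : Space U → ℂ) (x : Space U) : ℂ :=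
  open Classical in ∫ p, (k (x.1 w) p : ℂ) * φ (Function.update x.1 w p, x.2) ∂H3.vol

end FermatAgent.LT

namespace FermatAgent.LT.H3

/-- The hyperbolic cosine of the distance. -/
def coshDist (p q : H3) : ℝ :=
  1 + (Complex.normSq (p.z - q.z) + (p.t - q.t) ^ 2) / (2 * p.t * q.t)

/-- The distance through Hermitian matrices. -/
lemma trace_herm_adjugate (p q : H3) :
    ((herm p).adjugate * herm q).trace = ((2 * coshDist p q : ℝ) : ℂ) := by
  have hp : (p.t : ℂ) ≠ 0 := by exact_mod_cast p.t_pos.ne'
  have hq : (q.t : ℂ) ≠ 0 := by exact_mod_cast q.t_pos.ne'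
  simp [herm, coshDist, Matrix.adjugate_fin_two, Matrix.trace_fin_two,
    Complex.normSq_eq_conj_mul_self]
  field_simp
  ring

/-- The group preserves distances. -/
lemma coshDist_smul (g : GL (Fin 2) ℂ) (p q : H3) :
    coshDist (g • p) (g • q) = coshDist p q := by
  have h1 := trace_herm_adjugate (g • p) (g • q)
  have h2 := trace_herm_adjugate p q
  have hn : (‖g.val.det‖ : ℂ) ≠ 0 := by
    exact_mod_cast (norm_pos_iff.mpr (Matrix.GeneralLinearGroup.det g).ne_zero).ne'
  have hsq : g.val.det * star g.val.det = (‖g.val.det‖ : ℂ) ^ 2 := by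
    rw [Complex.star_def, Complex.mul_conj, Complex.normSq_eq_norm_sq]; push_cast; ring
  rw [smul_def, smul_def, herm_act, herm_act, Matrix.adjugate_smul, Matrix.adjugate_mul_distrib,
    Matrix.adjugate_mul_distrib] at h1
  simp only [Fintype.card_fin, Nat.reduceSub, pow_one, Matrix.smul_mul, Matrix.mul_smul,
    Matrix.trace_smul, smul_eq_mul] at h1
  have e : (g.valᴴ.adjugate * ((herm p).adjugate * g.val.adjugate) *
      (g.val * herm q * g.valᴴ)).trace =
      g.val.det * star g.val.det * ((herm p).adjugate * herm q).trace := by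
    calc (g.valᴴ.adjugate * ((herm p).adjugate * g.val.adjugate) *
          (g.val * herm q * g.valᴴ)).trace
        = (g.valᴴ.adjugate * ((herm p).adjugate * (g.val.adjugate * g.val) * herm q) *
            g.valᴴ).trace := by simp only [Matrix.mul_assoc]
      _ = (g.val.det • (g.valᴴ * g.valᴴ.adjugate * ((herm p).adjugate * herm q))).trace := by
          rw [Matrix.adjugate_mul, Matrix.trace_mul_cycle]
          simp [Matrix.mul_assoc]
      _ = g.val.det * star g.val.det * ((herm p).adjugate * herm q).trace := by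
          rw [Matrix.mul_adjugate, Matrix.det_conjTranspose]
          simp [Matrix.trace_smul, mul_assoc]
  rw [e, hsq, h2] at h1
  field_simp at h1
  have h3 : 2 * coshDist (act g p) (act g q) = 2 * coshDist p q := by exact_mod_cast h1.symm
  show coshDist (act g p) (act g q) = _
  linarith

end FermatAgent.LT.H3
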