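import Mathlib
import Fermat.Agent.LT.Base.Local

/-!
# Field homomorphisms, places and levels

A homomorphism `φ : K →+* L` of number fields moves infinite points by at most a complex
conjugation, and carries the local subgroups at a place `v` to those at a place `w` above it.
-/

set_option autoImplicit false

noncomputable section

open Matrix IsDedekindDomain NumberField Filter MeasureTheory
open scoped MatrixGroups ComplexConjugate

namespace FermatAgent.LT

namespace H3

/-- Complex conjugation of the horizontal coordinate. -/
def flip (p : H3) : H3 := ⟨conj p.z, p.t, p.t_pos⟩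

/-- The flip is an involution. -/
@[simp] lemma flip_flip (p : H3) : flip (flip p) = p := by ext <;> simp [flip]

lemma flip_smul (g : GL (Fin 2) ℂ) (p : H3) :
    flip (g • p) = GeneralLinearGroup.map (starRingEnd ℂ) g • flip p := by
  have hden : den (GeneralLinearGroup.map (starRingEnd ℂ) g).val (flip p) = den g.val p := by
    simp [den, flip, ← map_mul, ← map_add, Complex.normSq_conj]
  have hdet : ‖(GeneralLinearGroup.map (starRingEnd ℂ) g).val.det‖ = ‖g.val.det‖ := by
    show ‖(g.val.map (starRingEnd ℂ)).det‖ = _
    rw [← RingHom.mapMatrix_apply, ← RingHom.map_det, RCLike.norm_conj]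
  ext
  · simp only [smul_def, act]
    rw [hden]
    simp [flip]
  · simp only [smul_def, act]
    rw [hden, hdet]
    simp [flip]

/-- The flip is continuous. -/
lemma continuous_flip : Continuous flip :=
  continuous_mk (Complex.continuous_conj.comp continuous_z) continuous_t

/-- The flip preserves distances. -/
lemma coshDist_flip (p q : H3) : coshDist (flip p) (flip q) = coshDist p q := by
  simp [coshDist, flip, ← map_sub, Complex.normSq_conj]

/-- The flip preserves the volume. -/
lemma measurePreserving_flip : MeasurePreserving flip vol vol := by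
  have h0 : MeasurePreserving (Prod.map conj id : ℂ × ℝ → ℂ × ℝ) volume volume :=
    (Complex.conjLIE.measurePreserving).prod (MeasurePreserving.id _)
  refine ⟨continuous_flip.measurable, ?_⟩
  apply Measure.ext_of_lintegral
  intro F hF
  have hto : Measurable (WithLp.toLp 2 : ℂ × ℝ → E3) :=
    (WithLp.prod_continuous_toLp 2 ℂ ℝ).measurable
  have key : ∀ G : H3 → ENNReal, Measurable G → ∫⁻ p, G p ∂vol =
      ∫⁻ a : ℂ × ℝ, half.indicator (fun x => dens x * G (ofCoord x)) (WithLp.toLp 2 a) := by
    intro G hG
    rw [lintegral_vol hG, ← lintegral_indicator measurableSet_half, vol3]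
    exact lintegral_map
      ((measurable_dens.mul (hG.comp measurable_ofCoord)).indicator measurableSet_half) hto
  rw [lintegral_map hF continuous_flip.measurable, key F hF]
  show ∫⁻ p, (F ∘ flip) p ∂vol = _
  rw [key _ (hF.comp continuous_flip.measurable)]
  rw [← h0.lintegral_comp (f := fun a => half.indicator (fun x => dens x * F (ofCoord x))
      (WithLp.toLp 2 a)) (((measurable_dens.mul (hF.comp measurable_ofCoord)).indicator
        measurableSet_half).comp hto)]
  refine lintegral_congr fun ⟨z, t⟩ => ?_
  by_cases ht : 0 < t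
  · simp [half, Set.indicator, ht, dens, ofCoord, flip]
  · simp [half, Set.indicator, ht]

end H3

variable {K L : Type*} [Field K] [Field L]

/-- Apply `φ` to classes of matrices. -/
abbrev g2Map (φ : K →+* L) : G2 K →* G2 L := ProjGenLinGroup.map φ

open Classical in
/-- The map of hyperbolic spaces from the place `w` to its restriction along `φ`. -/
def twistPt (φ : K →+* L) (w : InfinitePlace L) (p : H3) : H3 :=
  if w.embedding.comp φ = (w.comap φ).embedding then p else H3.flip p

/-- The restricted embedding is the embedding below up to conjugation. -/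
lemma comap_embedding_eq_or (φ : K →+* L) (w : InfinitePlace L) :
    w.embedding.comp φ = (w.comap φ).embedding ∨
      ComplexEmbedding.conjugate (w.embedding.comp φ) = (w.comap φ).embedding := by
  rw [← InfinitePlace.mk_eq_iff, InfinitePlace.mk_embedding, ← InfinitePlace.comap_mk,
    InfinitePlace.mk_embedding]

/-- The twist of points is equivariant. -/
lemma twistPt_smul (φ : K →+* L) (w : InfinitePlace L) (g : GL (Fin 2) K) (p : H3) :
    twistPt φ w (GeneralLinearGroup.map w.embedding (GeneralLinearGroup.map φ g) • p) =
      GeneralLinearGroup.map (w.comap φ).embedding g • twistPt φ w p := by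
  have e : GeneralLinearGroup.map w.embedding (GeneralLinearGroup.map φ g) =
      GeneralLinearGroup.map (w.embedding.comp φ) g := rfl
  unfold twistPt
  split_ifs with h
  · rw [e, h]
  · rw [e, H3.flip_smul, ← (comap_embedding_eq_or φ w).resolve_left h]
    rfl

/-- The twist of points is an involution. -/
lemma twistPt_twistPt_symm (φ : K →+* L) (w : InfinitePlace L) (p : H3) :
    twistPt φ w (twistPt φ w p) = p := by
  unfold twistPt
  split_ifs <;> simp

/-- The twist of points preserves the volume. -/
lemma measurePreserving_twistPt (φ : K →+* L) (w : InfinitePlace L) :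
    MeasurePreserving (twistPt φ w) H3.vol H3.vol := by
  unfold twistPt
  split_ifs with h
  · exact MeasurePreserving.id _
  · exact H3.measurePreserving_flip

/-- The twist of points preserves distances. -/
lemma coshDist_twistPt (φ : K →+* L) (w : InfinitePlace L) (p q : H3) :
    H3.coshDist (twistPt φ w p) (twistPt φ w q) = H3.coshDist p q := by
  unfold twistPt
  split_ifs with h
  · rfl
  · exact H3.coshDist_flip p q

variable [NumberField K] [NumberField L]

/-- The place `w` lies over `v` along `φ`, with some exponent. -/
def PlacePair (φ : K →+* L) (v : HeightOneSpectrum (𝓞 K)) (w : HeightOneSpectrum (𝓞 L)) : Prop :=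
  ∃ e : ℕ, e ≠ 0 ∧ ∀ x, w.valuation L (φ x) = v.valuation K x ^ e

namespace PlacePair

variable {φ : K →+* L} {v : HeightOneSpectrum (𝓞 K)} {w : HeightOneSpectrum (𝓞 L)}

/-- Integrality transfers along compatible places. -/
lemma le_one_iff (h : PlacePair φ v w) (x : K) :
    w.valuation L (φ x) ≤ 1 ↔ v.valuation K x ≤ 1 := by
  obtain ⟨e, he, hx⟩ := h
  rw [hx, pow_le_one_iff he]

/-- The maximal ideals transfer along compatible places. -/
lemma lt_one_iff (h : PlacePair φ v w) (x : K) :
    w.valuation L (φ x) < 1 ↔ v.valuation K x < 1 := by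
  obtain ⟨e, he, hx⟩ := h
  rw [hx, pow_lt_one_iff he]

/-- Units transfer along compatible places. -/
lemma eq_one_iff (h : PlacePair φ v w) (x : K) :
    w.valuation L (φ x) = 1 ↔ v.valuation K x = 1 := by
  obtain ⟨e, he, hx⟩ := h
  rw [hx, pow_eq_one_iff_of_nonneg zero_le he]

/-- Local integrality of matrices transfers along compatible places. -/
lemma map_mem_locGL_iff (h : PlacePair φ v w) (g : GL (Fin 2) K) :
    GeneralLinearGroup.map φ g ∈ locGL w ↔ g ∈ locGL v := by
  show (_ ∧ _) ↔ (_ ∧ _)
  refine and_congr (forall_congr' fun i => forall_congr' fun j => h.le_one_iff _) ?_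
  show w.valuation L (g.val.map φ).det = 1 ↔ _
  rw [← RingHom.mapMatrix_apply, ← RingHom.map_det, h.eq_one_iff]

/-- Congruence of matrices transfers along compatible places. -/
lemma map_mem_locCongr_iff (h : PlacePair φ v w) (g : GL (Fin 2) K) :
    GeneralLinearGroup.map φ g ∈ locCongr w ↔ g ∈ locCongr v := by
  show (_ ∧ _ ∧ _ ∧ _) ↔ (_ ∧ _ ∧ _ ∧ _)
  rw [h.map_mem_locGL_iff]
  simp only [GeneralLinearGroup.map_apply, ← map_sub, h.lt_one_iff]

end PlacePair

/-- A place lying over another is compatible. -/
lemma placePair_of_liesOver [Algebra K L] (v : HeightOneSpectrum (𝓞 K))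
    (w : HeightOneSpectrum (𝓞 L)) [w.asIdeal.LiesOver v.asIdeal] :
    PlacePair (algebraMap K L) v w :=
  ⟨_, Ideal.IsDedekindDomain.ramificationIdx'_ne_zero_of_liesOver w.asIdeal v.ne_bot, fun x =>
    (HeightOneSpectrum.valuation_liesOver L v w x).symm⟩

/-- Transport a finite place along an automorphism. -/
def placeMap (τ : L ≃+* L) : HeightOneSpectrum (𝓞 L) ≃ HeightOneSpectrum (𝓞 L) :=
  HeightOneSpectrum.equivOfRingEquiv (RingOfIntegers.mapRingEquiv τ)

/-- The valuation at the image place. -/
lemma intValuation_placeMap (τ : L ≃+* L) (v : HeightOneSpectrum (𝓞 L)) (a : 𝓞 L) :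
    (placeMap τ v).intValuation (RingOfIntegers.mapRingEquiv τ a) = v.intValuation a := by
  rcases eq_or_ne a 0 with rfl | ha
  · simp
  have hmem : ∀ n : ℕ, RingOfIntegers.mapRingEquiv τ a ∈ (placeMap τ v).asIdeal ^ n ↔
      a ∈ v.asIdeal ^ n := by
    intro n
    have e : (placeMap τ v).asIdeal = v.asIdeal.map (RingOfIntegers.mapRingEquiv τ) := by
      show Ideal.comap _ _ = _
      exact Ideal.comap_symm _
    rw [e, ← Ideal.map_pow]
    exact Ideal.apply_mem_of_equiv_iff
  have key : ∀ n : ℕ, (placeMap τ v).intValuation (RingOfIntegers.mapRingEquiv τ a) ≤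
      WithZero.exp (-(n : ℤ)) ↔ v.intValuation a ≤ WithZero.exp (-(n : ℤ)) := fun n => by
    rw [HeightOneSpectrum.intValuation_le_pow_iff_mem,
      HeightOneSpectrum.intValuation_le_pow_iff_mem,
      hmem]
  rw [HeightOneSpectrum.intValuation_eq_exp_neg_multiplicity _ ha,
    HeightOneSpectrum.intValuation_eq_exp_neg_multiplicity _ (by simpa using ha)]
  have h1 := key (multiplicity v.asIdeal (Ideal.span {a}))
  have h2 := key (multiplicity (placeMap τ v).asIdeal
    (Ideal.span {RingOfIntegers.mapRingEquiv τ a}))
  rw [HeightOneSpectrum.intValuation_eq_exp_neg_multiplicity _ ha,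
    HeightOneSpectrum.intValuation_eq_exp_neg_multiplicity _ (by simpa using ha)] at h1 h2
  simp only [le_refl, iff_true, true_iff, WithZero.exp_le_exp, neg_le_neg_iff, Nat.cast_le] at h1 h2
  rw [le_antisymm h2 h1]

/-- The valuation at a transported place. -/
lemma valuation_placeMap (τ : L ≃+* L) (v : HeightOneSpectrum (𝓞 L)) (x : L) :
    (placeMap τ v).valuation L (τ x) = v.valuation L x := by
  obtain ⟨a, b, hb, rfl⟩ := IsFractionRing.div_surjective (A := 𝓞 L) x
  have e : ∀ c : 𝓞 L, τ (algebraMap (𝓞 L) L c) =
      algebraMap (𝓞 L) L (RingOfIntegers.mapRingEquiv τ c) := fun c => rfl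
  simp only [map_div₀, e, HeightOneSpectrum.valuation_of_algebraMap, intValuation_placeMap]

/-- An automorphism gives compatible places. -/
lemma placePair_placeMap (τ : L ≃+* L) (v : HeightOneSpectrum (𝓞 L)) :
    PlacePair (τ : L →+* L) v (placeMap τ v) :=
  ⟨1, one_ne_zero, fun x => by simp [valuation_placeMap]⟩

/-! ### Fibres of coset projections -/

section Quot

variable {G : Type*} [Group G] {S T : Subgroup G}

/-- The fibre of a projection of cosets, parametrised. -/
def fibMap (_ : S ≤ T) (g : G) (k : T ⧸ S.subgroupOf T) : G ⧸ S :=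
  Quotient.lift (fun k : T => (QuotientGroup.mk (g * k) : G ⧸ S))
    (fun a b hab => by
      rw [QuotientGroup.eq]
      have := QuotientGroup.leftRel_apply.mp hab
      rw [Subgroup.mem_subgroupOf] at this
      simpa [mul_assoc] using this) k

/-- The fibre map on a class. -/
lemma fibMap_mk (hST : S ≤ T) (g : G) (k : T) :
    fibMap hST g (QuotientGroup.mk k) = QuotientGroup.mk (g * k) := rfl

/-- The fibre map is injective. -/
lemma fibMap_injective (hST : S ≤ T) (g : G) : Function.Injective (fibMap hST g) := by
  intro a b
  induction a using QuotientGroup.induction_on with | H a =>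
  induction b using QuotientGroup.induction_on with | H b =>
  intro e
  rw [fibMap_mk, fibMap_mk, QuotientGroup.eq] at e
  rw [QuotientGroup.eq, Subgroup.mem_subgroupOf]
  simpa [mul_assoc] using e

/-- The fibre of the projection over a coset. -/
lemma proj_eq_iff (hST : S ≤ T) (g : G) (c : G ⧸ S) :
    Subgroup.quotientMapOfLE hST c = QuotientGroup.mk g ↔ ∃ k, fibMap hST g k = c := by
  constructor
  · induction c using QuotientGroup.induction_on with | H a =>
    intro e
    have e' : a⁻¹ * g ∈ T := QuotientGroup.eq.mp e
    refine ⟨QuotientGroup.mk ⟨g⁻¹ * a, by simpa using T.inv_mem e'⟩, ?_⟩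
    rw [fibMap_mk]
    show (QuotientGroup.mk (g * (g⁻¹ * a)) : G ⧸ S) = _
    rw [mul_inv_cancel_left]
  · rintro ⟨k, rfl⟩
    induction k using QuotientGroup.induction_on with | H k =>
    show (QuotientGroup.mk (g * k) : G ⧸ T) = QuotientGroup.mk g
    rw [QuotientGroup.eq]
    simp

end Quot

end FermatAgent.LT
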