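import Mathlib
import Fermat.Agent.LT.Base.Functorial

/-!
# Tame levels

At a tamely ramified special place the level consists of the classes which are upper triangular
modulo the place and whose diagonal ratio is killed by a fixed exponent `m` modulo the place.
-/

set_option autoImplicit false

noncomputable section

open Matrix IsDedekindDomain NumberField Filter
open scoped MatrixGroups

namespace FermatAgent.LT

variable {K L : Type*} [Field K] [NumberField K] [Field L] [NumberField L]

/-- Congruent integral elements have congruent powers. -/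
lemma valuation_pow_sub_pow_lt {R : Type*} [CommRing R]
    (μ : Valuation R (WithZero (Multiplicative ℤ)))
    {a b : R} (ha : μ a ≤ 1) (hb : μ b ≤ 1) (h : μ (a - b) < 1) (m : ℕ) :
    μ (a ^ m - b ^ m) < 1 := by
  induction m with
  | zero => simp
  | succ m ih =>
    rw [show a ^ (m + 1) - b ^ (m + 1) = a ^ m * (a - b) + (a ^ m - b ^ m) * b by ring]
    refine μ.map_add_lt ?_ ?_ <;> rw [map_mul]
    · exact Right.mul_lt_one_of_le_of_lt (by rw [map_pow]; exact pow_le_one₀ zero_le ha) h
    · exact mul_lt_one_of_lt_of_le ih hb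

/-- The tame subgroup with exponent `m`. -/
def locTameGL (v : HeightOneSpectrum (𝓞 L)) (m : ℕ) : Subgroup (GL (Fin 2) L) where
  carrier := {g | g ∈ locGL v ∧ v.valuation L (g.val 1 0) < 1 ∧
    v.valuation L (g.val 0 0 ^ m - g.val 1 1 ^ m) < 1}
  one_mem' := ⟨(locGL v).one_mem, by simp, by simp⟩
  mul_mem' := by
    rintro g h ⟨hg, g10, gd⟩ ⟨hh, h10, hd⟩
    have hle : ∀ i j, v.valuation L ((g * h).val i j) ≤ 1 := ((locGL v).mul_mem hg hh).1
    refine ⟨(locGL v).mul_mem hg hh, ?_, ?_⟩
    all_goals simp only [Units.val_mul, Matrix.mul_apply, Fin.sum_univ_two] at hle ⊢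
    · exact (v.valuation L).map_add_lt (by
        rw [map_mul]; exact mul_lt_one_of_lt_of_le g10 (hh.1 _ _)) (by
        rw [map_mul]; exact Right.mul_lt_one_of_le_of_lt (hg.1 _ _) h10)
    · have hp : ∀ a b : L, v.valuation L a ≤ 1 → v.valuation L b ≤ 1 →
          v.valuation L (a * b) ≤ 1 := fun a b ha hb => by
        rw [map_mul]; exact mul_le_one' ha hb
      have e0 := valuation_pow_sub_pow_lt (v.valuation L) (hle 0 0)
        (hp _ _ (hg.1 0 0) (hh.1 0 0)) (by
          rw [add_sub_cancel_left, map_mul]; exact Right.mul_lt_one_of_le_of_lt (hg.1 _ _) h10) m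
      have e1 := valuation_pow_sub_pow_lt (v.valuation L) (hp _ _ (hg.1 1 1) (hh.1 1 1))
        (hle 1 1) (by
          rw [show ∀ a b : L, b - (a + b) = -a from fun a b => by ring, Valuation.map_neg, map_mul]
          exact mul_lt_one_of_lt_of_le g10 (hh.1 _ _)) m
      have e2 : v.valuation L ((g.val 0 0 * h.val 0 0) ^ m - (g.val 1 1 * h.val 1 1) ^ m) < 1 := by
        rw [show (g.val 0 0 * h.val 0 0) ^ m - (g.val 1 1 * h.val 1 1) ^ m =
          (g.val 0 0 ^ m - g.val 1 1 ^ m) * h.val 0 0 ^ m +
            g.val 1 1 ^ m * (h.val 0 0 ^ m - h.val 1 1 ^ m) by ring]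
        refine (v.valuation L).map_add_lt ?_ ?_ <;> rw [map_mul]
        · exact mul_lt_one_of_lt_of_le gd (by rw [map_pow]; exact pow_le_one₀ zero_le (hh.1 _ _))
        · exact Right.mul_lt_one_of_le_of_lt
            (by rw [map_pow]; exact pow_le_one₀ zero_le (hg.1 _ _)) hd
      have := (v.valuation L).map_add_lt ((v.valuation L).map_add_lt e0 e2) e1
      convert this using 2
      ring
  inv_mem' := by
    rintro g ⟨hg, g10, gd⟩
    refine ⟨(locGL v).inv_mem hg, ?_⟩
    rw [Matrix.coe_units_inv, Matrix.inv_def, Matrix.adjugate_fin_two]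
    simp only [Matrix.smul_apply, smul_eq_mul, Ring.inverse_eq_inv', Matrix.of_apply,
      Matrix.cons_val', Matrix.cons_val_zero, Matrix.cons_val_one, Matrix.empty_val',
      Matrix.cons_val_fin_one, mul_pow, ← mul_sub, map_mul, map_pow, map_inv₀, hg.2, inv_one,
      one_pow, one_mul, Valuation.map_neg]
    exact ⟨g10, by rwa [Valuation.map_sub_swap]⟩

/-- The tame level at `v` in `PGL₂`. -/
def locTame (v : HeightOneSpectrum (𝓞 L)) (m : ℕ) : Subgroup (G2 L) :=
  (locTameGL v m).map ProjGenLinGroup.mk

/-- Tame levels lie in the maximal compact group. -/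
lemma locTame_le (v : HeightOneSpectrum (𝓞 L)) (m : ℕ) : locTame v m ≤ locK v :=
  Subgroup.map_mono fun _ hg => hg.1

end FermatAgent.LT
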