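import Mathlib
import Fermat.Agent.LT.Base.Tame

/-!
# Finitely many adelic classes modulo the Borel subgroup

Iwasawa decomposition at each place, strong approximation for translations and finiteness of the
class group show that the upper triangular matrices have finitely many orbits on the finite adelic
coset space.
-/

set_option autoImplicit false

noncomputable section

open Matrix IsDedekindDomain NumberField Filter WithZero
open scoped MatrixGroups nonZeroDivisors

namespace FermatAgent.LT

variable {L : Type*} [Field L] [NumberField L]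

lemma count_spanSingleton (v : HeightOneSpectrum (𝓞 L)) {x : L} (hx : x ≠ 0) :
    v.valuation L x =
    exp (-FractionalIdeal.count L v (FractionalIdeal.spanSingleton (𝓞 L)⁰ x)) := by
  obtain ⟨r, s, hs, rfl⟩ := IsFractionRing.div_surjective (A := 𝓞 L) x
  have hs0 : s ≠ 0 := nonZeroDivisors.ne_zero hs
  have hr0 : r ≠ 0 := by rintro rfl; simp at hx
  have hne : FractionalIdeal.spanSingleton (𝓞 L)⁰
      (algebraMap (𝓞 L) L r / algebraMap (𝓞 L) L s) ≠ 0 :=
    FractionalIdeal.spanSingleton_ne_zero_iff.mpr hx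
  rw [FractionalIdeal.count_well_defined L v hne (a := s) (J := Ideal.span {r}) (by
      rw [FractionalIdeal.coeIdeal_span_singleton, FractionalIdeal.spanSingleton_mul_spanSingleton,
        div_eq_inv_mul]),
    map_div₀, HeightOneSpectrum.valuation_of_algebraMap, HeightOneSpectrum.valuation_of_algebraMap,
    HeightOneSpectrum.intValuation_if_neg _ hr0, HeightOneSpectrum.intValuation_if_neg _ hs0,
    div_eq_mul_inv, ← WithZero.exp_neg, ← WithZero.exp_add]
  congr 1
  ring

/-- Finitely many divisors represent all divisors modulo principal ones. -/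
theorem exists_divisor_reps :
    ∃ F : Finset (HeightOneSpectrum (𝓞 L) → ℤ), (∀ m ∈ F, ∀ᶠ v in cofinite, m v = 0) ∧
      ∀ n : HeightOneSpectrum (𝓞 L) → ℤ, (∀ᶠ v in cofinite, n v = 0) →
        ∃ a : L, a ≠ 0 ∧ ∃ m ∈ F, ∀ v, v.valuation L a = exp (m v - n v) := by
  classical
  let I : (HeightOneSpectrum (𝓞 L) → ℤ) → FractionalIdeal (𝓞 L)⁰ L := fun n =>
    ∏ᶠ v : HeightOneSpectrum (𝓞 L), (v.asIdeal : FractionalIdeal (𝓞 L)⁰ L) ^ n v
  have hI : ∀ n, I n ≠ 0 := fun n => finprod_induction (fun J => J ≠ 0) one_ne_zero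
    (fun _ _ h1 h2 => mul_ne_zero h1 h2)
    fun v => zpow_ne_zero _ (FractionalIdeal.coeIdeal_ne_zero.mpr v.ne_bot)
  let cl : (HeightOneSpectrum (𝓞 L) → ℤ) → ClassGroup (𝓞 L) := fun n =>
    ClassGroup.mk L (Units.mk0 (I n) (hI n))
  let S : Set (ClassGroup (𝓞 L)) := {c | ∃ n, (∀ᶠ v in cofinite, n v = 0) ∧ cl n = c}
  have hS : S.Finite := Set.toFinite S
  choose rep hrep hrepc using fun c : S => c.2
  have := hS.fintype
  refine ⟨Finset.univ.image rep, fun m hm => ?_, fun n hn => ?_⟩
  · obtain ⟨c, -, rfl⟩ := Finset.mem_image.mp hm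
    exact hrep c
  · let c : S := ⟨cl n, n, hn, rfl⟩
    have h1 :
        ClassGroup.mk L ((Units.mk0 (I n) (hI n)) * (Units.mk0 (I (rep c)) (hI _))⁻¹) = 1 := by
      rw [map_mul, map_inv, show ClassGroup.mk L (Units.mk0 (I (rep c)) (hI _)) =
        ClassGroup.mk L (Units.mk0 (I n) (hI n)) from hrepc c, mul_inv_cancel]
    obtain ⟨x, hx⟩ := (FractionalIdeal.isPrincipal_iff _).mp (ClassGroup.mk_eq_one_iff.mp h1)
    simp only [Units.val_mul, Units.val_inv_eq_inv_val, Units.val_mk0] at hx
    have hx0 : x ≠ 0 := by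
      rintro rfl
      rw [FractionalIdeal.spanSingleton_zero] at hx
      exact mul_ne_zero (hI n) (inv_ne_zero (hI _)) hx
    refine ⟨x, hx0, rep c, Finset.mem_image_of_mem _ (Finset.mem_univ c), fun v => ?_⟩
    rw [count_spanSingleton v hx0, ← hx, FractionalIdeal.count_mul L v (hI n) (inv_ne_zero (hI _)),
      FractionalIdeal.count_inv, FractionalIdeal.count_finprod L v n hn,
      FractionalIdeal.count_finprod L v (rep c) (hrep c)]
    congr 1
    ring

/-- **Strong approximation for the additive group**: prescribed congruences at a finite set of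
places, integral at the others. -/
theorem exists_strong_approx (s : Finset (HeightOneSpectrum (𝓞 L)))
    (β : HeightOneSpectrum (𝓞 L) → L) (γ : HeightOneSpectrum (𝓞 L) → WithZero (Multiplicative ℤ))
    (hγ : ∀ v, γ v ≠ 0) :
    ∃ y : L, (∀ v ∈ s, v.valuation L (y - β v) ≤ γ v) ∧ ∀ v ∉ s, v.valuation L y ≤ 1 := by
  classical
  obtain ⟨⟨d, hd⟩, hint⟩ := IsLocalization.exist_integer_multiples (𝓞 L)⁰ s β
  have hd0 : d ≠ 0 := nonZeroDivisors.ne_zero hd
  have hdL : (algebraMap (𝓞 L) L d) ≠ 0 := by simpa using hd0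
  choose r hr using hint
  let t := s ∪ (eventually_cofinite.mp (eventually_valuation_eq_one hdL)).toFinset
  let x : t → 𝓞 L := fun v => if h : v.1 ∈ s then r v.1 h else 0
  let N : HeightOneSpectrum (𝓞 L) → ℕ := fun v =>
    max (-log (γ v * v.valuation L (algebraMap (𝓞 L) L d))).toNat
      (-log (v.valuation L (algebraMap (𝓞 L) L d))).toNat
  obtain ⟨y, hy⟩ := IsDedekindDomain.exists_forall_sub_mem_ideal (s := t)
    (fun v => v.asIdeal) N (fun v _ => v.prime)
    (fun v _ w _ h e => h (HeightOneSpectrum.ext e)) x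
  refine ⟨algebraMap (𝓞 L) L y / algebraMap (𝓞 L) L d, fun v hv => ?_, fun v hv => ?_⟩
  · have hvt : v ∈ t := Finset.mem_union_left _ hv
    have h1 := (HeightOneSpectrum.intValuation_le_pow_iff_mem v _ _).mpr (hy v hvt)
    rw [← HeightOneSpectrum.valuation_of_algebraMap (K := L)] at h1
    simp only [x, dif_pos hv, map_sub] at h1
    rw [hr v hv, Algebra.smul_def] at h1
    have hvd : v.valuation L (algebraMap (𝓞 L) L d) ≠ 0 := by simpa using hd0
    rw [show algebraMap (𝓞 L) L y / algebraMap (𝓞 L) L d - β v =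
      (algebraMap (𝓞 L) L y - algebraMap (𝓞 L) L d * β v) / algebraMap (𝓞 L) L d by field_simp,
      map_div₀, div_le_iff₀ (zero_lt_iff.mpr hvd)]
    refine h1.trans ?_
    rw [← exp_log (mul_ne_zero (hγ v) hvd), exp_le_exp]
    simp only [N]
    omega
  · by_cases hvt : v ∈ t
    · have h1 := (HeightOneSpectrum.intValuation_le_pow_iff_mem v _ _).mpr (hy v hvt)
      rw [← HeightOneSpectrum.valuation_of_algebraMap (K := L)] at h1
      simp only [x, dif_neg hv, sub_zero] at h1
      have hvd : v.valuation L (algebraMap (𝓞 L) L d) ≠ 0 := by simpa using hd0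
      rw [map_div₀, div_le_iff₀ (zero_lt_iff.mpr hvd), one_mul]
      refine h1.trans ?_
      rw [← exp_log hvd, exp_le_exp]
      simp only [N]
      omega
    · have h1 : v.valuation L (algebraMap (𝓞 L) L d) = 1 := by
        simpa [t, hv] using hvt
      rw [map_div₀, h1, div_one]
      exact HeightOneSpectrum.valuation_le_one v y

/-- **Iwasawa decomposition over the field**: `GL₂(L)` is upper triangular matrices times the
integral matrices with unit determinant at `v`. -/
theorem exists_iwasawa (v : HeightOneSpectrum (𝓞 L)) (g : GL (Fin 2) L) :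
    ∃ b : GL (Fin 2) L, b.val 1 0 = 0 ∧ ∃ k ∈ locGL v, g = b * k := by
  suffices h : ∃ k ∈ locGL v, (g * k).val 1 0 = 0 by
    obtain ⟨k, hk, h⟩ := h
    exact ⟨g * k, h, k⁻¹, inv_mem hk, by group⟩
  by_cases hle : v.valuation L (g.val 1 0) ≤ v.valuation L (g.val 1 1)
  · have h1 : g.val 1 1 ≠ 0 := fun h1 => (GeneralLinearGroup.det g).ne_zero (by
      rw [h1, map_zero, le_zero_iff, map_eq_zero] at hle
      show g.val.det = 0
      simp [Matrix.det_fin_two, h1, hle])
    refine ⟨GeneralLinearGroup.mkOfDetNeZero !![1, 0; -(g.val 1 0 / g.val 1 1), 1]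
      (by simp [Matrix.det_fin_two]), ⟨fun i j => ?_, ?_⟩, ?_⟩
    · have hq : v.valuation L (g.val 1 0 / g.val 1 1) ≤ 1 := by
        rw [map_div₀, div_le_one₀ (zero_lt_iff.mpr (by simpa using h1))]; exact hle
      fin_cases i <;> fin_cases j <;> simp [GeneralLinearGroup.mkOfDetNeZero, -map_div₀, hq]
    · simp [GeneralLinearGroup.mkOfDetNeZero, Matrix.det_fin_two]
    · simp [GeneralLinearGroup.mkOfDetNeZero, Matrix.mul_apply, Fin.sum_univ_two]
      field_simp
      ring
  · have h0 : g.val 1 0 ≠ 0 := fun h0 => hle (by simp [h0])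
    refine ⟨GeneralLinearGroup.mkOfDetNeZero !![-(g.val 1 1 / g.val 1 0), 1; 1, 0]
      (by simp [Matrix.det_fin_two]), ⟨fun i j => ?_, ?_⟩, ?_⟩
    · have hq : v.valuation L (g.val 1 1 / g.val 1 0) ≤ 1 := by
        rw [map_div₀, div_le_one₀ (zero_lt_iff.mpr (by simpa using h0))]; exact (not_le.mp hle).le
      fin_cases i <;> fin_cases j <;> simp [GeneralLinearGroup.mkOfDetNeZero, -map_div₀, hq]
    · simp [GeneralLinearGroup.mkOfDetNeZero, Matrix.det_fin_two]
    · simp [GeneralLinearGroup.mkOfDetNeZero, Matrix.mul_apply, Fin.sum_univ_two]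
      field_simp
      ring

/-- An element of given valuation. -/
theorem exists_valuation_eq (v : HeightOneSpectrum (𝓞 L)) (n : ℤ) :
    ∃ p : L, p ≠ 0 ∧ v.valuation L p = exp n := by
  obtain ⟨π, hπ⟩ := v.valuation_exists_uniformizer L
  have hπ0 : π ≠ 0 := fun h => by
    rw [h, map_zero] at hπ
    exact WithZero.exp_ne_zero hπ.symm
  refine ⟨π ^ (-n), zpow_ne_zero _ hπ0, ?_⟩
  rw [map_zpow₀, hπ, ← WithZero.exp_zsmul]
  simp

/-- A level of finite index: each local subgroup has finite index in the maximal one. -/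
def Level.IsFiniteIndex (U : Level L) : Prop := ∀ v, (U.loc v).relIndex (locK v) ≠ 0

variable {U : Level L}

/-- Every finite coset is at each place an upper triangular matrix times a unit, trivially so
where the coset is the base. -/
private lemma exists_upper_rep (x : FinCoset U) (v : HeightOneSpectrum (𝓞 L)) :
    ∃ α β : L, α ≠ 0 ∧
      (∃ k ∈ locGL v, ∀ h : (!![α, β; 0, 1] : Matrix (Fin 2) (Fin 2) L).det ≠ 0,
        x.1 v = QuotientGroup.mk (ProjGenLinGroup.mk (GeneralLinearGroup.mkOfDetNeZero _ h * k))) ∧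
      (x.1 v = QuotientGroup.mk 1 → α = 1 ∧ β = 0) := by
  by_cases hx : x.1 v = QuotientGroup.mk 1
  · refine ⟨1, 0, one_ne_zero, ⟨1, one_mem _, fun h => ?_⟩, fun _ => ⟨rfl, rfl⟩⟩
    rw [hx, mul_one, show GeneralLinearGroup.mkOfDetNeZero _ h = (1 : GL (Fin 2) L) from
      Units.ext Matrix.one_fin_two.symm, map_one]
  · obtain ⟨g, hg⟩ := QuotientGroup.mk_surjective (x.1 v)
    obtain ⟨g, rfl⟩ := ProjGenLinGroup.mk_surjective g
    obtain ⟨b, hb, k, hk, rfl⟩ := exists_iwasawa v g
    have hb1 : b.val 1 1 ≠ 0 := fun h => (GeneralLinearGroup.det b).ne_zero (by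
      show b.val.det = 0
      simp [Matrix.det_fin_two, h, hb])
    have hb0 : b.val 0 0 ≠ 0 := fun h => (GeneralLinearGroup.det b).ne_zero (by
      show b.val.det = 0
      simp [Matrix.det_fin_two, h, hb])
    refine ⟨b.val 0 0 / b.val 1 1, b.val 0 1 / b.val 1 1, div_ne_zero hb0 hb1,
      ⟨k, hk, fun h => ?_⟩, fun h => absurd h hx⟩
    rw [← hg]
    congr 1
    rw [Matrix.ProjGenLinGroup.mk_eq_mk_iff]
    refine ⟨Units.mk0 (b.val 1 1)⁻¹ (inv_ne_zero hb1), ?_⟩
    apply Units.ext
    have hcomm : GeneralLinearGroup.scalar (Fin 2) (Units.mk0 (b.val 1 1)⁻¹ (inv_ne_zero hb1)) ∈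
        Subgroup.center (GL (Fin 2) L) := by
      rw [GeneralLinearGroup.center_eq_range_scalar]; exact ⟨_, rfl⟩
    rw [mul_assoc, Subgroup.mem_center_iff.mp hcomm k, ← mul_assoc]
    ext i j
    fin_cases i <;> fin_cases j <;>
      simp [GeneralLinearGroup.mkOfDetNeZero, GeneralLinearGroup.coe_scalar,
        Matrix.mul_apply, Fin.sum_univ_two, hb, div_eq_mul_inv] <;> field_simp

/-- The finite cosets given at each place by a translate of the maximal subgroup, almost everywhere
trivial, are finite. -/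
private lemma finite_setOf_local (hU : U.IsFiniteIndex) (D : HeightOneSpectrum (𝓞 L) → G2 L)
    (hD : ∀ᶠ v in cofinite, D v = 1) :
    {c : FinCoset U | ∀ v, ∃ k ∈ locK v, c.1 v = QuotientGroup.mk (D v * k)}.Finite := by
  classical
  let S := (eventually_cofinite.mp (hD.and U.eventually_eq)).toFinset
  have hfin : ∀ v, {c : G2 L ⧸ U.loc v | ∃ k ∈ locK v,
      c = QuotientGroup.mk (D v * k)}.Finite := by
    intro v
    have : Subgroup.FiniteIndex ((U.loc v).subgroupOf (locK v)) := ⟨hU v⟩
    let f : locK v ⧸ (U.loc v).subgroupOf (locK v) → G2 L ⧸ U.loc v :=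
      Quotient.lift (fun k : locK v => (QuotientGroup.mk (D v * k) : G2 L ⧸ U.loc v))
        fun a b hab => by
          rw [QuotientGroup.eq]
          have := QuotientGroup.leftRel_apply.mp hab
          simpa [Subgroup.mem_subgroupOf, mul_assoc] using this
    refine (Set.finite_range f).subset ?_
    rintro _ ⟨k, hk, rfl⟩
    exact ⟨QuotientGroup.mk ⟨k, hk⟩, rfl⟩
  refine Set.Finite.of_finite_image (f := fun c : FinCoset U => fun v : S => c.1 v)
    ((Set.Finite.pi fun v : S => hfin v).subset ?_) ?_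
  · rintro _ ⟨c, hc, rfl⟩ v -
    exact hc v
  · intro c hc c' hc' e
    refine FinCoset.ext fun v => ?_
    by_cases hv : v ∈ S
    · exact congrFun e ⟨v, hv⟩
    · simp only [S, Set.Finite.mem_toFinset, Set.mem_ofPred_eq, not_not] at hv
      have key : ∀ d : FinCoset U, (∀ v, ∃ k ∈ locK v, d.1 v = QuotientGroup.mk (D v * k)) →
          d.1 v = QuotientGroup.mk 1 := fun d hd => by
        obtain ⟨k, hk, hk'⟩ := hd v
        rw [hk', QuotientGroup.eq, mul_one, inv_mem_iff, hv.2]
        simpa [hv.1] using hk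
      rw [key c hc, key c' hc']

/-- **Finiteness of cusps**: at a level of finite index the upper triangular group has finitely
many orbits on finite cosets. -/
theorem exists_finite_borel_reps (hU : U.IsFiniteIndex) :
    ∃ C : Finset (FinCoset U), ∀ x : FinCoset U, ∃ b : GL (Fin 2) L, b.val 1 0 = 0 ∧
      (ProjGenLinGroup.mk b : G2 L) • x ∈ C := by
  classical
  obtain ⟨F, hF0, hF⟩ := exists_divisor_reps (L := L)
  choose p hp0 hp using exists_valuation_eq (L := L)
  let D : (HeightOneSpectrum (𝓞 L) → ℤ) → HeightOneSpectrum (𝓞 L) → G2 L := fun m v =>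
    if m v = 0 then 1 else ProjGenLinGroup.mk
      (GeneralLinearGroup.mkOfDetNeZero !![p v (m v), 0; 0, 1]
      (by simp [Matrix.det_fin_two, hp0]))
  let T : (HeightOneSpectrum (𝓞 L) → ℤ) → Set (FinCoset U) := fun m =>
    {c | ∀ v, ∃ k ∈ locK v, c.1 v = QuotientGroup.mk (D m v * k)}
  have hT : ∀ m ∈ F, (T m).Finite := fun m hm =>
    finite_setOf_local hU (D m) <| (hF0 m hm).mono fun v hv => if_pos hv
  refine ⟨(F.finite_toSet.biUnion fun m hm => hT m hm).toFinset, fun x => ?_⟩
  choose α β hα hk hdef using exists_upper_rep x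
  have hn : ∀ᶠ v : HeightOneSpectrum (𝓞 L) in cofinite, log (v.valuation L (α v)) = 0 :=
    x.2.mono fun v hv => by simp [(hdef v hv).1]
  obtain ⟨a', ha'0, m, hm, ha'⟩ := hF _ hn
  obtain ⟨a, ha0, ha⟩ : ∃ a : L, a ≠ 0 ∧
      ∀ v, v.valuation L a = exp (log (v.valuation L (α v)) - m v) :=
    ⟨a'⁻¹, inv_ne_zero ha'0, fun v => by rw [map_inv₀, ha' v, ← WithZero.exp_neg, neg_sub]⟩
  let s := (eventually_cofinite.mp x.2).toFinset
  obtain ⟨y, hy, hy'⟩ := exists_strong_approx s β (fun v => v.valuation L (α v))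
    fun v => by simpa using hα v
  refine ⟨(GeneralLinearGroup.mkOfDetNeZero !![a, y; 0, 1] (by simp [Matrix.det_fin_two, ha0]))⁻¹,
    ?_, ?_⟩
  · simp [GeneralLinearGroup.mkOfDetNeZero, Matrix.inv_def, Matrix.adjugate_fin_two,
      Matrix.coe_units_inv]
  · simp only [Set.Finite.mem_toFinset, Set.mem_iUnion₂]
    refine ⟨m, hm, fun v => ?_⟩
    obtain ⟨k, hk, hxv⟩ := hk v
    have hαdet : (!![α v, β v; 0, 1] : Matrix (Fin 2) (Fin 2) L).det ≠ 0 := by
      simp [Matrix.det_fin_two, hα]
    rw [FinCoset.smul_apply, hxv hαdet, MulAction.Quotient.smul_mk, smul_eq_mul]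
    have hval : v.valuation L (α v) = exp (m v) * v.valuation L a := by
      rw [ha v, ← exp_add]
      conv_lhs => rw [← exp_log (show v.valuation L (α v) ≠ 0 by simpa using hα v)]
      congr 1
      ring
    let q : L := if m v = 0 then 1 else p v (m v)
    have hq0 : q ≠ 0 := by simp only [q]; split_ifs; exacts [one_ne_zero, hp0 _ _]
    have hq : v.valuation L q = exp (m v) := by
      simp only [q]; split_ifs with h
      · simp [h]
      · exact hp _ _
    have hD : D m v = ProjGenLinGroup.mk (GeneralLinearGroup.mkOfDetNeZero !![q, 0; 0, 1]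
        (by simp [Matrix.det_fin_two, hq0])) := by
      simp only [D, q]
      split_ifs with h
      · rw [← map_one ProjGenLinGroup.mk]
        congr 1
        exact Units.ext Matrix.one_fin_two
      · rfl
    have hde :
        (!![α v / (a * q), (β v - y) / (a * q); 0, 1] : Matrix (Fin 2) (Fin 2) L).det ≠ 0 := by
      simp [Matrix.det_fin_two, hα, ha0, hq0]
    have hb1 : v.valuation L (α v / (a * q)) = 1 := by
      rw [map_div₀, map_mul, hq, hval, mul_comm, div_self]
      simpa using ha0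
    have hb2 : v.valuation L ((β v - y) / (a * q)) ≤ 1 := by
      rw [map_div₀, map_mul, hq, mul_comm, ← hval,
        div_le_one₀ (zero_lt_iff.mpr (by simpa using hα v)),
        Valuation.map_sub_swap]
      by_cases hv : v ∈ s
      · exact hy v hv
      · have hx1 : x.1 v = QuotientGroup.mk 1 := by simpa [s] using hv
        rw [(hdef v hx1).1, (hdef v hx1).2, sub_zero, map_one]
        exact hy' v hv
    refine ⟨ProjGenLinGroup.mk (GeneralLinearGroup.mkOfDetNeZero _ hde * k),
      ⟨_, (locGL v).mul_mem ⟨fun i j => ?_, ?_⟩ hk, rfl⟩, ?_⟩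
    · fin_cases i <;> fin_cases j <;>
        simp [GeneralLinearGroup.mkOfDetNeZero, -map_div₀, hb1, hb2]
    · simpa [GeneralLinearGroup.mkOfDetNeZero, Matrix.det_fin_two, -map_div₀] using hb1
    · rw [hD, ← map_mul, ← map_mul]
      refine congrArg (fun g : GL (Fin 2) L =>
        (QuotientGroup.mk (ProjGenLinGroup.mk g) : G2 L ⧸ U.loc v)) ?_
      rw [← mul_assoc, ← mul_assoc]
      congr 1
      rw [inv_mul_eq_iff_eq_mul]
      apply Units.ext
      ext i j
      fin_cases i <;> fin_cases j <;>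
        simp [GeneralLinearGroup.mkOfDetNeZero, Matrix.mul_apply, Fin.sum_univ_two] <;>
        field_simp; ring

end FermatAgent.LT
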