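import Mathlib
import Fermat.Agent.LT.Base.Classes

/-!
# Finite index of congruence subgroups at a place
-/

set_option autoImplicit false

noncomputable section

open Matrix IsDedekindDomain NumberField Filter WithZero
open scoped MatrixGroups

namespace FermatAgent.LT

variable {L : Type*} [Field L] [NumberField L]

/-- Integers approximate local integers modulo the prime. -/
lemma exists_integer_near (v : HeightOneSpectrum (𝓞 L)) {x : L} (hx : v.valuation L x ≤ 1) :
    ∃ a : 𝓞 L, v.valuation L (x - a) < 1 := by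
  rcases eq_or_ne x 0 with rfl | hx0
  · exact ⟨0, by simp⟩
  obtain ⟨n', ⟨d', hd'⟩, he⟩ := v.exists_primeCompl_mul_eq_of_integer x hx
  have := v.isMaximal
  have hdne : (Ideal.Quotient.mk v.asIdeal) (d' : 𝓞 L) ≠ 0 := by
    rw [Ne, Ideal.Quotient.eq_zero_iff_mem]; exact hd'
  let F := Ideal.Quotient.field v.asIdeal
  obtain ⟨a, ha⟩ := Ideal.Quotient.mk_surjective
    ((Ideal.Quotient.mk v.asIdeal) n' * (Ideal.Quotient.mk v.asIdeal (d' : 𝓞 L))⁻¹)
  refine ⟨a, ?_⟩
  have hmem : n' - a * d' ∈ v.asIdeal := by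
    rw [← Ideal.Quotient.eq, map_mul, ha, mul_assoc, inv_mul_cancel₀ hdne, mul_one]
  have h1 := (HeightOneSpectrum.valuation_lt_one_iff_mem (K := L) v _).mpr hmem
  push_cast at h1
  simp only [← RingOfIntegers.coe_eq_algebraMap] at he h1
  rw [← he, ← sub_mul, map_mul,
    show v.valuation L (d' : L) = 1 from (HeightOneSpectrum.valuation_eq_one_iff_notMem v).mpr hd',
    mul_one] at h1
  exact h1

lemma exists_integer_near_pow (v : HeightOneSpectrum (𝓞 L)) (m : ℕ) :
    ∀ {x : L}, v.valuation L x ≤ 1 →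
      ∃ a : 𝓞 L, v.valuation L (x - a) ≤ WithZero.exp (-((m : ℤ) + 1)) := by
  have hlt : ∀ {y : L}, v.valuation L y < 1 → v.valuation L y ≤ WithZero.exp (-1 : ℤ) :=
    fun {y} h => by
    rcases eq_or_ne (v.valuation L y) 0 with h0 | h0
    · rw [h0]; exact zero_le
    · rw [← WithZero.exp_log h0] at h ⊢
      rw [← WithZero.exp_zero, WithZero.exp_lt_exp] at h
      rw [WithZero.exp_le_exp]; omega
  induction m with
  | zero =>
    intro x hx
    obtain ⟨a, ha⟩ := exists_integer_near v hx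
    exact ⟨a, by simpa using hlt ha⟩
  | succ m ih =>
    intro x hx
    obtain ⟨π, hπ⟩ := v.intValuation_exists_uniformizer
    have hπ' : v.valuation L (π : L) = WithZero.exp (-1 : ℤ) := by
      rw [RingOfIntegers.coe_eq_algebraMap, HeightOneSpectrum.valuation_of_algebraMap]; exact hπ
    obtain ⟨a, ha⟩ := exists_integer_near v hx
    obtain ⟨b, hb⟩ := ih (x := (x - a) / (π : L)) (by
      rw [map_div₀, hπ']; exact div_le_one_of_le₀ (hlt ha) zero_le)
    refine ⟨a + π * b, ?_⟩
    have hπ0 : (π : L) ≠ 0 := fun h => WithZero.exp_ne_zero (by rw [← hπ', h, map_zero])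
    rw [show x - ((a + π * b : 𝓞 L) : L) = (π : L) * ((x - a) / (π : L) - b) by
      push_cast; field_simp; ring, map_mul, hπ']
    refine (mul_le_mul' le_rfl hb).trans (le_of_eq ?_)
    rw [← WithZero.exp_add]; congr 1; push_cast; ring

/-- A subgroup containing the elements close to one has finite index. -/
lemma relIndex_ne_zero_of_small (v : HeightOneSpectrum (𝓞 L)) (n : ℕ) {H : Subgroup (G2 L)}
    (hn : ∀ g ∈ locGL v,
      (∀ i j, v.valuation L ((g.val - 1) i j) ≤ WithZero.exp (-((n : ℤ) + 1))) →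
        ProjGenLinGroup.mk g ∈ H) :
    H.relIndex (locK v) ≠ 0 := by
  classical
  have : Finite (𝓞 L ⧸ v.asIdeal ^ (n + 1)) :=
    Ideal.finiteQuotientOfFreeOfNeBot _ (pow_ne_zero _ v.ne_bot)
  choose a ha using fun (g : locGL v) (i j : Fin 2) => exists_integer_near_pow v n (g.2.1 i j)
  let f : locGL v → (Fin 2 → Fin 2 → 𝓞 L ⧸ v.asIdeal ^ (n + 1)) := fun g i j =>
    Ideal.Quotient.mk _ (a g i j)
  have key : ∀ g h : locGL v, f g = f h → ProjGenLinGroup.mk (g.1⁻¹ * h.1) ∈ H := by
    intro g h e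
    have hd : ∀ i j, v.valuation L (h.1.val i j - g.1.val i j) ≤
        WithZero.exp (-((n : ℤ) + 1)) := fun i j => by
      have h1 : v.valuation L ((a h i j : L) - a g i j) ≤ WithZero.exp (-((n : ℤ) + 1)) := by
        rw [← map_sub (algebraMap (𝓞 L) L), HeightOneSpectrum.valuation_of_algebraMap]
        exact_mod_cast (v.intValuation_le_pow_iff_mem _ (n + 1)).2
          (Ideal.Quotient.eq.mp (congrFun (congrFun e i) j).symm)
      rw [show h.1.val i j - g.1.val i j = (h.1.val i j - (a h i j : L)) +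
        ((a h i j : L) - (a g i j : L)) - (g.1.val i j - (a g i j : L)) by ring]
      exact ((v.valuation L).map_sub _ _).trans
        (max_le (((v.valuation L).map_add _ _).trans (max_le (ha h i j) h1)) (ha g i j))
    refine hn _ ((locGL v).mul_mem ((locGL v).inv_mem g.2) h.2) fun i j => ?_
    have e1 : (g.1⁻¹ * h.1).val - 1 = (g.1⁻¹).val * (h.1.val - g.1.val) := by
      rw [Matrix.mul_sub, ← Units.val_mul, Units.inv_mul]
    rw [e1]
    simp only [Matrix.mul_apply, Fin.sum_univ_two, Matrix.sub_apply]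
    refine ((v.valuation L).map_add _ _).trans (max_le ?_ ?_) <;> rw [map_mul] <;>
      exact (mul_le_of_le_one_left zero_le (((locGL v).inv_mem g.2).1 _ _)).trans (hd _ _)
  let p : locGL v → locK v ⧸ H.subgroupOf (locK v) := fun g =>
    QuotientGroup.mk ⟨ProjGenLinGroup.mk g.1, g.1, g.2, rfl⟩
  let g0 : Set.range f → locGL v := fun y => y.2.choose
  have : Finite (locK v ⧸ H.subgroupOf (locK v)) :=
    Finite.of_surjective (fun y : Set.range f => p (g0 y)) fun q => by
      obtain ⟨⟨k, g, hg, rfl⟩, rfl⟩ := QuotientGroup.mk_surjective q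
      refine ⟨⟨f ⟨g, hg⟩, ⟨g, hg⟩, rfl⟩, QuotientGroup.eq.mpr ?_⟩
      rw [Subgroup.mem_subgroupOf, Subgroup.coe_mul, Subgroup.coe_inv, ← map_inv, ← map_mul]
      exact key _ _ (⟨f ⟨g, hg⟩, ⟨g, hg⟩, rfl⟩ : Set.range f).2.choose_spec
  exact (Subgroup.finiteIndex_of_finite_quotient (H := H.subgroupOf (locK v))).index_ne_zero

/-- The congruence subgroup has finite index. -/
lemma relIndex_locK1_ne_zero (v : HeightOneSpectrum (𝓞 L)) :
    (locK1 v).relIndex (locK v) ≠ 0 :=
  relIndex_ne_zero_of_small v 0 fun g hg h => by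
    have hlt : ∀ i j, v.valuation L ((g.val - 1) i j) < 1 := fun i j =>
      (h i j).trans_lt (by rw [← exp_zero, exp_lt_exp]; norm_num)
    refine ⟨g, ⟨hg, by simpa using hlt 0 1, by simpa using hlt 1 0, ?_⟩, rfl⟩
    rw [show g.val 0 0 - g.val 1 1 = (g.val - 1) 0 0 - (g.val - 1) 1 1 by simp]
    exact ((v.valuation L).map_sub _ _).trans_lt (max_lt (hlt 0 0) (hlt 1 1))

/-- The congruence subgroup lies in the tame levels. -/
lemma locK1_le_locTame (v : HeightOneSpectrum (𝓞 L)) (m : ℕ) : locK1 v ≤ locTame v m :=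
  Subgroup.map_mono fun _ hg => ⟨hg.1, hg.2.2.1,
    valuation_pow_sub_pow_lt _ (hg.1.1 0 0) (hg.1.1 1 1) hg.2.2.2 m⟩

end FermatAgent.LT
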