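import Mathlib
import Fermat.Agent.LT.Base.Places

/-!
# Heights of lines at points of the adelic space

For a nonzero row vector `ξ` and a point `x`, `M ξ x` is the product over all places of the squared
norm of `ξ g` divided by the norm of `det g`.  It only depends on the line of `ξ`, satisfies
`M ξ (γ • x) = M (ξ γ) x`, and `M ξ x * M η x ≥ 1` for independent vectors.
-/

set_option autoImplicit false

noncomputable section

open Matrix IsDedekindDomain NumberField Filter
open scoped MatrixGroups ComplexConjugate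

namespace FermatAgent.LT

variable {L : Type*} [Field L] [NumberField L]

/-- The absolute value at a finite place. -/
def absV (v : HeightOneSpectrum (𝓞 L)) : AbsoluteValue L ℝ :=
  HeightOneSpectrum.adicAbv L v

/-- The absolute value of a given valuation. -/
lemma absV_of_valuation {v : HeightOneSpectrum (𝓞 L)} {x : L} {n : ℤ}
    (h : v.valuation L x = WithZero.exp n) :
    absV v x = (v.asIdeal.absNorm : ℝ) ^ n := by
  rw [absV, HeightOneSpectrum.adicAbv_def, h,
    WithZeroMulInt.toNNReal_neg_apply _ WithZero.exp_ne_zero]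
  simp [WithZero.exp]

/-- Absolute value at most one means integral. -/
lemma absV_le_one_iff (v : HeightOneSpectrum (𝓞 L)) (x : L) :
    absV v x ≤ 1 ↔ v.valuation L x ≤ 1 := by
  rw [absV, HeightOneSpectrum.adicAbv_def, NNReal.coe_le_one,
    WithZeroMulInt.toNNReal_le_one_iff (HeightOneSpectrum.one_lt_absNorm_nnreal v)]

/-- Absolute value one means unit. -/
lemma absV_eq_one_iff (v : HeightOneSpectrum (𝓞 L)) (x : L) :
    absV v x = 1 ↔ v.valuation L x = 1 := by
  rw [absV, HeightOneSpectrum.adicAbv_def, NNReal.coe_eq_one,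
    WithZeroMulInt.toNNReal_eq_one_iff _ _
      (HeightOneSpectrum.one_lt_absNorm_nnreal v).ne']

/-- The ultrametric inequality. -/
lemma absV_add_le (v : HeightOneSpectrum (𝓞 L)) (x y : L) :
    absV v (x + y) ≤ max (absV v x) (absV v y) :=
  HeightOneSpectrum.adicAbv_add_le_max L v x y

/-- Almost all absolute values are one. -/
lemma eventually_absV_eq_one {x : L} (hx : x ≠ 0) :
    ∀ᶠ v : HeightOneSpectrum (𝓞 L) in cofinite, absV v x = 1 :=
  (eventually_valuation_eq_one hx).mono fun v h => (absV_eq_one_iff v x).mpr h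

/-- The product formula. -/
lemma product_formula {x : L} (hx : x ≠ 0) :
    (∏ w : InfinitePlace L, w x ^ w.mult) * ∏ᶠ v : HeightOneSpectrum (𝓞 L), absV v x = 1 := by
  have h := NumberField.prod_abs_eq_one hx
  rw [← finprod_comp_equiv FinitePlace.equivHeightOneSpectrum.symm] at h
  simpa [absV, FinitePlace.equivHeightOneSpectrum_symm_apply, FinitePlace.norm_embedding] using h

/-- The max norm of a row vector. -/
def vecAbs (v : HeightOneSpectrum (𝓞 L)) (ξ : Fin 2 → L) : ℝ :=
  max (absV v (ξ 0)) (absV v (ξ 1))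

lemma vecAbs_vecMul_le (v : HeightOneSpectrum (𝓞 L)) (ξ : Fin 2 → L) {g : GL (Fin 2) L}
    (hg : g ∈ locGL v) : vecAbs v (ξ ᵥ* g.val) ≤ vecAbs v ξ := by
  have h : ∀ i j, absV v (g.val i j) ≤ 1 := fun i j => (absV_le_one_iff v _).mpr (hg.1 i j)
  have hn : ∀ a, 0 ≤ absV v a := fun a => AbsoluteValue.nonneg _ _
  refine max_le ?_ ?_ <;>
  · simp only [Matrix.vecMul, dotProduct, Fin.sum_univ_two]
    refine (absV_add_le v _ _).trans (max_le_max ?_ ?_) <;> rw [map_mul] <;>
      exact mul_le_of_le_one_right (hn _) (h _ _)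

lemma vecAbs_vecMul_eq (v : HeightOneSpectrum (𝓞 L)) (ξ : Fin 2 → L) {g : GL (Fin 2) L}
    (hg : g ∈ locGL v) : vecAbs v (ξ ᵥ* g.val) = vecAbs v ξ := by
  refine le_antisymm (vecAbs_vecMul_le v ξ hg) ?_
  have := vecAbs_vecMul_le v (ξ ᵥ* g.val) ((locGL v).inv_mem hg)
  rwa [Matrix.vecMul_vecMul, ← Units.val_mul, mul_inv_cancel, Units.val_one,
    Matrix.vecMul_one] at this

lemma absV_det_le (v : HeightOneSpectrum (𝓞 L)) (ξ η : Fin 2 → L) :
    absV v (ξ 0 * η 1 - ξ 1 * η 0) ≤ vecAbs v ξ * vecAbs v η := by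
  rw [sub_eq_add_neg]
  refine (absV_add_le v _ _).trans (max_le ?_ ?_) <;> simp only [map_mul, AbsoluteValue.map_neg]
  · exact mul_le_mul (le_max_left _ _) (le_max_right _ _) (AbsoluteValue.nonneg _ _)
      (le_max_of_le_left (AbsoluteValue.nonneg _ _))
  · exact mul_le_mul (le_max_right _ _) (le_max_left _ _) (AbsoluteValue.nonneg _ _)
      (le_max_of_le_left (AbsoluteValue.nonneg _ _))

/-- The local height on representatives. -/
def locMGL (v : HeightOneSpectrum (𝓞 L)) (ξ : Fin 2 → L) (g : GL (Fin 2) L) : ℝ :=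
  vecAbs v (ξ ᵥ* g.val) ^ 2 / absV v g.val.det

/-- Local sizes do not see scalars. -/
lemma locMGL_scalar (v : HeightOneSpectrum (𝓞 L)) (ξ : Fin 2 → L) (g : GL (Fin 2) L) (u : Lˣ) :
    locMGL v ξ (g * GeneralLinearGroup.scalar (Fin 2) u) = locMGL v ξ g := by
  have hu : absV v (u : L) ≠ 0 := by simp
  unfold locMGL vecAbs
  simp only [Units.val_mul, Matrix.det_mul, GeneralLinearGroup.coe_scalar, ← Matrix.vecMul_vecMul]
  rw [Matrix.det_fin_two (Matrix.scalar (Fin 2) (u : L))]
  simp [Matrix.vecMul_diagonal, map_mul, ← max_mul_of_nonneg, mul_pow]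
  field_simp

lemma locMGL_mul (v : HeightOneSpectrum (𝓞 L)) (ξ : Fin 2 → L) (g h : GL (Fin 2) L) :
    locMGL v ξ (g * h) = locMGL v (ξ ᵥ* g.val) h / absV v g.val.det := by
  unfold locMGL
  rw [Units.val_mul, Matrix.vecMul_vecMul, Matrix.det_mul, map_mul]
  field_simp

/-- Local sizes are right invariant under the maximal compact group. -/
lemma locMGL_mul_locGL (v : HeightOneSpectrum (𝓞 L)) (ξ : Fin 2 → L) (g : GL (Fin 2) L)
    {k : GL (Fin 2) L} (hk : k ∈ locGL v) : locMGL v ξ (g * k) = locMGL v ξ g := by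
  unfold locMGL
  rw [Units.val_mul, ← Matrix.vecMul_vecMul, vecAbs_vecMul_eq v _ hk, Matrix.det_mul, map_mul,
    (absV_eq_one_iff v _).mpr hk.2, mul_one]

variable {U : Level L}

/-- The local height of a coset. -/
def locM (v : HeightOneSpectrum (𝓞 L)) (ξ : Fin 2 → L) (c : G2 L ⧸ U.loc v) : ℝ :=
  Quotient.liftOn' c
    (fun g : G2 L => Quotient.liftOn' g (locMGL v ξ) (fun a b hab => by
      rw [QuotientGroup.leftRel_apply, GeneralLinearGroup.center_eq_range_scalar] at hab
      obtain ⟨u, hu⟩ := hab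
      rw [show b = a * GeneralLinearGroup.scalar (Fin 2) u by rw [hu]; group, locMGL_scalar]))
    (fun a b hab => by
      rw [QuotientGroup.leftRel_apply] at hab
      obtain ⟨k, hk, hkm⟩ := U.le v hab
      induction a using Matrix.ProjGenLinGroup.induction_on with | mk a =>
      induction b using Matrix.ProjGenLinGroup.induction_on with | mk b =>
      rw [← map_inv, ← map_mul, Matrix.ProjGenLinGroup.mk_eq_mk_iff] at hkm
      obtain ⟨u, hu⟩ := hkm
      show locMGL v ξ a = locMGL v ξ b
      have hb : b = a * k * GeneralLinearGroup.scalar (Fin 2) u := by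
        rw [mul_assoc, hu]; group
      rw [hb, locMGL_scalar, locMGL_mul_locGL v ξ a hk])

/-- The local size of a coset. -/
@[simp] lemma locM_mk (v : HeightOneSpectrum (𝓞 L)) (ξ : Fin 2 → L) (g : GL (Fin 2) L) :
    locM v ξ (QuotientGroup.mk (ProjGenLinGroup.mk g) : G2 L ⧸ U.loc v) = locMGL v ξ g := rfl

/-- The local size under the action of a matrix. -/
lemma locM_smul (v : HeightOneSpectrum (𝓞 L)) (ξ : Fin 2 → L) (g : GL (Fin 2) L)
    (c : G2 L ⧸ U.loc v) :
    locM v ξ (ProjGenLinGroup.mk g • c) = locM v (ξ ᵥ* g.val) c / absV v g.val.det := by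
  induction c using QuotientGroup.induction_on with | H h =>
  induction h using Matrix.ProjGenLinGroup.induction_on with | mk h =>
  rw [MulAction.Quotient.smul_mk, smul_eq_mul, ← map_mul, locM_mk, locM_mk, locMGL_mul]

/-- Local sizes are positive. -/
lemma locM_pos (v : HeightOneSpectrum (𝓞 L)) {ξ : Fin 2 → L} (hξ : ξ ≠ 0) (c : G2 L ⧸ U.loc v) :
    0 < locM v ξ c := by
  induction c using QuotientGroup.induction_on with | H h =>
  induction h using Matrix.ProjGenLinGroup.induction_on with | mk h =>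
  rw [locM_mk, locMGL]
  have hd : 0 < absV v h.val.det :=
    AbsoluteValue.pos _ (GeneralLinearGroup.det h).ne_zero
  refine div_pos (pow_pos ?_ 2) hd
  have hne : ξ ᵥ* h.val ≠ 0 := fun h0 => hξ (by
    have := congrArg (fun x => x ᵥ* (h⁻¹).val) h0
    simpa [Matrix.vecMul_vecMul, ← Units.val_mul] using this)
  obtain ⟨i, hi⟩ := Function.ne_iff.mp hne
  fin_cases i
  · exact lt_max_of_lt_left (AbsoluteValue.pos _ hi)
  · exact lt_max_of_lt_right (AbsoluteValue.pos _ hi)

/-- `ξ` and `η` have local heights with product at least the norm of their determinant. -/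
lemma le_locM_mul (v : HeightOneSpectrum (𝓞 L)) (ξ η : Fin 2 → L) (c : G2 L ⧸ U.loc v) :
    absV v (ξ 0 * η 1 - ξ 1 * η 0) ^ 2 ≤ locM v ξ c * locM v η c := by
  induction c using QuotientGroup.induction_on with | H h =>
  induction h using Matrix.ProjGenLinGroup.induction_on with | mk h =>
  simp only [locM_mk, locMGL]
  have hd : 0 < absV v h.val.det := AbsoluteValue.pos _ (GeneralLinearGroup.det h).ne_zero
  have hkey := absV_det_le v (ξ ᵥ* h.val) (η ᵥ* h.val)
  have hdet : (ξ ᵥ* h.val) 0 * (η ᵥ* h.val) 1 - (ξ ᵥ* h.val) 1 * (η ᵥ* h.val) 0 =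
      (ξ 0 * η 1 - ξ 1 * η 0) * h.val.det := by
    simp only [Matrix.vecMul, dotProduct, Fin.sum_univ_two, Matrix.det_fin_two]
    ring
  rw [hdet, map_mul] at hkey
  rw [div_mul_div_comm, le_div_iff₀ (mul_pos hd hd), ← mul_pow, ← pow_two, ← mul_pow]
  exact pow_le_pow_left₀ (mul_nonneg (AbsoluteValue.nonneg _ _) hd.le) hkey 2

/-- Almost all local sizes are one. -/
lemma eventually_locM_eq_one {ξ : Fin 2 → L} (hξ : ξ ≠ 0) (x : FinCoset U) :
    ∀ᶠ v : HeightOneSpectrum (𝓞 L) in cofinite, locM v ξ (x.1 v) = 1 := by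
  obtain ⟨i, hi⟩ := Function.ne_iff.mp hξ
  have hle : ∀ᶠ v : HeightOneSpectrum (𝓞 L) in cofinite, ∀ j, absV v (ξ j) ≤ 1 :=
    eventually_all.mpr fun j =>
      (eventually_valuation_le_one (ξ j)).mono fun v h => (absV_le_one_iff v _).mpr h
  filter_upwards [x.2, hle, eventually_absV_eq_one hi] with v hx hv hiv
  rw [hx]
  show locMGL v ξ 1 = 1
  have hv' : vecAbs v ξ = 1 := by
    refine le_antisymm (max_le (hv 0) (hv 1)) ?_
    fin_cases i
    · exact le_max_of_le_left hiv.ge
    · exact le_max_of_le_right hiv.ge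
  simp [locMGL, hv']

/-- The archimedean height: the hermitian form of the point evaluated at a vector. -/
def archQ (ξ : Fin 2 → ℂ) (p : H3) : ℝ :=
  p.t * Complex.normSq (ξ 0) + Complex.normSq (ξ 0 * p.z + ξ 1) / p.t

/-- The archimedean form is positive. -/
lemma archQ_pos {ξ : Fin 2 → ℂ} (hξ : ξ ≠ 0) (p : H3) : 0 < archQ ξ p := by
  unfold archQ
  by_cases h : ξ 0 = 0
  · have h1 : ξ 1 ≠ 0 := fun h1 => hξ (by funext i; fin_cases i <;> simp [h, h1])
    simp [h, h1, p.t_pos]
  · have : 0 < p.t * Complex.normSq (ξ 0) := mul_pos p.t_pos (Complex.normSq_pos.mpr h)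
    linarith [div_nonneg (Complex.normSq_nonneg (ξ 0 * p.z + ξ 1)) p.t_pos.le]

lemma archQ_eq (ξ : Fin 2 → ℂ) (p : H3) :
    (archQ ξ p : ℂ) = (ξ ᵥ* p.herm) ⬝ᵥ (star ξ) := by
  have ht : (p.t : ℂ) ≠ 0 := by exact_mod_cast p.t_pos.ne'
  simp [archQ, H3.herm, Matrix.vecMul, dotProduct, Fin.sum_univ_two,
    Complex.normSq_eq_conj_mul_self]
  field_simp
  ring

/-- The archimedean form under the action. -/
lemma archQ_smul (ξ : Fin 2 → ℂ) (g : GL (Fin 2) ℂ) (p : H3) :
    archQ ξ (g • p) = archQ (ξ ᵥ* g.val) p / ‖g.val.det‖ := by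
  have h : (archQ ξ (g • p) : ℂ) = ((archQ (ξ ᵥ* g.val) p / ‖g.val.det‖ : ℝ) : ℂ) := by
    push_cast
    rw [archQ_eq, archQ_eq, H3.smul_def, H3.herm_act, div_eq_inv_mul]
    simp only [Matrix.vecMul_smul, smul_dotProduct, smul_eq_mul, Matrix.star_vecMul,
      Matrix.dotProduct_mulVec, Matrix.vecMul_vecMul, Matrix.mul_assoc]
  exact_mod_cast h

/-- The product of two archimedean forms bounds the determinant. -/
lemma le_archQ_mul (ξ η : Fin 2 → ℂ) (p : H3) :
    Complex.normSq (ξ 0 * η 1 - ξ 1 * η 0) ≤ archQ ξ p * archQ η p := by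
  obtain ⟨g, hg, hgv⟩ := H3.exists_smul_base p
  rw [← hg, archQ_smul, archQ_smul]
  set a := ξ ᵥ* g.val
  set b := η ᵥ* g.val
  have hab : a 0 * b 1 - a 1 * b 0 = (ξ 0 * η 1 - ξ 1 * η 0) * g.val.det := by
    simp only [a, b, Matrix.vecMul, dotProduct, Fin.sum_univ_two, Matrix.det_fin_two]
    ring
  have hn : ‖g.val.det‖ ≠ 0 := by
    simpa using (GeneralLinearGroup.det g).ne_zero
  have key : Complex.normSq (a 0 * b 1 - a 1 * b 0) ≤
      (Complex.normSq (a 0) + Complex.normSq (a 1)) *
        (Complex.normSq (b 0) + Complex.normSq (b 1)) := by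
    have : (Complex.normSq (a 0) + Complex.normSq (a 1)) * (Complex.normSq (b 0) +
        Complex.normSq (b 1)) = Complex.normSq (a 0 * b 1 - a 1 * b 0) +
        Complex.normSq (a 0 * conj (b 0) + a 1 * conj (b 1)) := by
      simp [Complex.normSq_apply]
      ring
    linarith [Complex.normSq_nonneg (a 0 * conj (b 0) + a 1 * conj (b 1))]
  rw [hab, Complex.normSq_mul, Complex.normSq_eq_norm_sq g.val.det] at key
  simp only [archQ, H3.base, mul_zero, zero_add, one_mul, div_one]
  rw [div_mul_div_comm, le_div_iff₀ (by positivity), ← pow_two]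
  exact key

namespace Space

/-- The height function of the line through `ξ` (small values mean high in the cusp). -/
def M (ξ : Fin 2 → L) (x : Space U) : ℝ :=
  (∏ w : InfinitePlace L, archQ (fun i => w.embedding (ξ i)) (x.1 w) ^ w.mult) *
    ∏ᶠ v : HeightOneSpectrum (𝓞 L), locM v ξ (x.2.1 v)

/-- The height of a line is positive. -/
lemma M_pos {ξ : Fin 2 → L} (hξ : ξ ≠ 0) (x : Space U) : 0 < M ξ x := by
  refine mul_pos (Finset.prod_pos fun w _ => pow_pos (archQ_pos (fun h => hξ ?_) _) _)
    (finprod_induction (fun y : ℝ => 0 < y) one_pos (fun _ _ => mul_pos) fun v => locM_pos v hξ _)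
  funext i
  have := congrFun h i
  simpa using this

/-- Almost all local sizes at a point are one. -/
lemma hasFiniteMulSupport_locM {ξ : Fin 2 → L} (hξ : ξ ≠ 0) (x : Space U) :
    Function.HasFiniteMulSupport fun v => locM v ξ (x.2.1 v) :=
  Set.Finite.subset (eventually_locM_eq_one hξ x.2) fun _ hv => hv

/-- The height transforms under the group. -/
lemma M_smul {ξ : Fin 2 → L} (hξ : ξ ≠ 0) (g : GL (Fin 2) L) (x : Space U) :
    M ξ (ProjGenLinGroup.mk g • x) = M (ξ ᵥ* g.val) x := by
  have hne : ξ ᵥ* g.val ≠ 0 := fun h0 => hξ (by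
    have := congrArg (fun x => x ᵥ* (g⁻¹).val) h0
    simpa [Matrix.vecMul_vecMul, ← Units.val_mul] using this)
  have hd : g.val.det ≠ 0 := (GeneralLinearGroup.det g).ne_zero
  unfold M
  have hinf : ∀ w : InfinitePlace L,
      archQ (fun i => w.embedding (ξ i)) ((ProjGenLinGroup.mk g • x).1 w) =
      archQ (fun i => w.embedding ((ξ ᵥ* g.val) i)) (x.1 w) / w g.val.det := by
    intro w
    rw [Prod.smul_fst, infPts_smul_apply, ProjGenLinGroup.map_mk, H3.mk_smul, archQ_smul]
    congr 1
    · congr 1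
      funext i
      simp [Matrix.vecMul, dotProduct]
    · show ‖(g.val.map w.embedding).det‖ = _
      rw [← RingHom.mapMatrix_apply, ← RingHom.map_det]
      exact InfinitePlace.norm_embedding_eq w _
  have hfin : ∀ v, locM v ξ ((ProjGenLinGroup.mk g • x).2.1 v) =
      locM v (ξ ᵥ* g.val) (x.2.1 v) / absV v g.val.det := fun v => by
    rw [Prod.smul_snd, FinCoset.smul_apply, locM_smul]
  simp only [hinf, hfin, div_pow, Finset.prod_div_distrib]
  rw [finprod_div_distrib (hasFiniteMulSupport_locM hne x)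
    (Set.Finite.subset (eventually_absV_eq_one hd) fun v hv => hv)]
  have hp := product_formula hd
  rw [div_mul_div_comm, hp, div_one]

/-- The height depends only on the line. -/
lemma M_smul_vec {ξ : Fin 2 → L} (hξ : ξ ≠ 0) {a : L} (ha : a ≠ 0) (x : Space U) :
    M (a • ξ) x = M ξ x := by
  have h : M (ξ ᵥ* (GeneralLinearGroup.scalar (Fin 2) (Units.mk0 a ha)).val) x =
      M ξ (ProjGenLinGroup.mk (GeneralLinearGroup.scalar (Fin 2) (Units.mk0 a ha)) • x) :=
    (M_smul hξ _ x).symm
  rw [ProjGenLinGroup.mk_scalar, one_smul] at h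
  rw [← h]
  congr 1
  funext i
  simp [GeneralLinearGroup.coe_scalar, Matrix.vecMul_diagonal, mul_comm]

/-- **At most one line is short**: independent vectors have heights with product at least `1`. -/
theorem one_le_M_mul {ξ η : Fin 2 → L} (h : ξ 0 * η 1 - ξ 1 * η 0 ≠ 0) (x : Space U) :
    1 ≤ M ξ x * M η x := by
  have hξ : ξ ≠ 0 := fun h0 => h (by simp [h0])
  have hη : η ≠ 0 := fun h0 => h (by simp [h0])
  set d := ξ 0 * η 1 - ξ 1 * η 0
  have hp := product_formula h
  have hd2 : Function.HasFiniteMulSupport fun v : HeightOneSpectrum (𝓞 L) => absV v d :=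
    Set.Finite.subset (eventually_absV_eq_one h) fun v hv => hv
  calc (1 : ℝ) = (∏ w : InfinitePlace L, (w d ^ 2) ^ w.mult) *
        ∏ᶠ v : HeightOneSpectrum (𝓞 L), absV v d ^ 2 := by
        rw [← one_pow 2, ← hp, mul_pow, ← Finset.prod_pow, finprod_pow hd2]
        congr 1
        refine Finset.prod_congr rfl fun w _ => ?_
        rw [← pow_mul, ← pow_mul, mul_comm]
    _ ≤ (∏ w : InfinitePlace L, (archQ (fun i => w.embedding (ξ i)) (x.1 w) *
          archQ (fun i => w.embedding (η i)) (x.1 w)) ^ w.mult) *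
        ∏ᶠ v, (locM v ξ (x.2.1 v) * locM v η (x.2.1 v)) := by
        refine mul_le_mul ?_ ?_ (finprod_nonneg fun v => by positivity)
          (Finset.prod_nonneg fun w _ => pow_nonneg ?_ _)
        · refine Finset.prod_le_prod (fun w _ => by positivity) fun w _ =>
            pow_le_pow_left₀ (by positivity) ?_ _
          refine le_trans (le_of_eq ?_) (le_archQ_mul _ _ _)
          rw [← InfinitePlace.norm_embedding_eq, ← Complex.normSq_eq_norm_sq]
          simp [d]
        · obtain ⟨s, hs⟩ := ((hd2.pow 2).union ((hasFiniteMulSupport_locM hξ x).union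
            (hasFiniteMulSupport_locM hη x))).exists_finset_coe
          rw [finprod_eq_prod_of_mulSupport_subset _ (s := s) (by
              intro v hv; rw [hs]; exact Or.inl hv),
            finprod_eq_prod_of_mulSupport_subset _ (s := s) (by
              intro v hv
              rw [hs]
              simp only [Set.mem_union, Function.mem_mulSupport] at hv ⊢
              by_contra hh
              simp only [not_or, not_not] at hh
              exact hv (by rw [hh.2.1, hh.2.2, one_mul]))]
          exact Finset.prod_le_prod (fun v _ => by positivity) fun v _ => le_locM_mul v ξ η _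
        · exact mul_nonneg
            (archQ_pos (fun h0 => hξ (funext fun i => by simpa using congrFun h0 i)) _).le
            (archQ_pos (fun h0 => hη (funext fun i => by simpa using congrFun h0 i)) _).le
    _ = M ξ x * M η x := by
        unfold M
        simp only [mul_pow, Finset.prod_mul_distrib]
        rw [finprod_mul_distrib (hasFiniteMulSupport_locM hξ x) (hasFiniteMulSupport_locM hη x)]
        ring

end Space

end FermatAgent.LT
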