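import Mathlib
import Fermat.Agent.LT.Base.Height

/-!
# Properness of the action of `PGL₂(L)`

An element carrying one finite coset to another has bounded size at every finite place; one moving
a bounded point at infinity to a bounded one has bounded size there too. So there are finitely many.
-/

set_option autoImplicit false

noncomputable section

open Matrix IsDedekindDomain NumberField Filter
open scoped MatrixGroups ComplexConjugate

namespace FermatAgent.LT

variable {L : Type*} [Field L] [NumberField L]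

/-- Boxes contain finitely many field elements. -/
lemma finite_of_bounded (C : HeightOneSpectrum (𝓞 L) → ℝ)
    (hC : ∀ᶠ v in cofinite, C v ≤ 1) (B : ℝ) :
    {x : L | (∀ v, absV v x ≤ C v) ∧ ∀ w : InfinitePlace L, w x ≤ B}.Finite := by
  classical
  set s := (Filter.eventually_cofinite.mp hC).toFinset
  have hchoose : ∀ v : HeightOneSpectrum (𝓞 L), ∃ a : 𝓞 L, a ≠ 0 ∧ absV v (a : L) * C v ≤ 1 := by
    intro v
    obtain ⟨π, hπ, hπ0⟩ := Submodule.exists_mem_ne_zero_of_ne_bot v.ne_bot
    have hlt : absV v (π : L) < 1 :=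
      (HeightOneSpectrum.adicAbv_coe_lt_one_iff v
        (HeightOneSpectrum.one_lt_absNorm_nnreal v) π).mpr hπ
    rcases le_or_gt (C v) 0 with h | h
    · exact ⟨1, one_ne_zero, by simpa using h.trans zero_le_one⟩
    obtain ⟨n, hn⟩ := exists_pow_lt_of_lt_one (inv_pos.mpr h) hlt
    refine ⟨π ^ n, pow_ne_zero _ hπ0, ?_⟩
    push_cast
    rw [map_pow]
    exact (le_of_lt (by rwa [← lt_div_iff₀ h, one_div]))
  choose a ha0 ha using hchoose
  set d : 𝓞 L := ∏ v ∈ s, a v
  have hd0 : (d : L) ≠ 0 := by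
    simpa [d, Finset.prod_eq_zero_iff] using fun v _ => ha0 v
  have hle1 : ∀ v (y : 𝓞 L), absV v (y : L) ≤ 1 := fun v y =>
    HeightOneSpectrum.adicAbv_coe_le_one v (HeightOneSpectrum.one_lt_absNorm_nnreal v) y
  obtain ⟨B', hB'⟩ : ∃ B' : ℝ, ∀ φ : L →+* ℂ, ‖φ (d : L)‖ ≤ B' :=
    ⟨∑ φ : L →+* ℂ, ‖φ (d : L)‖, fun φ => Finset.single_le_sum
      (f := fun φ : L →+* ℂ => ‖φ (d : L)‖) (fun _ _ => norm_nonneg _) (Finset.mem_univ φ)⟩
  refine Set.Finite.of_finite_image (f := fun x => (d : L) * x) ?_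
    ((mul_right_injective₀ hd0).injOn)
  refine (Embeddings.finite_of_norm_le L ℂ (B' * B)).subset ?_
  rintro _ ⟨x, ⟨hv, hw⟩, rfl⟩
  refine ⟨?_, fun φ => ?_⟩
  · obtain ⟨y, hy⟩ := HeightOneSpectrum.mem_integers_of_valuation_le_one L ((d : L) * x) fun v => by
      rw [← absV_le_one_iff]
      rw [map_mul]
      by_cases hvs : v ∈ s
      · have hsplit : absV v (d : L) ≤ absV v (a v : L) := by
          simp only [d]
          rw [← Finset.mul_prod_erase s a hvs]
          push_cast
          rw [map_mul]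
          exact mul_le_of_le_one_right (AbsoluteValue.nonneg _ _) (by
            simpa using hle1 v (∏ i ∈ s.erase v, a i))
        exact (mul_le_mul hsplit (hv v) (AbsoluteValue.nonneg _ _)
          (AbsoluteValue.nonneg _ _)).trans (ha v)
      · exact mul_le_one₀ (hle1 v d) (AbsoluteValue.nonneg _ _) ((hv v).trans (by
          simpa [s] using hvs))
    show IsIntegral ℤ ((d : L) * x)
    rw [← hy]
    exact RingOfIntegers.isIntegral_coe y
  · rw [map_mul, norm_mul]
    have hx : ‖φ x‖ ≤ B := by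
      rw [← InfinitePlace.apply φ x]
      exact hw _
    exact mul_le_mul (hB' φ) hx (norm_nonneg _) ((norm_nonneg _).trans (hB' φ))

/-- The scalar invariant size of a matrix at a finite place. -/
def gNorm (v : HeightOneSpectrum (𝓞 L)) (g : GL (Fin 2) L) : ℝ :=
  (max (vecAbs v (g.val 0)) (vecAbs v (g.val 1))) ^ 2 / absV v g.val.det

/-- Entries are bounded by the rows. -/
lemma entry_le_max (v : HeightOneSpectrum (𝓞 L)) (g : GL (Fin 2) L) (i j : Fin 2) :
    absV v (g.val i j) ≤ max (vecAbs v (g.val 0)) (vecAbs v (g.val 1)) := by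
  fin_cases i <;> fin_cases j <;> simp [vecAbs]

/-- The row maximum is nonnegative. -/
lemma max_rows_nonneg (v : HeightOneSpectrum (𝓞 L)) (g : GL (Fin 2) L) :
    0 ≤ max (vecAbs v (g.val 0)) (vecAbs v (g.val 1)) :=
  (AbsoluteValue.nonneg _ _).trans (entry_le_max v g 0 0)

/-- The norm is nonnegative. -/
lemma gNorm_nonneg (v : HeightOneSpectrum (𝓞 L)) (g : GL (Fin 2) L) : 0 ≤ gNorm v g :=
  div_nonneg (sq_nonneg _) (AbsoluteValue.nonneg _ _)

/-- The norm is submultiplicative. -/
lemma gNorm_mul (v : HeightOneSpectrum (𝓞 L)) (g h : GL (Fin 2) L) :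
    gNorm v (g * h) ≤ gNorm v g * gNorm v h := by
  unfold gNorm
  rw [div_mul_div_comm, ← mul_pow, ← map_mul, ← Matrix.det_mul, ← Units.val_mul]
  refine div_le_div_of_nonneg_right (pow_le_pow_left₀ (max_rows_nonneg v _) ?_ 2)
    (AbsoluteValue.nonneg _ _)
  have key : ∀ i j, absV v ((g * h).val i j) ≤ max (vecAbs v (g.val 0)) (vecAbs v (g.val 1)) *
      max (vecAbs v (h.val 0)) (vecAbs v (h.val 1)) := by
    intro i j
    simp only [Units.val_mul, Matrix.mul_apply, Fin.sum_univ_two]
    refine (absV_add_le v _ _).trans (max_le ?_ ?_) <;> rw [map_mul] <;>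
      exact mul_le_mul (entry_le_max v g _ _) (entry_le_max v h _ _) (AbsoluteValue.nonneg _ _)
        (max_rows_nonneg v g)
  simp only [vecAbs, max_le_iff]
  exact ⟨⟨key 0 0, key 0 1⟩, key 1 0, key 1 1⟩

/-- Scalars have norm one. -/
lemma gNorm_scalar (v : HeightOneSpectrum (𝓞 L)) (u : Lˣ) :
    gNorm v (GeneralLinearGroup.scalar (Fin 2) u) = 1 := by
  have hu : absV v (u : L) ≠ 0 := by simp
  unfold gNorm vecAbs
  simp [GeneralLinearGroup.coe_scalar, pow_two]

/-- Integral matrices have norm at most one. -/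
lemma gNorm_le_one (v : HeightOneSpectrum (𝓞 L)) {g : GL (Fin 2) L} (hg : g ∈ locGL v) :
    gNorm v g ≤ 1 := by
  unfold gNorm
  rw [(absV_eq_one_iff v _).mpr hg.2, div_one]
  refine pow_le_one₀ (max_rows_nonneg v g) ?_
  simp only [vecAbs, max_le_iff]
  exact ⟨⟨(absV_le_one_iff v _).mpr (hg.1 0 0), (absV_le_one_iff v _).mpr (hg.1 0 1)⟩,
    (absV_le_one_iff v _).mpr (hg.1 1 0), (absV_le_one_iff v _).mpr (hg.1 1 1)⟩

/-- Scalar invariant coordinates of a matrix. -/
def adCoord (g : GL (Fin 2) L) (a : (Fin 2 × Fin 2) × Fin 2 × Fin 2) : L :=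
  g.val a.1.1 a.1.2 * g.val a.2.1 a.2.2 / g.val.det

/-- Adjoint coordinates are bounded by the norm. -/
lemma absV_adCoord_le (v : HeightOneSpectrum (𝓞 L)) (g : GL (Fin 2) L)
    (a : (Fin 2 × Fin 2) × Fin 2 × Fin 2) : absV v (adCoord g a) ≤ gNorm v g := by
  rw [adCoord, map_div₀, map_mul, gNorm, pow_two]
  exact div_le_div_of_nonneg_right (mul_le_mul (entry_le_max v g _ _) (entry_le_max v g _ _)
    (AbsoluteValue.nonneg _ _) (max_rows_nonneg v g)) (AbsoluteValue.nonneg _ _)

omit [NumberField L] in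
lemma mk_eq_of_adCoord_eq {g h : GL (Fin 2) L} (e : adCoord g = adCoord h) :
    (ProjGenLinGroup.mk g : G2 L) = ProjGenLinGroup.mk h := by
  obtain ⟨i, j, hij⟩ : ∃ i j, g.val i j ≠ 0 := by
    by_contra hh
    push Not at hh
    exact (GeneralLinearGroup.det g).ne_zero (by
      show g.val.det = 0
      simp [Matrix.det_fin_two, hh])
  have hdg : g.val.det ≠ 0 := (GeneralLinearGroup.det g).ne_zero
  have hdh : h.val.det ≠ 0 := (GeneralLinearGroup.det h).ne_zero
  have e0 := congrFun e ((i, j), (i, j))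
  simp only [adCoord] at e0
  have hh : h.val i j ≠ 0 := by
    intro h0
    rw [h0] at e0
    simp [hij, hdg] at e0
  rw [Matrix.ProjGenLinGroup.mk_eq_mk_iff]
  refine ⟨Units.mk0 (h.val i j / g.val i j) (div_ne_zero hh hij), ?_⟩
  apply Units.ext
  ext k l
  have e1 := congrFun e ((i, j), (k, l))
  simp only [adCoord] at e1
  simp [GeneralLinearGroup.coe_scalar, Matrix.mul_diagonal]
  field_simp at e0 e1 ⊢
  apply mul_left_cancel₀ (mul_ne_zero hdg hh)
  linear_combination (g.val i j) * e1 - g.val k l * e0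

namespace H3

/-- Upper bound for the hermitian form at a point. -/
def bnd (p : H3) : ℝ := p.t + (2 * Complex.normSq p.z + 2) / p.t

/-- The bound is continuous. -/
lemma continuous_bnd : Continuous bnd :=
  continuous_t.add (((continuous_const.mul (Complex.continuous_normSq.comp continuous_z)).add
    continuous_const).div continuous_t fun p => p.t_pos.ne')

/-- The archimedean form is bounded above. -/
lemma archQ_le (ξ : Fin 2 → ℂ) (p : H3) :
    archQ ξ p ≤ bnd p * (Complex.normSq (ξ 0) + Complex.normSq (ξ 1)) := by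
  have h2 : Complex.normSq (ξ 0 * p.z + ξ 1) ≤
      2 * (Complex.normSq (ξ 0) * Complex.normSq p.z) + 2 * Complex.normSq (ξ 1) := by
    rw [← Complex.normSq_mul]
    simp only [Complex.normSq_apply, Complex.add_re, Complex.add_im]
    nlinarith [sq_nonneg ((ξ 0 * p.z).re - (ξ 1).re), sq_nonneg ((ξ 0 * p.z).im - (ξ 1).im)]
  unfold archQ bnd
  have ht := p.t_pos
  have h3 := div_le_div_of_nonneg_right h2 ht.le
  have n0 := Complex.normSq_nonneg (ξ 0)
  have n1 := Complex.normSq_nonneg (ξ 1)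
  have nz := Complex.normSq_nonneg p.z
  have e : (p.t + (2 * Complex.normSq p.z + 2) / p.t) *
      (Complex.normSq (ξ 0) + Complex.normSq (ξ 1)) =
      p.t * Complex.normSq (ξ 0) + p.t * Complex.normSq (ξ 1) +
      (2 * (Complex.normSq (ξ 0) * Complex.normSq p.z) + 2 * Complex.normSq (ξ 1)) / p.t +
      (2 * Complex.normSq (ξ 0) + 2 * Complex.normSq p.z * Complex.normSq (ξ 1)) / p.t := by
    field_simp
    ring
  rw [e]
  have : 0 ≤ (2 * Complex.normSq (ξ 0) + 2 * Complex.normSq p.z * Complex.normSq (ξ 1)) / p.t := by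
    positivity
  nlinarith

/-- The archimedean form is bounded below. -/
lemma normSq_le (ξ : Fin 2 → ℂ) (p : H3) :
    Complex.normSq (ξ 0) + Complex.normSq (ξ 1) ≤ bnd p * archQ ξ p := by
  have hb : 0 ≤ bnd p := by
    have := p.t_pos
    have := Complex.normSq_nonneg p.z
    unfold bnd
    positivity
  set S := Complex.normSq (ξ 0) + Complex.normSq (ξ 1) with hS
  have h := le_archQ_mul ξ ![-conj (ξ 1), conj (ξ 0)] p
  have h2 := archQ_le ![-conj (ξ 1), conj (ξ 0)] p
  simp only [Matrix.cons_val_zero, Matrix.cons_val_one, Complex.normSq_neg,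
    Complex.normSq_conj] at h h2
  have e : ξ 0 * conj (ξ 0) - ξ 1 * -conj (ξ 1) = ((S : ℝ) : ℂ) := by
    simp [hS, Complex.mul_conj]
  rw [e, Complex.normSq_ofReal] at h
  rcases (add_nonneg (Complex.normSq_nonneg (ξ 0)) (Complex.normSq_nonneg (ξ 1))).eq_or_lt with
    h0 | h0
  · rw [← hS] at h0
    rw [← h0]
    exact mul_nonneg hb (add_nonneg (mul_nonneg p.t_pos.le (Complex.normSq_nonneg _))
      (div_nonneg (Complex.normSq_nonneg _) p.t_pos.le))
  · rw [← hS] at h0
    have hQ : 0 ≤ archQ ξ p := add_nonneg (mul_nonneg p.t_pos.le (Complex.normSq_nonneg _))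
      (div_nonneg (Complex.normSq_nonneg _) p.t_pos.le)
    have h3 := h.trans (mul_le_mul_of_nonneg_left h2 hQ)
    rw [add_comm (Complex.normSq (ξ 1))] at h3
    rw [← hS] at h3
    exact le_of_mul_le_mul_right (by linarith) h0

/-- Entries are bounded by the displacement. -/
lemma entry_sq_le (g : GL (Fin 2) ℂ) (p : H3) (i j : Fin 2) :
    Complex.normSq (g.val i j) ≤ bnd p * (bnd (g • p) * ‖g.val.det‖) := by
  have h1 := normSq_le (g.val i) p
  have h2 := archQ_le (Pi.single i 1) (g • p)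
  have h3 : Pi.single i (1 : ℂ) ᵥ* g.val = g.val i := by
    funext l
    simp [Matrix.single_vecMul]
  rw [archQ_smul, h3] at h2
  have h2 := (div_le_iff₀ (norm_pos_iff.mpr (show g.val.det ≠ 0 from
    (GeneralLinearGroup.det g).ne_zero))).mp h2
  have hone : Complex.normSq ((Pi.single i (1 : ℂ) : Fin 2 → ℂ) 0) +
      Complex.normSq ((Pi.single i (1 : ℂ) : Fin 2 → ℂ) 1) = 1 := by
    fin_cases i <;> simp
  rw [hone, mul_one] at h2
  refine le_trans ?_ (h1.trans (mul_le_mul_of_nonneg_left h2 ?_))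
  · fin_cases j
    · exact le_add_of_nonneg_right (Complex.normSq_nonneg _)
    · exact le_add_of_nonneg_left (Complex.normSq_nonneg _)
  · have := p.t_pos
    have := Complex.normSq_nonneg p.z
    unfold bnd
    positivity

end H3

variable {U : Level L}

/-- Elements moving a coset to another have bounded size at every finite place. -/
theorem exists_gNorm_bound (c d : FinCoset U) :
    ∃ C : HeightOneSpectrum (𝓞 L) → ℝ, (∀ᶠ v in cofinite, C v ≤ 1) ∧
      ∀ g : GL (Fin 2) L, (ProjGenLinGroup.mk g : G2 L) • c = d → ∀ v, gNorm v g ≤ C v := by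
  classical
  have hrep : ∀ (e : FinCoset U) (v : HeightOneSpectrum (𝓞 L)), ∃ h : GL (Fin 2) L,
      (QuotientGroup.mk (ProjGenLinGroup.mk h) : G2 L ⧸ U.loc v) = e.1 v ∧
      (e.1 v = QuotientGroup.mk 1 → h = 1) := by
    intro e v
    by_cases he : e.1 v = QuotientGroup.mk 1
    · exact ⟨1, by rw [map_one, he], fun _ => rfl⟩
    · obtain ⟨g, hg⟩ := QuotientGroup.mk_surjective (e.1 v)
      obtain ⟨h, rfl⟩ := ProjGenLinGroup.mk_surjective g
      exact ⟨h, hg, fun h' => absurd h' he⟩
  choose h hh hh1 using hrep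
  refine ⟨fun v => gNorm v (h d v) * gNorm v (h c v)⁻¹, ?_, fun g hg v => ?_⟩
  · filter_upwards [c.2, d.2] with v hc hd
    simp only [hh1 c v hc, hh1 d v hd, inv_one]
    exact mul_le_one₀ (gNorm_le_one v (one_mem _)) (gNorm_nonneg v _)
      (gNorm_le_one v (one_mem _))
  have hk : (h d v)⁻¹ * g * h c v ∈ (U.loc v).comap ProjGenLinGroup.mk := by
    rw [Subgroup.mem_comap, map_mul, map_mul, map_inv, mul_assoc, ← QuotientGroup.eq, hh]
    rw [← hg, FinCoset.smul_apply, ← hh c v, MulAction.Quotient.smul_mk, smul_eq_mul]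
  obtain ⟨k, hk', hkk⟩ := U.le v hk
  rw [Matrix.ProjGenLinGroup.mk_eq_mk_iff] at hkk
  obtain ⟨u, hu⟩ := hkk
  have e : g = h d v * (k * GeneralLinearGroup.scalar (Fin 2) u) * (h c v)⁻¹ := by
    rw [hu]; group
  rw [e]
  refine (gNorm_mul v _ _).trans (mul_le_mul_of_nonneg_right
    ((gNorm_mul v _ _).trans (mul_le_of_le_one_right (gNorm_nonneg v _) ?_)) (gNorm_nonneg v _))
  exact (gNorm_mul v _ _).trans (by rw [gNorm_scalar, mul_one]; exact gNorm_le_one v hk')

/-- **Proper discontinuity**: finitely many elements of `PGL₂(L)` carry `c` to `d` and a point of a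
bounded part at infinity into it. -/
theorem finite_moving (c d : FinCoset U) (B : ℝ) :
    {γ : G2 L | γ • c = d ∧ ∃ p : InfPts L, ∀ w,
      H3.bnd (p w) ≤ B ∧ H3.bnd ((γ • p) w) ≤ B}.Finite := by
  classical
  obtain ⟨C, hC, hCg⟩ := exists_gNorm_bound c d
  let B' := B * B
  have hfin := Set.Finite.pi (fun _ : (Fin 2 × Fin 2) × Fin 2 × Fin 2 =>
    finite_of_bounded C hC B')
  refine Set.Finite.of_finite_image
    (f := fun γ : G2 L => adCoord γ.out) (hfin.subset ?_) ?_
  · rintro _ ⟨γ, ⟨hc, p, hp⟩, rfl⟩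
    set g : GL (Fin 2) L := γ.out
    have hg : ProjGenLinGroup.mk g = γ := Quotient.out_eq γ
    refine fun a _ => ⟨fun v => (absV_adCoord_le v g a).trans (hCg g (hg ▸ hc) v),
      fun w => ?_⟩
    obtain ⟨hp1, hp2⟩ := hp w
    rw [infPts_smul_apply, ← hg, ProjGenLinGroup.map_mk, H3.mk_smul] at hp2
    set G := GeneralLinearGroup.map w.embedding g
    have hdet : ‖G.val.det‖ = w g.val.det := by
      show ‖(g.val.map w.embedding).det‖ = _
      rw [← RingHom.mapMatrix_apply, ← RingHom.map_det]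
      exact InfinitePlace.norm_embedding_eq w _
    have key : ∀ i j, w (g.val i j) ^ 2 ≤ B' * w g.val.det := by
      intro i j
      have h1 := H3.entry_sq_le G (p w) i j
      have hb0 : ∀ q : H3, 0 ≤ H3.bnd q := fun q => by
        have := q.t_pos
        have := Complex.normSq_nonneg q.z
        unfold H3.bnd
        positivity
      rw [← hdet]
      refine le_trans ?_ (h1.trans (le_trans (le_of_eq (mul_assoc _ _ _).symm)
        (mul_le_mul_of_nonneg_right (mul_le_mul hp1 hp2 (hb0 _)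
          ((hb0 _).trans hp1)) (norm_nonneg _))))
      rw [Complex.normSq_eq_norm_sq, ← InfinitePlace.norm_embedding_eq]
      rfl
    have hd0 : 0 < w g.val.det := InfinitePlace.pos_iff.mpr (GeneralLinearGroup.det g).ne_zero
    show w (g.val a.1.1 a.1.2 * g.val a.2.1 a.2.2 / g.val.det) ≤ B'
    rw [map_div₀, map_mul, div_le_iff₀ hd0]
    nlinarith [key a.1.1 a.1.2, key a.2.1 a.2.2,
      sq_nonneg (w (g.val a.1.1 a.1.2) - w (g.val a.2.1 a.2.2))]
  · intro γ _ δ _ e
    rw [← Quotient.out_eq γ, ← Quotient.out_eq δ]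
    exact mk_eq_of_adCoord_eq e

end FermatAgent.LT
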