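import Mathlib
import Fermat.Agent.LT.Base.Proper

/-!
# Measurable fundamental domains for subgroups of `PGL₂(L)`

A countable group acting by homeomorphisms, properly discontinuously and freely outside a null set,
has a measurable fundamental domain.  We apply this to the adelic space.
-/

set_option autoImplicit false

noncomputable section

open Matrix IsDedekindDomain NumberField Filter MeasureTheory
open scoped MatrixGroups ComplexConjugate Topology Pointwise ENNReal

namespace FermatAgent.LT

section General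

variable {Γ X : Type*} [Group Γ] [MulAction Γ X] [TopologicalSpace X]

lemma exists_displaced_open [T2Space X] [ContinuousConstSMul Γ X] {x : X}
    (hfin : ∃ V ∈ 𝓝 x, {g : Γ | ∃ y ∈ V, g • y ∈ V}.Finite)
    (hfree : ∀ g : Γ, g ≠ 1 → g • x ≠ x) :
    ∃ W : Set X, IsOpen W ∧ x ∈ W ∧ ∀ g : Γ, g ≠ 1 → ∀ y ∈ W, g • y ∉ W := by
  obtain ⟨V, hV, hfin⟩ := hfin
  have hsep : ∀ g : Γ, g ≠ 1 → ∃ W ∈ 𝓝 x, ∀ y ∈ W, g • y ∉ W := fun g hg => by
    obtain ⟨A, B, hA, hB, hgA, hxB, hAB⟩ := t2_separation (hfree g hg)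
    refine ⟨(g • ·) ⁻¹' A ∩ B, inter_mem
      ((continuous_const_smul g).continuousAt.preimage_mem_nhds (hA.mem_nhds hgA))
      (hB.mem_nhds hxB), fun y hy hy' => hAB.le_bot ⟨hy.1, hy'.2⟩⟩
  choose! W hW hWd using hsep
  have hfin' := hfin.sdiff (t := {1})
  have hN : V ∩ ⋂ g ∈ {g : Γ | ∃ y ∈ V, g • y ∈ V} \ {1}, W g ∈ 𝓝 x :=
    inter_mem hV ((biInter_mem hfin').mpr fun g hg => hW g hg.2)
  obtain ⟨O, hO, hOo, hxO⟩ := mem_nhds_iff.mp hN
  refine ⟨O, hOo, hxO, fun g hg y hy hy' => ?_⟩
  obtain ⟨h1, h2⟩ := hO hy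
  obtain ⟨h1', h2'⟩ := hO hy'
  simp only [Set.mem_iInter] at h2 h2'
  have hmem : g ∈ {g : Γ | ∃ y ∈ V, g • y ∈ V} \ {1} := ⟨⟨y, h1, h1'⟩, hg⟩
  exact hWd g hg y (h2 g hmem) (h2' g hmem)

/-- A countable group acting properly discontinuously and almost freely has a fundamental
domain. -/
theorem exists_fundamentalDomain [T2Space X] [SecondCountableTopology X] [MeasurableSpace X]
    [OpensMeasurableSpace X] [Countable Γ] [ContinuousConstSMul Γ X] [MeasurableConstSMul Γ X]
    (μ : Measure X) [SMulInvariantMeasure Γ X μ]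
    (hfin : ∀ x : X, ∃ V ∈ 𝓝 x, {g : Γ | ∃ y ∈ V, g • y ∈ V}.Finite)
    (hfree : ∀ g : Γ, g ≠ 1 → μ {x | g • x = x} = 0) :
    ∃ s : Set X, MeasurableSet s ∧ IsFundamentalDomain Γ s μ := by
  classical
  obtain ⟨b, hbc, -, hb⟩ := TopologicalSpace.exists_countable_basis X
  let b' : Set (Set X) :=
    {W ∈ b | ∀ g : Γ, g ≠ 1 → ∀ y ∈ W, g • y ∉ W} ∪ {∅}
  have hbc' : b'.Countable := (hbc.mono fun _ h => h.1).union (Set.countable_singleton _)
  obtain ⟨B, hB⟩ := hbc'.exists_eq_range ⟨∅, Or.inr rfl⟩
  have hBo : ∀ n, IsOpen (B n) := fun n => by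
    rcases (hB ▸ Set.mem_range_self n : B n ∈ b') with h | h
    · exact hb.isOpen h.1
    · rw [Set.mem_singleton_iff.mp h]; exact isOpen_empty
  have hBd : ∀ n (g : Γ), g ≠ 1 → ∀ y ∈ B n, g • y ∉ B n := fun n => by
    rcases (hB ▸ Set.mem_range_self n : B n ∈ b') with h | h
    · exact h.2
    · simp [Set.mem_singleton_iff.mp h]
  let s : Set X := ⋃ n, {y ∈ B n | ∀ m < n, ∀ g : Γ, g • y ∉ B m}
  have hs : MeasurableSet s := by
    refine MeasurableSet.iUnion fun n => ?_
    have e : {y ∈ B n | ∀ m < n, ∀ g : Γ, g • y ∉ B m} =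
        B n ∩ ⋂ m < n, ⋂ g : Γ, ((g • ·) ⁻¹' B m)ᶜ := by
      ext y; simp
    rw [e]
    exact (hBo n).measurableSet.inter (MeasurableSet.iInter fun m => MeasurableSet.iInter fun _ =>
      MeasurableSet.iInter fun g =>
        (((hBo m).preimage (continuous_const_smul g)).measurableSet).compl)
  refine ⟨s, hs, IsFundamentalDomain.mk'' hs.nullMeasurableSet ?_ ?_
    fun g => (measurePreserving_smul g μ).quasiMeasurePreserving⟩
  · have hae : ∀ᵐ x ∂μ, ∀ g : Γ, g ≠ 1 → g • x ≠ x := by
      rw [ae_all_iff]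
      intro g
      by_cases hg : g = 1
      · exact ae_of_all _ fun x h => absurd hg h
      · refine (ae_iff.mpr ?_).mono fun x (h : g • x ≠ x) _ => h
        simpa using hfree g hg
    filter_upwards [hae] with x hx
    obtain ⟨W, hWo, hxW, hWd⟩ := exists_displaced_open (hfin x) hx
    obtain ⟨W', hW'b, hxW', hW'⟩ := hb.exists_subset_of_mem_open hxW hWo
    have hW'B : W' ∈ b' := Or.inl ⟨hW'b, fun g hg y hy hy' => hWd g hg y (hW' hy) (hW' hy')⟩
    rw [hB] at hW'B
    obtain ⟨n0, hn0⟩ := hW'B
    have hex : ∃ n, ∃ g : Γ, g • x ∈ B n := ⟨n0, 1, by rw [one_smul, hn0]; exact hxW'⟩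
    obtain ⟨g, hg⟩ := Nat.find_spec hex
    refine ⟨g, Set.mem_iUnion.mpr ⟨Nat.find hex, hg, fun m hm h hh => ?_⟩⟩
    exact Nat.find_min hex hm ⟨h * g, by rwa [mul_smul]⟩
  · intro g hg
    refine Disjoint.aedisjoint (Set.disjoint_left.mpr ?_)
    rintro _ ⟨y, hy, rfl⟩ hy'
    obtain ⟨n, hn, hn'⟩ := Set.mem_iUnion.mp hy
    obtain ⟨m, hm, hm'⟩ := Set.mem_iUnion.mp hy'
    rcases lt_trichotomy m n with h | h | h
    · exact hn' m h g hm
    · subst h; exact hBd m g hg y hn hm
    · exact hm' n h g⁻¹ (by rwa [inv_smul_smul])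

end General

namespace H3

instance : ContinuousConstSMul (GL (Fin 2) ℂ) H3 := ⟨continuous_smul_const⟩

lemma measure_eq_zero_of_slices {A : Set H3} (hA : MeasurableSet A)
    (h : ∀ᵐ z : ℂ, {t : ℝ | ∃ p ∈ A, p.z = z ∧ p.t = t}.Countable) : vol A = 0 := by
  rw [vol, Measure.map_apply measurable_ofCoord hA]
  refine withDensity_absolutelyContinuous _ _ ?_
  rw [Measure.restrict_apply (measurable_ofCoord hA), vol3,
    Measure.map_apply (WithLp.prod_continuous_toLp 2 ℂ ℝ).measurable
      ((measurable_ofCoord hA).inter measurableSet_half)]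
  refine (Measure.measure_prod_null
    ((WithLp.prod_continuous_toLp 2 ℂ ℝ).measurable
      ((measurable_ofCoord hA).inter measurableSet_half))).mpr (h.mono fun z hz => ?_)
  refine Set.Countable.measure_zero (hz.mono ?_) _
  rintro t ⟨ht, ht'⟩
  refine ⟨_, ht, ?_, ?_⟩ <;>
  · simp only [half, Set.mem_ofPred_eq] at ht'
    have ht'' : (0 : ℝ) < t := ht'
    simp [ofCoord, ht'']

instance : SigmaFinite vol := by
  let S : ℕ → Set H3 := fun n => {p | (n + 1 : ℝ)⁻¹ ≤ p.t ∧ p.t ≤ n + 1 ∧ ‖p.z‖ ≤ n + 1}
  refine ⟨⟨⟨S, fun _ => trivial, fun n => ?_, ?_⟩⟩⟩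
  · have hS : MeasurableSet (S n) :=
      ((isClosed_le continuous_const continuous_t).inter
        ((isClosed_le continuous_t continuous_const).inter
        (isClosed_le continuous_z.norm continuous_const))).measurableSet
    have e : vol (S n) = ∫⁻ p, (S n).indicator 1 p ∂vol := (lintegral_indicator_one hS).symm
    rw [e, lintegral_vol (measurable_one.indicator hS)]
    let T : Set E3 := Metric.closedBall 0 (2 * (n + 1))
    refine lt_of_le_of_lt (lintegral_mono_ae (g := T.indicator fun _ =>
      ENNReal.ofReal ((n + 1) ^ 3))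
      ((ae_restrict_iff' measurableSet_half).mpr (ae_of_all _ fun x hx => ?_))) ?_
    · simp only [half, Set.mem_ofPred_eq] at hx
      by_cases hp : ofCoord x ∈ S n
      · simp only [S, ofCoord, hx, dite_true, Set.mem_ofPred_eq] at hp
        have hxT : x ∈ T := by
          rw [Metric.mem_closedBall, dist_zero_right, WithLp.prod_norm_eq_of_L2]
          refine Real.sqrt_le_iff.mpr ⟨by positivity, ?_⟩
          rw [Real.norm_eq_abs, sq_abs]
          nlinarith [norm_nonneg x.fst, hp.2.1, hp.2.2]
        rw [Set.indicator_of_mem hxT]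
        refine le_trans (mul_le_of_le_one_right' ?_) (ENNReal.ofReal_le_ofReal ?_)
        · exact Set.indicator_le_self' (fun _ _ => zero_le) _
        · exact pow_le_pow_left₀ (by positivity) ((inv_le_comm₀ (by positivity) hx).mp hp.1) 3
      · simp [hp]
    · refine lt_of_le_of_lt (lintegral_mono' Measure.restrict_le_self le_rfl) ?_
      rw [lintegral_indicator_const Metric.isClosed_closedBall.measurableSet]
      exact ENNReal.mul_lt_top ENNReal.ofReal_lt_top
        (isCompact_closedBall _ _).measure_lt_top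
  · refine Set.eq_univ_of_forall fun p => Set.mem_iUnion.mpr ?_
    obtain ⟨n, hn⟩ := exists_nat_ge (max (max p.t p.t⁻¹) ‖p.z‖)
    simp only [max_le_iff] at hn
    refine ⟨n, (inv_le_comm₀ p.t_pos (by positivity)).mp ?_, ?_, ?_⟩ <;>
      linarith [hn.1.1, hn.1.2, hn.2]

/-- The fixed points of a non scalar matrix form a null set. -/
theorem vol_fixed_eq_zero (g : GL (Fin 2) ℂ)
    (hg : ¬(g.val 0 1 = 0 ∧ g.val 1 0 = 0 ∧ g.val 0 0 = g.val 1 1)) :
    vol {p | g • p = p} = 0 := by
  refine measure_eq_zero_of_slices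
    (isClosed_eq (continuous_const_smul g) continuous_id).measurableSet ?_
  by_cases hc : g.val 1 0 = 0
  · have hd : g.val 1 1 ≠ 0 := fun hd => (GeneralLinearGroup.det g).ne_zero (by
      show g.val.det = 0
      simp [Matrix.det_fin_two, hc, hd])
    have hS : {z : ℂ | (g.val 0 0 - g.val 1 1) * z + g.val 0 1 = 0}.Subsingleton := by
      intro z (hz : _ = 0) z' (hz' : _ = 0)
      by_cases had : g.val 0 0 - g.val 1 1 = 0
      · exact absurd ⟨by simpa [had] using hz, hc, sub_eq_zero.mp had⟩ hg
      · exact mul_left_cancel₀ had (by linear_combination hz - hz')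
    filter_upwards [measure_eq_zero_iff_ae_notMem.mp (hS.countable.measure_zero volume)] with z hz
    convert Set.countable_empty
    refine Set.eq_empty_iff_forall_notMem.mpr ?_
    rintro t ⟨p, (hp : g • p = p), rfl, rfl⟩
    apply hz
    have h1 := congrArg (fun q : H3 => q.z) hp
    simp only [smul_def, act, den, hc, map_zero, zero_mul, zero_add, mul_zero, add_zero] at h1
    show (g.val 0 0 - g.val 1 1) * p.z + g.val 0 1 = 0
    have hd' : (conj (g.val 1 1)) ≠ 0 := by simpa using hd
    rw [Complex.normSq_eq_conj_mul_self] at h1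
    field_simp at h1
    linear_combination h1
  · refine ae_of_all _ fun z => Set.Subsingleton.countable ?_
    rintro t ⟨p, (hp : g • p = p), hpz, rfl⟩ t' ⟨q, (hq : g • q = q), hqz, rfl⟩
    have key : ∀ r : H3, g • r = r → den g.val r = ‖g.val.det‖ := fun r hr => by
      have h1 := congrArg (fun q : H3 => q.t) hr
      simp only [t_smul] at h1
      rw [div_eq_iff (den_pos g r).ne'] at h1
      exact (mul_right_cancel₀ r.t_pos.ne' (by linarith)).symm
    have h2 := (key p hp).trans (key q hq).symm
    simp only [den, hpz, hqz, add_right_inj] at h2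
    have hn : Complex.normSq (g.val 1 0) ≠ 0 := by simpa using hc
    exact (pow_left_inj₀ p.t_pos.le q.t_pos.le two_ne_zero).mp (mul_left_cancel₀ hn h2)

end H3

variable {L : Type*} [Field L] [NumberField L] {U : Level L}

namespace FinCoset

instance : TopologicalSpace (FinCoset U) := ⊥

instance : DiscreteTopology (FinCoset U) := ⟨rfl⟩

instance : BorelSpace (FinCoset U) := ⟨(borel_eq_top_of_discrete).symm⟩

end FinCoset

namespace Space

instance : ContinuousConstSMul (G2 L) (InfPts L) where
  continuous_const_smul g := by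
    induction g using Matrix.ProjGenLinGroup.induction_on with | mk g =>
    refine continuous_pi fun w => ?_
    simp only [infPts_smul_apply, ProjGenLinGroup.map_mk, H3.mk_smul]
    exact (continuous_const_smul _).comp (continuous_apply w)

instance : ContinuousConstSMul (G2 L) (FinCoset U) := ⟨fun _ => continuous_of_discreteTopology⟩

lemma measurePreserving_infPts (g : G2 L) :
    MeasurePreserving (fun y : InfPts L => g • y) (Measure.pi fun _ => H3.vol)
      (Measure.pi fun _ => H3.vol) := by
  induction g using Matrix.ProjGenLinGroup.induction_on with | mk g =>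
  have e : (fun y : InfPts L => (ProjGenLinGroup.mk g : G2 L) • y) =
      fun (y : InfPts L) (w : InfinitePlace L) => GeneralLinearGroup.map w.embedding g • y w := by
    funext y w
    rw [infPts_smul_apply, ProjGenLinGroup.map_mk, H3.mk_smul]
  rw [e]
  exact measurePreserving_pi (fun _ => H3.vol) (fun _ => H3.vol)
    (f := fun (w : InfinitePlace L) (p : H3) => GeneralLinearGroup.map w.embedding g • p) fun w =>
    H3.measurePreserving_smul (GeneralLinearGroup.map w.embedding g)

/-- The group preserves the volume. -/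
lemma measurePreserving_smul (g : G2 L) :
    MeasurePreserving (fun x : Space U => g • x) (vol U) (vol U) :=
  (measurePreserving_infPts g).prod ⟨measurable_of_countable _, Measure.ext_of_singleton fun c => by
    rw [Measure.map_apply (measurable_of_countable _) (measurableSet_singleton c),
      show (fun y : FinCoset U => g • y) ⁻¹' {c} = {g⁻¹ • c} by
        ext y; simp [eq_inv_smul_iff],
      Measure.count_singleton, Measure.count_singleton]⟩

instance : SMulInvariantMeasure (G2 L) (Space U) (vol U) :=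
  ⟨fun g _s hs => (measurePreserving_smul g).measure_preimage hs.nullMeasurableSet⟩

instance : MeasurableConstSMul (G2 L) (Space U) :=
  ⟨fun g => (measurePreserving_smul g).measurable⟩

/-- Every point has a neighbourhood moved to meet itself by finitely many elements. -/
theorem exists_finite_moving (x : Space U) :
    ∃ V ∈ 𝓝 x, {g : G2 L | ∃ y ∈ V, g • y ∈ V}.Finite := by
  obtain ⟨B, hB⟩ : ∃ B, ∀ w, H3.bnd (x.1 w) < B := by
    obtain ⟨B, hB⟩ := (Set.finite_range fun w => H3.bnd (x.1 w)).bddAbove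
    exact ⟨B + 1, fun w => lt_add_of_le_of_pos (hB ⟨w, rfl⟩) one_pos⟩
  refine ⟨{y | (∀ w, H3.bnd (y.1 w) < B) ∧ y.2 = x.2}, ?_, ?_⟩
  · refine IsOpen.mem_nhds ?_ ⟨hB, rfl⟩
    refine IsOpen.inter ?_ ((isOpen_discrete {x.2}).preimage continuous_snd)
    change IsOpen {y : Space U | ∀ w, H3.bnd (y.1 w) < B}
    rw [Set.ofPred_forall]
    exact isOpen_iInter_of_finite fun w => isOpen_lt
      (H3.continuous_bnd.comp ((continuous_apply w).comp continuous_fst)) continuous_const
  · refine (finite_moving x.2 x.2 B).subset ?_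
    rintro g ⟨y, ⟨hy, hy2⟩, hy', hy2'⟩
    exact ⟨by rw [← hy2]; exact hy2'.trans hy2.symm, y.1, fun w => ⟨(hy w).le, (hy' w).le⟩⟩

/-- Almost every point has trivial stabiliser. -/
theorem vol_fixed_eq_zero {g : G2 L} (hg : g ≠ 1) : vol U {x | g • x = x} = 0 := by
  induction g using Matrix.ProjGenLinGroup.induction_on with | mk g =>
  obtain ⟨w⟩ := (inferInstance : Nonempty (InfinitePlace L))
  refine measure_mono_null
    (t := ((fun y : InfPts L => y w) ⁻¹' {p | GeneralLinearGroup.map w.embedding g • p = p}) ×ˢ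
      (Set.univ : Set (FinCoset U))) (fun x (hx : _ = x) => ⟨?_, trivial⟩) ?_
  · have := congrFun (congrArg Prod.fst hx) w
    rwa [Prod.smul_fst, infPts_smul_apply, ProjGenLinGroup.map_mk, H3.mk_smul] at this
  · rw [vol, Measure.prod_prod,
      Measure.pi_eval_preimage_null (fun _ => H3.vol) (H3.vol_fixed_eq_zero _ ?_),
      zero_mul]
    rintro ⟨h01, h10, hd⟩
    simp only [GeneralLinearGroup.map_apply, map_eq_zero] at h01 h10 hd
    refine hg ?_
    have hd' := (w.embedding).injective hd
    have h00 : g.val 0 0 ≠ 0 := fun h => (GeneralLinearGroup.det g).ne_zero (by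
      show g.val.det = 0
      simp [Matrix.det_fin_two, h, h01])
    have e : g = GeneralLinearGroup.scalar (Fin 2) (Units.mk0 _ h00) := by
      apply Units.ext
      ext i j
      fin_cases i <;> fin_cases j <;> simp [GeneralLinearGroup.coe_scalar, h01, h10, hd']
    rw [e, ProjGenLinGroup.mk_scalar]

variable (U) in
/-- Every subgroup of `PGL₂(L)` has a measurable fundamental domain. -/
theorem exists_fundamentalDomain (Γ : Subgroup (G2 L)) :
    ∃ s : Set (Space U), MeasurableSet s ∧ IsFundamentalDomain Γ s (vol U) :=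
  haveI : MeasurableConstSMul Γ (Space U) := ⟨fun g => measurable_const_smul (g : G2 L)⟩
  haveI : ContinuousConstSMul Γ (Space U) := ⟨fun g => continuous_const_smul (g : G2 L)⟩
  haveI : SMulInvariantMeasure Γ (Space U) (vol U) :=
    ⟨fun g _s hs => (measurePreserving_smul (g : G2 L)).measure_preimage hs.nullMeasurableSet⟩
  LT.exists_fundamentalDomain _
    (fun x => by
      obtain ⟨V, hV, hfin⟩ := exists_finite_moving x
      exact ⟨V, hV, Set.Finite.of_finite_image (f := fun g : Γ => (g : G2 L))
        (hfin.subset (by rintro _ ⟨g, hg, rfl⟩; exact hg)) Subtype.val_injective.injOn⟩)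
    fun g hg => vol_fixed_eq_zero fun h => hg (Subtype.ext h)

end Space

end FermatAgent.LT
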