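import Mathlib
import Fermat.Agent.LT.Base.Height

/-!
# The lattice of integers at infinity and short vectors

For a totally complex field the integers form a full lattice in `InfinitePlace L → ℂ`.  Minkowski's
theorem then gives, for every point of `H3^n`, a nonzero integral vector which is short in all
archimedean heights.
-/

set_option autoImplicit false

noncomputable section

open Matrix IsDedekindDomain NumberField MeasureTheory Module
open scoped MatrixGroups ComplexConjugate ENNReal

namespace FermatAgent.LT

variable (L : Type*) [Field L]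

/-- The infinite components of an element. -/
def infEmb : L →+* (InfinitePlace L → ℂ) := RingHom.pi fun w => w.embedding

/-- The components of the embedding at infinity. -/
@[simp] lemma infEmb_apply (x : L) (w : InfinitePlace L) : infEmb L x w = w.embedding x := rfl

variable [NumberField L] [IsTotallyComplex L]

/-- The mixed space of a totally complex field. -/
def mixedEquiv : mixedEmbedding.mixedSpace L ≃ₗ[ℝ] (InfinitePlace L → ℂ) where
  toFun x w := x.2 ⟨w, IsTotallyComplex.isComplex w⟩
  invFun y := (0, fun w => y w.1)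
  map_add' _ _ := rfl
  map_smul' _ _ := rfl
  left_inv _ := Prod.ext (funext fun w =>
    absurd w.2 (InfinitePlace.not_isReal_iff_isComplex.mpr (IsTotallyComplex.isComplex w.1))) rfl
  right_inv _ := rfl

/-- The image of an integral basis. -/
def infBasis : Basis (Free.ChooseBasisIndex ℤ (𝓞 L)) ℝ (InfinitePlace L → ℂ) :=
  (mixedEmbedding.latticeBasis L).map (mixedEquiv L)

/-- The basis at infinity. -/
lemma infBasis_apply (i : Free.ChooseBasisIndex ℤ (𝓞 L)) :
    infBasis L i = infEmb L (integralBasis L i) := by
  funext w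
  simp [infBasis, mixedEquiv]

/-- The lattice at infinity is the image of the integers. -/
lemma mem_span_infBasis {y : InfinitePlace L → ℂ} :
    y ∈ Submodule.span ℤ (Set.range (infBasis L)) ↔ ∃ a : 𝓞 L, infEmb L a = y := by
  rw [show Set.range (infBasis L) =
      ((infEmb L).comp (algebraMap (𝓞 L) L)).toIntAlgHom.toLinearMap ''
        (Set.range (RingOfIntegers.basis L)) by
    rw [← Set.range_comp]
    exact congrArg Set.range (funext fun i => by
      rw [infBasis_apply, integralBasis_apply]; rfl)]
  rw [← Submodule.map_span, Basis.span_eq, Submodule.map_top, LinearMap.mem_range]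
  rfl

variable {L} in
/-- The shear moving the origin below a point. -/
private def shearMap (p : InfinitePlace L → H3)
    (q : (InfinitePlace L → ℂ) × (InfinitePlace L → ℂ)) :
    (InfinitePlace L → ℂ) × (InfinitePlace L → ℂ) :=
  (q.1, q.2 + fun w => (p w).z * q.1 w)

variable {L} in
/-- The vectors of small height at a point. -/
private def shearBox (p : InfinitePlace L → H3) (r : ℝ) :
    Set ((InfinitePlace L → ℂ) × (InfinitePlace L → ℂ)) :=
  shearMap p ⁻¹' ((Set.univ.pi fun w => Metric.ball (0 : ℂ) (r / Real.sqrt (p w).t)) ×ˢ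
    Set.univ.pi fun w => Metric.ball (0 : ℂ) (r * Real.sqrt (p w).t))

variable {L} in
omit [NumberField L] [IsTotallyComplex L] in
/-- The vectors of small height form a symmetric convex body. -/
private lemma neg_mem_and_convex_shearBox (p : InfinitePlace L → H3) (r : ℝ) :
    (∀ x ∈ shearBox p r, -x ∈ shearBox p r) ∧ Convex ℝ (shearBox p r) := by
  constructor
  · rintro ⟨x, y⟩ ⟨hx, hy⟩
    have hx' : ∀ w, ‖x w‖ < r / Real.sqrt (p w).t := fun w => by
      simpa [Metric.mem_ball, shearMap] using hx w (Set.mem_univ w)
    have hy' : ∀ w, ‖y w + (p w).z * x w‖ < r * Real.sqrt (p w).t := fun w => by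
      have := hy w (Set.mem_univ w)
      rw [Metric.mem_ball, dist_zero_right] at this
      exact this
    refine ⟨fun w _ => ?_, fun w _ => ?_⟩
    · show (-x) w ∈ Metric.ball _ _
      rw [Pi.neg_apply, Metric.mem_ball, dist_zero_right, norm_neg]
      exact hx' w
    · show (-y) w + (p w).z * (-x) w ∈ Metric.ball _ _
      rw [Pi.neg_apply, Pi.neg_apply, Metric.mem_ball, dist_zero_right, mul_neg,
        ← neg_add, norm_neg]
      exact hy' w
  · let Tl : ((InfinitePlace L → ℂ) × (InfinitePlace L → ℂ)) →ₗ[ℝ]
        (InfinitePlace L → ℂ) × (InfinitePlace L → ℂ) :=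
      { toFun := shearMap p
        map_add' := fun a c => by
          refine Prod.ext rfl (funext fun w => ?_)
          show a.2 w + c.2 w + (p w).z * (a.1 w + c.1 w) =
            a.2 w + (p w).z * a.1 w + (c.2 w + (p w).z * c.1 w)
          ring
        map_smul' := fun a c => by
          refine Prod.ext rfl (funext fun w => ?_)
          show a • c.2 w + (p w).z * (a • c.1 w) = a • (c.2 w + (p w).z * c.1 w)
          simp only [Complex.real_smul]
          ring }
    have hA' : Convex ℝ
        (Set.univ.pi fun w : InfinitePlace L => Metric.ball (0 : ℂ) (r / Real.sqrt (p w).t)) :=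
      convex_pi fun _ _ => convex_ball _ _
    have hB' : Convex ℝ
        (Set.univ.pi fun w : InfinitePlace L => Metric.ball (0 : ℂ) (r * Real.sqrt (p w).t)) :=
      convex_pi fun _ _ => convex_ball _ _
    exact (hA'.prod hB').linear_preimage Tl

variable {L} in
omit [IsTotallyComplex L] in
/-- The volume of the vectors of small height grows with the radius. -/
private lemma le_volume_shearBox (p : InfinitePlace L → H3) {r : ℝ} (hr1 : 1 ≤ r) :
    ENNReal.ofReal r ≤ volume (shearBox p r) := by
  have hT : MeasurePreserving (shearMap p) volume volume := by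
    let g : (InfinitePlace L → ℂ) → (InfinitePlace L → ℂ) → InfinitePlace L → ℂ :=
      fun q1 q2 => q2 + fun w => (p w).z * q1 w
    have hg : Measurable (Function.uncurry g) := by
      refine measurable_pi_lambda _ fun w => ?_
      exact ((measurable_pi_apply w).comp measurable_snd).add
        (measurable_const.mul ((measurable_pi_apply w).comp measurable_fst))
    exact MeasurePreserving.skew_product (g := g)
      (MeasurePreserving.id (volume : Measure (InfinitePlace L → ℂ))) hg
      (ae_of_all _ fun q1 => map_add_right_eq_self (volume : Measure (InfinitePlace L → ℂ)) _)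
  rw [shearBox, hT.measure_preimage ((MeasurableSet.univ_pi fun _ => measurableSet_ball).prod
      (MeasurableSet.univ_pi fun _ => measurableSet_ball)).nullMeasurableSet,
    Measure.volume_eq_prod, Measure.prod_prod, volume_pi_pi, volume_pi_pi,
    ← Finset.prod_mul_distrib]
  simp only [Complex.volume_ball]
  obtain ⟨w0⟩ := (inferInstance : Nonempty (InfinitePlace L))
  have key : ∀ w : InfinitePlace L,
      ENNReal.ofReal (r / Real.sqrt (p w).t) ^ 2 * NNReal.pi *
        (ENNReal.ofReal (r * Real.sqrt (p w).t) ^ 2 * NNReal.pi) =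
      ENNReal.ofReal (r ^ 4 * Real.pi ^ 2) := fun w => by
    have hs : 0 < Real.sqrt (p w).t := Real.sqrt_pos.mpr (p w).t_pos
    have hpi : (NNReal.pi : ℝ≥0∞) = ENNReal.ofReal Real.pi := by
      rw [← ENNReal.ofReal_coe_nnreal, NNReal.coe_real_pi]
    rw [hpi, ← ENNReal.ofReal_pow (by positivity), ← ENNReal.ofReal_pow (by positivity),
      ← ENNReal.ofReal_mul (by positivity), ← ENNReal.ofReal_mul (by positivity),
      ← ENNReal.ofReal_mul (by positivity)]
    congr 1
    field_simp
  simp only [key]
  rw [Finset.prod_const, ← ENNReal.ofReal_pow (by positivity)]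
  refine ENNReal.ofReal_le_ofReal ?_
  have h4 : r ≤ r ^ 4 * Real.pi ^ 2 := by
    have h14 : r ≤ r ^ 4 := le_self_pow₀ hr1 (by norm_num)
    have hp1 : (1 : ℝ) ≤ Real.pi ^ 2 := one_le_pow₀ (by linarith [Real.pi_gt_three])
    exact h14.trans (le_mul_of_one_le_right (by positivity) hp1)
  exact h4.trans (le_self_pow₀ (hr1.trans h4) (Finset.card_ne_zero.mpr ⟨w0, Finset.mem_univ _⟩))

/-- **Minkowski**: at every point of `H3^n` some nonzero integral vector has bounded height at all
infinite places. -/
theorem exists_short :
    ∃ R : ℝ, ∀ p : InfinitePlace L → H3, ∃ ξ : Fin 2 → 𝓞 L, ξ ≠ 0 ∧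
      ∀ w, archQ (fun i => w.embedding (ξ i)) (p w) ≤ R := by
  classical
  let V := InfinitePlace L → ℂ
  let b : Basis _ ℝ (V × V) := (infBasis L).prod (infBasis L)
  let μ : Measure (V × V) := volume
  have : (volume : Measure V).IsAddHaarMeasure := inferInstance
  have : μ.IsAddHaarMeasure :=
    Measure.prod.instIsAddHaarMeasure (volume : Measure V) (volume : Measure V)
  let F := ZSpan.fundamentalDomain b
  let Λ : AddSubgroup (V × V) := (Submodule.span ℤ (Set.range b)).toAddSubgroup
  have : Countable Λ := inferInstanceAs (Countable (Submodule.span ℤ (Set.range b)))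
  have fund : IsAddFundamentalDomain Λ F μ := ZSpan.isAddFundamentalDomain' b μ
  have hfin : μ F * 2 ^ finrank ℝ (V × V) ≠ ⊤ :=
    ENNReal.mul_ne_top (ZSpan.fundamentalDomain_isBounded b).measure_lt_top.ne (by simp)
  obtain ⟨r, hr1, hr⟩ : ∃ r : ℝ, 1 ≤ r ∧ μ F * 2 ^ finrank ℝ (V × V) < ENNReal.ofReal r := by
    refine ⟨max 1 ((μ F * 2 ^ finrank ℝ (V × V)).toReal + 1), le_max_left _ _, ?_⟩
    exact (ENNReal.lt_ofReal_iff_toReal_lt hfin).mpr
      (lt_max_of_lt_right (lt_add_one _))
  refine ⟨2 * r ^ 2, fun p => ?_⟩
  obtain ⟨hsymm, hconv⟩ := neg_mem_and_convex_shearBox p r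
  have hvol : μ F * 2 ^ finrank ℝ (V × V) < μ (shearBox p r) :=
    hr.trans_le (le_volume_shearBox p hr1)
  obtain ⟨x, hx0, hxs⟩ :=
    exists_ne_zero_mem_lattice_of_measure_mul_two_pow_lt_measure fund hsymm hconv hvol
  have hx : (x : V × V) ∈ Submodule.span ℤ (Set.range b) := x.2
  have hx1 : (x : V × V).1 ∈ Submodule.span ℤ (Set.range (infBasis L)) ∧
      (x : V × V).2 ∈ Submodule.span ℤ (Set.range (infBasis L)) := by
    have hle : Submodule.span ℤ (Set.range b) ≤
        (Submodule.span ℤ (Set.range (infBasis L))).prod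
          (Submodule.span ℤ (Set.range (infBasis L))) := by
      rw [Submodule.span_le]
      rintro _ ⟨i, rfl⟩
      rcases i with i | i <;>
      · simp only [b, SetLike.mem_coe, Submodule.mem_prod]
        simp only [Basis.prod_apply_inl_fst, Basis.prod_apply_inl_snd, Basis.prod_apply_inr_fst,
          Basis.prod_apply_inr_snd, Submodule.zero_mem, and_true, true_and]
        exact Submodule.subset_span (Set.mem_range_self i)
    exact hle hx
  obtain ⟨a, ha⟩ := (mem_span_infBasis L).mp hx1.1
  obtain ⟨c, hc⟩ := (mem_span_infBasis L).mp hx1.2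
  refine ⟨![a, c], fun h => hx0 ?_, fun w => ?_⟩
  · have h0 := congrFun h 0
    have h1 := congrFun h 1
    simp at h0 h1
    subst h0; subst h1
    refine Subtype.ext (Prod.ext ?_ ?_)
    · exact ha.symm.trans (by simp)
    · exact hc.symm.trans (by simp)
  · simp only [shearBox, shearMap, Set.mem_preimage, Set.mem_prod, Set.mem_pi, Set.mem_univ,
      true_implies, Metric.mem_ball, dist_zero_right, ← ha, ← hc, infEmb_apply] at hxs
    have ht := (p w).t_pos
    have hs := Real.sqrt_pos.mpr ht
    have h1 := pow_le_pow_left₀ (norm_nonneg _) (hxs.1 w).le 2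
    have h2 := pow_le_pow_left₀ (norm_nonneg _) (hxs.2 w).le 2
    simp only [archQ, Matrix.cons_val_zero, Matrix.cons_val_one, Complex.normSq_eq_norm_sq]
    rw [div_pow, Real.sq_sqrt ht.le, le_div_iff₀ ht] at h1
    rw [mul_pow, Real.sq_sqrt ht.le, ← div_le_iff₀ ht] at h2
    change ‖w.embedding (c : L) + (p w).z * w.embedding (a : L)‖ ^ 2 / (p w).t ≤ r ^ 2 at h2
    rw [mul_comm ((p w).z), add_comm (w.embedding (c : L))] at h2
    show (p w).t * ‖w.embedding (a : L)‖ ^ 2 +
      ‖w.embedding (a : L) * (p w).z + w.embedding (c : L)‖ ^ 2 / (p w).t ≤ _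
    linarith

end FermatAgent.LT
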