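import Mathlib
import Fermat.Agent.LT.Base.FundDomain
import Fermat.Agent.LT.Base.Lattice
import Fermat.Agent.LT.Base.FiniteIndex

/-!
# Siegel sets and finite volume

For a totally complex field and a level containing the local congruence subgroups, every point of
the adelic space can be moved by `PGL₂(L)` to a point with bounded horizontal coordinates, heights
bounded below and of bounded ratios, and finite part in a fixed finite set.
-/

set_option autoImplicit false

noncomputable section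

open Matrix IsDedekindDomain NumberField Filter MeasureTheory Module
open scoped MatrixGroups ENNReal Pointwise

namespace FermatAgent.LT

variable {L : Type*} [Field L] [NumberField L]

/-- A level containing all local congruence subgroups. -/
def Level.IsCongr (U : Level L) : Prop :=
  ∀ v, ∃ n : ℕ, ∀ g ∈ locGL v,
    (∀ i j, v.valuation L ((g.val - 1) i j) ≤ WithZero.exp (-((n : ℤ) + 1))) →
      ProjGenLinGroup.mk g ∈ U.loc v

/-- Levels containing congruence subgroups are congruence levels. -/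
lemma Level.IsCongr.of_locK1_le {U : Level L} (h : ∀ v, locK1 v ≤ U.loc v) : U.IsCongr := fun v =>
  ⟨0, fun g hg hs => by
    have hlt : ∀ i j, v.valuation L ((g.val - 1) i j) < 1 := fun i j => (hs i j).trans_lt (by
      rw [← WithZero.exp_zero, WithZero.exp_lt_exp]; norm_num)
    refine h v ⟨g, ⟨hg, by simpa using hlt 0 1, by simpa using hlt 1 0, ?_⟩, rfl⟩
    rw [show g.val 0 0 - g.val 1 1 = (g.val - 1) 0 0 - (g.val - 1) 1 1 by simp]
    exact ((v.valuation L).map_sub _ _).trans_lt (max_lt (hlt 0 0) (hlt 1 1))⟩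

/-- Congruence levels have finite index. -/
theorem Level.IsCongr.isFiniteIndex {U : Level L} (hU : U.IsCongr) : U.IsFiniteIndex := fun v => by
  obtain ⟨n, hn⟩ := hU v
  exact relIndex_ne_zero_of_small v n hn

lemma absV_lt_one_iff (v : HeightOneSpectrum (𝓞 L)) (x : L) :
    absV v x < 1 ↔ v.valuation L x < 1 := by
  rw [lt_iff_le_and_ne, lt_iff_le_and_ne, absV_le_one_iff, Ne, Ne, absV_eq_one_iff]

/-- A unit determinant matrix close to one fixes a coset, at any depth. -/
lemma smul_coset_eq_deep {U : Level L} {v : HeightOneSpectrum (𝓞 L)} (g h : GL (Fin 2) L)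
    {r : L} (hr0 : r ≠ 0) (hr : v.valuation L r ≤ 1)
    (hU : ∀ k ∈ locGL v, (∀ i j, v.valuation L ((k.val - 1) i j) < v.valuation L r) →
      ProjGenLinGroup.mk k ∈ U.loc v)
    (hdet : v.valuation L h.val.det = 1)
    (hsmall : ∀ i j, absV v ((h.val - 1) i j) * gNorm v g < absV v r) :
    (ProjGenLinGroup.mk h : G2 L) • (QuotientGroup.mk (ProjGenLinGroup.mk g) : G2 L ⧸ U.loc v) =
      QuotientGroup.mk (ProjGenLinGroup.mk g) := by
  rw [MulAction.Quotient.smul_mk, smul_eq_mul, eq_comm, QuotientGroup.eq]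
  suffices hk : g⁻¹ * (h * g) ∈ locGL v ∧
      ∀ i j, v.valuation L (((g⁻¹ * (h * g)).val - 1) i j) < v.valuation L r by
    have := hU _ hk.1 hk.2
    simpa using this
  have hd : g.val.det ≠ 0 := (GeneralLinearGroup.det g).ne_zero
  have hginv : ∀ i j, absV v ((g⁻¹).val i j) ≤
      max (vecAbs v (g.val 0)) (vecAbs v (g.val 1)) / absV v g.val.det := by
    intro i j
    rw [Matrix.coe_units_inv, Matrix.inv_def, Matrix.adjugate_fin_two, Matrix.smul_apply,
      smul_eq_mul, Ring.inverse_eq_inv', map_mul, map_inv₀, ← div_eq_inv_mul]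
    refine div_le_div_of_nonneg_right ?_ (AbsoluteValue.nonneg _ _)
    fin_cases i <;> fin_cases j <;>
      simp only [Fin.zero_eta, Fin.mk_one, Fin.isValue, Matrix.of_apply, Matrix.cons_val',
        Matrix.cons_val_zero, Matrix.cons_val_one, Matrix.cons_val_fin_one,
        AbsoluteValue.map_neg] <;>
      exact entry_le_max v g _ _
  have hterm : ∀ i k l j, absV v ((g⁻¹).val i k * ((h.val - 1) k l * g.val l j)) < absV v r := by
    intro i k l j
    rw [map_mul, map_mul]
    refine lt_of_le_of_lt ?_ (hsmall k l)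
    rw [gNorm, pow_two]
    refine le_trans (mul_le_mul (hginv i k) (mul_le_mul_of_nonneg_left (entry_le_max v g l j)
      (AbsoluteValue.nonneg _ _)) (mul_nonneg (AbsoluteValue.nonneg _ _) (AbsoluteValue.nonneg _ _))
      (div_nonneg (max_rows_nonneg v g) (AbsoluteValue.nonneg _ _))) (le_of_eq ?_)
    field_simp
  have e : (g⁻¹ * (h * g)).val - 1 = (g⁻¹).val * ((h.val - 1) * g.val) := by
    rw [Matrix.sub_mul, Matrix.one_mul, Matrix.mul_sub, Units.val_mul, Units.val_mul, Units.inv_mul]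
  have hsm' : ∀ i j, v.valuation L (((g⁻¹ * (h * g)).val - 1) i j) < v.valuation L r := by
    intro i j
    have key : absV v ((((g⁻¹ * (h * g)).val - 1) i j) / r) < 1 →
        v.valuation L (((g⁻¹ * (h * g)).val - 1) i j) < v.valuation L r := fun hlt => by
      rwa [absV_lt_one_iff, map_div₀,
        div_lt_one₀ (zero_lt_iff.mpr ((Valuation.ne_zero_iff _).mpr hr0))] at hlt
    refine key ?_
    rw [map_div₀, div_lt_one (AbsoluteValue.pos _ hr0), e]
    simp only [Matrix.mul_apply, Fin.sum_univ_two, mul_add]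
    refine lt_of_le_of_lt (absV_add_le v _ _) (max_lt ?_ ?_) <;>
      exact lt_of_le_of_lt (absV_add_le v _ _) (max_lt (hterm _ _ _ _) (hterm _ _ _ _))
  have hsm : ∀ i j, v.valuation L (((g⁻¹ * (h * g)).val - 1) i j) < 1 := fun i j =>
    (hsm' i j).trans_le hr
  have hle : ∀ i j, v.valuation L ((g⁻¹ * (h * g)).val i j) ≤ 1 := by
    intro i j
    rw [show (g⁻¹ * (h * g)).val i j = ((g⁻¹ * (h * g)).val - 1) i j +
      (1 : Matrix (Fin 2) (Fin 2) L) i j by simp]
    refine ((v.valuation L).map_add _ _).trans (max_le (hsm i j).le ?_)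
    fin_cases i <;> fin_cases j <;> simp
  refine ⟨⟨hle, ?_⟩, hsm'⟩
  have hm : g⁻¹.val.det * g.val.det = 1 := by
    rw [← Matrix.det_mul, Units.inv_mul, Matrix.det_one]
  rw [Units.val_mul, Units.val_mul, Matrix.det_mul, Matrix.det_mul, mul_left_comm, hm, mul_one,
    hdet]

/-- A nonzero integer such that integral matrices congruent to one modulo it, with unit
determinant, fix each point of a finite set of cosets. -/
theorem exists_modulus {U : Level L} (hU : U.IsCongr) (C : Finset (FinCoset U)) :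
    ∃ d : 𝓞 L, d ≠ 0 ∧ ∀ h : GL (Fin 2) L, (∀ v : HeightOneSpectrum (𝓞 L),
      v.valuation L h.val.det = 1) →
      (∀ i j, ∃ a : 𝓞 L, (h.val - 1) i j = (d : L) * (a : L)) →
        ∀ c ∈ C, (ProjGenLinGroup.mk h : G2 L) • c = c := by
  classical
  choose g hg using fun (c : FinCoset U) (v : HeightOneSpectrum (𝓞 L)) =>
    (QuotientGroup.mk_surjective (c.1 v)).imp fun _ h => h
  let bad : Finset (HeightOneSpectrum (𝓞 L)) :=
    ((C.finite_toSet.biUnion fun c _ => eventually_cofinite.mp c.2).union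
      (eventually_cofinite.mp U.eventually_eq)).toFinset
  let N : HeightOneSpectrum (𝓞 L) → ℝ := fun v =>
    1 + ∑ c ∈ C, gNorm v (g c v).out
  choose n hn using hU
  have hρ : ∀ v : HeightOneSpectrum (𝓞 L), ∃ r : L, r ≠ 0 ∧
      v.valuation L r = WithZero.exp (-(n v : ℤ)) := fun v => by
    obtain ⟨p, hp⟩ := v.valuation_exists_uniformizer L
    have h1 : v.valuation L (p ^ n v) = WithZero.exp (-(n v : ℤ)) := by
      rw [map_pow, hp, ← WithZero.exp_nsmul]; simp
    exact ⟨p ^ n v, fun h => WithZero.exp_ne_zero (by rw [← h1, h, map_zero]), h1⟩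
  choose r hr0 hr using hρ
  have hchoose : ∀ v : HeightOneSpectrum (𝓞 L), ∃ a : 𝓞 L, a ≠ 0 ∧
      absV v (a : L) * N v < absV v (r v) := by
    intro v
    obtain ⟨π, hπ, hπ0⟩ := Submodule.exists_mem_ne_zero_of_ne_bot v.ne_bot
    have hlt : absV v (π : L) < 1 :=
      (HeightOneSpectrum.adicAbv_coe_lt_one_iff v
        (HeightOneSpectrum.one_lt_absNorm_nnreal v) π).mpr hπ
    have hN : 0 < N v := add_pos_of_pos_of_nonneg one_pos
      (Finset.sum_nonneg fun c _ => gNorm_nonneg v _)
    obtain ⟨k, hk⟩ := exists_pow_lt_of_lt_one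
      (div_pos (AbsoluteValue.pos _ (hr0 v)) hN) hlt
    refine ⟨π ^ k, pow_ne_zero _ hπ0, ?_⟩
    push_cast
    rw [map_pow, ← lt_div_iff₀ hN]
    exact hk
  choose a ha0 ha using hchoose
  refine ⟨∏ v ∈ bad, a v, Finset.prod_ne_zero_iff.mpr fun v _ => ha0 v, fun h hdet hh c hc => ?_⟩
  refine FinCoset.ext fun v => ?_
  rw [FinCoset.smul_apply]
  by_cases hv : v ∈ bad
  · rw [← hg c v, ← Quotient.out_eq (g c v)]
    refine smul_coset_eq_deep _ _ (hr0 v) ?_ (fun k hk hs => hn v k hk fun i j => ?_) (hdet v)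
      fun i j => ?_
    · rw [hr, ← WithZero.exp_zero, WithZero.exp_le_exp]; omega
    · rcases eq_or_ne (v.valuation L ((k.val - 1) i j)) 0 with h0 | h0
      · rw [h0]; exact zero_le
      · have h1 := hs i j
        rw [hr, ← WithZero.exp_log h0, WithZero.exp_lt_exp] at h1
        rw [← WithZero.exp_log h0, WithZero.exp_le_exp]
        omega
    obtain ⟨b, hb⟩ := hh i j
    rw [hb, map_mul]
    have hle1 : ∀ y : 𝓞 L, absV v (y : L) ≤ 1 := fun y =>
      HeightOneSpectrum.adicAbv_coe_le_one v (HeightOneSpectrum.one_lt_absNorm_nnreal v) y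
    refine lt_of_le_of_lt ?_ (ha v)
    refine mul_le_mul ?_ ?_ (gNorm_nonneg v _) (AbsoluteValue.nonneg _ _)
    · rw [← Finset.mul_prod_erase bad a hv]
      push_cast
      rw [map_mul, mul_assoc]
      refine mul_le_of_le_one_right (AbsoluteValue.nonneg _ _) (mul_le_one₀ ?_
        (AbsoluteValue.nonneg _ _) (hle1 b))
      simpa using hle1 (∏ i ∈ bad.erase v, a i)
    · exact le_add_of_nonneg_of_le zero_le_one
        (Finset.single_le_sum (f := fun c => gNorm v (g c v).out) (fun c _ => gNorm_nonneg v _) hc)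
  · simp only [bad, Set.Finite.mem_toFinset, Set.mem_union, Set.mem_iUnion, not_or, not_exists,
      Set.mem_ofPred_eq, not_not] at hv
    rw [hv.1 c hc, MulAction.Quotient.smul_mk, smul_eq_mul, mul_one, QuotientGroup.eq, mul_one,
      inv_mem_iff, hv.2]
    refine ⟨h, ⟨fun i j => ?_, hdet v⟩, rfl⟩
    obtain ⟨b, hb⟩ := hh i j
    rw [show h.val i j = (h.val - 1) i j + (1 : Matrix (Fin 2) (Fin 2) L) i j by simp, hb,
      ← map_mul]
    refine ((v.valuation L).map_add _ _).trans (max_le (HeightOneSpectrum.valuation_le_one v _) ?_)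
    fin_cases i <;> fin_cases j <;> simp

lemma logEmbedding_pow (u : (𝓞 L)ˣ) (N : ℕ) :
    Units.logEmbedding L (Additive.ofMul (u ^ N)) =
    N • Units.logEmbedding L (Additive.ofMul u) := by
  rw [ofMul_pow, map_nsmul]

variable [IsTotallyComplex L]

/-- Units congruent to one modulo `d` balance any family of logarithmic heights. -/
theorem exists_balancing_unit {d : 𝓞 L} (hd : d ≠ 0) :
    ∃ B : ℝ, ∀ ℓ : InfinitePlace L → ℝ, ∃ u : (𝓞 L)ˣ, (∃ a : 𝓞 L, (u : 𝓞 L) - 1 = d * a) ∧
      ∀ w w', |(ℓ w + Real.log (w (u : L))) - (ℓ w' + Real.log (w' (u : L)))| ≤ B := by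
  classical
  have : Finite (𝓞 L ⧸ Ideal.span {d}) :=
    Ideal.finiteQuotientOfFreeOfNeBot _ (by simpa using hd)
  let π : (𝓞 L)ˣ →* (𝓞 L ⧸ Ideal.span {d})ˣ := Units.map (Ideal.Quotient.mk _).toMonoidHom
  let N := Nat.card (𝓞 L ⧸ Ideal.span {d})ˣ
  have hN : 0 < N := Nat.card_pos
  let b := Module.Free.chooseBasis ℤ (Units.unitLattice L)
  let bR := b.ofZLatticeBasis ℝ (Units.unitLattice L)
  let w₀ := Units.dirichletUnitTheorem.w₀ (K := L)
  let R : ℝ := ∑ i, ‖bR i‖
  let n : ℝ := Fintype.card (InfinitePlace L)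
  refine ⟨2 * (n * (N * R)), fun ℓ => ?_⟩
  let m : ℝ := (∑ w, ℓ w) / n
  let T : {w : InfinitePlace L // w ≠ w₀} → ℝ := fun w => 2 * (m - ℓ w.1) / N
  have hfl : ((ZSpan.floor bR T : _) : {w : InfinitePlace L // w ≠ w₀} → ℝ) ∈
      Units.unitLattice L := by
    exact SetLike.le_def.mp (le_of_eq (b.ofZLatticeBasis_span ℝ (Units.unitLattice L)))
      (ZSpan.floor bR T).2
  obtain ⟨u₀, -, hu₀⟩ := hfl
  refine ⟨u₀.toMul ^ N, ?_, ?_⟩
  · have h1 : π (u₀.toMul ^ N) = 1 := by rw [map_pow, pow_card_eq_one']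
    have h2 := congrArg Units.val h1
    rw [Units.val_one] at h2
    have h3 : ((u₀.toMul ^ N : (𝓞 L)ˣ) : 𝓞 L) - 1 ∈ Ideal.span {d} :=
      Ideal.Quotient.eq.mp (h2.trans (map_one _).symm)
    obtain ⟨a, ha⟩ := Ideal.mem_span_singleton'.mp h3
    exact ⟨a, by rw [← ha, mul_comm]⟩
  · set u := u₀.toMul ^ N
    have hdev : ∀ w, w ≠ w₀ → |ℓ w + Real.log (w (u : L)) - m| ≤ N * R := by
      intro w hw
      have h1 : ‖T - (ZSpan.floor bR T : {w : InfinitePlace L // w ≠ w₀} → ℝ)‖ ≤ R :=
        ZSpan.norm_fract_le bR T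
      have h2 := (norm_le_pi_norm _ (⟨w, hw⟩ : {w : InfinitePlace L // w ≠ w₀})).trans h1
      rw [Real.norm_eq_abs, Pi.sub_apply, ← hu₀, AddMonoidHom.coe_toIntLinearMap] at h2
      have h3 : (Units.logEmbedding L (Additive.ofMul u)) ⟨w, hw⟩ =
          N * (Units.logEmbedding L u₀) ⟨w, hw⟩ := by
        rw [logEmbedding_pow, Pi.smul_apply, nsmul_eq_mul]
        rfl
      rw [Units.dirichletUnitTheorem.logEmbedding_component] at h3
      simp only [IsTotallyComplex.mult_eq, Nat.cast_ofNat] at h3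
      have h4 : |(N : ℝ) * (T ⟨w, hw⟩ - Units.logEmbedding L u₀ ⟨w, hw⟩)| ≤ N * R := by
        rw [abs_mul, Nat.abs_cast]
        exact mul_le_mul_of_nonneg_left h2 (Nat.cast_nonneg _)
      rw [mul_sub, ← h3, show (N : ℝ) * T ⟨w, hw⟩ = 2 * (m - ℓ w) by
        simp only [T]; field_simp] at h4
      rw [abs_le] at h4 ⊢
      constructor <;> linarith [h4.1, h4.2]
    have hsum : ∑ w, (ℓ w + Real.log (w (u : L)) - m) = 0 := by
      have h1 := Units.sum_mult_mul_log u
      simp only [IsTotallyComplex.mult_eq, Nat.cast_ofNat, ← Finset.mul_sum] at h1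
      rw [Finset.sum_sub_distrib, Finset.sum_add_distrib, Finset.sum_const, Finset.card_univ,
        nsmul_eq_mul]
      have : (n : ℝ) * m = ∑ w, ℓ w := by
        have hn0 : n ≠ 0 := by simp [n]
        simp only [m]
        rw [mul_div_cancel₀ _ hn0]
      simp only [n] at this
      linarith
    have hR : 0 ≤ (N : ℝ) * R := mul_nonneg (Nat.cast_nonneg _)
      (Finset.sum_nonneg fun i _ => norm_nonneg _)
    have hn1 : 1 ≤ n := by
      simp only [n]; exact_mod_cast Fintype.card_pos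
    have hall : ∀ w, |ℓ w + Real.log (w (u : L)) - m| ≤ n * (N * R) := by
      intro w
      by_cases hw : w = w₀
      · subst hw
        rw [← Finset.add_sum_erase _ _ (Finset.mem_univ w₀)] at hsum
        rw [eq_neg_of_add_eq_zero_left hsum, abs_neg]
        refine (Finset.abs_sum_le_sum_abs _ _).trans ((Finset.sum_le_card_nsmul _ _ _ fun w hw =>
          hdev w (Finset.ne_of_mem_erase hw)).trans ?_)
        rw [nsmul_eq_mul]
        refine mul_le_mul_of_nonneg_right ?_ hR
        simp only [n]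
        exact_mod_cast Finset.card_le_univ _
      · exact (hdev w hw).trans (le_mul_of_one_le_left hR hn1)
    intro w w'
    have := abs_le.mp (hall w)
    have := abs_le.mp (hall w')
    rw [abs_le]
    constructor <;> linarith

variable (U : Level L)

/-- A Siegel set. -/
def siegelSet (C : Finset (FinCoset U)) (B c : ℝ) : Set (Space U) :=
  {y | (∀ w, ‖(y.1 w).z‖ ≤ B ∧ c ≤ (y.1 w).t ∧ ∀ w', (y.1 w).t ≤ B * (y.1 w').t) ∧ y.2 ∈ C}

variable {U}

/-- The bottom line. -/
def e1 : Fin 2 → L := ![0, 1]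

omit [IsTotallyComplex L] in
/-- The first vector is nonzero. -/
lemma e1_ne_zero : (e1 : Fin 2 → L) ≠ 0 := fun h => one_ne_zero (congrFun h 1)

omit [IsTotallyComplex L] in
/-- The height is invariant under the Borel subgroup. -/
lemma M_e1_smul_upper {b : GL (Fin 2) L} (hb : b.val 1 0 = 0) (x : Space U) :
    Space.M e1 ((ProjGenLinGroup.mk b : G2 L) • x) = Space.M e1 x := by
  have hb1 : b.val 1 1 ≠ 0 := fun h => (GeneralLinearGroup.det b).ne_zero (by
    show b.val.det = 0
    simp [Matrix.det_fin_two, h, hb])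
  rw [Space.M_smul e1_ne_zero, show (e1 : Fin 2 → L) ᵥ* b.val = b.val 1 1 • e1 by
    funext i; fin_cases i <;> simp [e1, Matrix.vecMul, dotProduct, Fin.sum_univ_two, hb],
    Space.M_smul_vec e1_ne_zero hb1]

/-- The height as a product of local factors. -/
lemma M_e1_eq (x : Space U) :
    Space.M e1 x = (∏ w : InfinitePlace L, ((x.1 w).t⁻¹) ^ 2) *
      ∏ᶠ v : HeightOneSpectrum (𝓞 L), locM v e1 (x.2.1 v) := by
  unfold Space.M
  congr 1
  refine Finset.prod_congr rfl fun w _ => ?_
  rw [IsTotallyComplex.mult_eq]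
  congr 1
  simp [archQ, e1]

/-- Reduction: every orbit has a point with bottom line of bounded height and finite part in a
finite set. -/
theorem exists_short_rep (hU : U.IsCongr) :
    ∃ C : Finset (FinCoset U), ∃ R : ℝ, ∀ x : Space U, ∃ γ : G2 L,
      (γ • x).2 ∈ C ∧ Space.M e1 (γ • x) ≤ R := by
  classical
  obtain ⟨C, hC⟩ := exists_finite_borel_reps hU.isFiniteIndex
  obtain ⟨R, hR⟩ := exists_short (L := L)
  choose g hg using fun (c : FinCoset U) (v : HeightOneSpectrum (𝓞 L)) =>
    (QuotientGroup.mk_surjective (c.1 v)).imp fun _ h => h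
  let Bc : FinCoset U → ℝ := fun c =>
    ∏ᶠ v, max 1 (if c.1 v = QuotientGroup.mk 1 then 1 else gNorm v (g c v).out)
  refine ⟨C, max R 1 ^ (2 * Fintype.card (InfinitePlace L)) * ∑ c ∈ C, Bc c, fun x => ?_⟩
  obtain ⟨b, -, hb⟩ := hC x.2
  set y := (ProjGenLinGroup.mk b : G2 L) • x
  obtain ⟨ξ, hξ0, hξ⟩ := hR y.1
  let η : Fin 2 → L := fun i => (ξ i : L)
  have hη0 : η ≠ 0 := fun h => hξ0 (funext fun i => by simpa [η] using congrFun h i)
  have hBc0 : ∀ c : FinCoset U, 0 ≤ Bc c := fun c => finprod_nonneg fun v =>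
    le_max_of_le_left zero_le_one
  have hM : Space.M η y ≤ max R 1 ^ (2 * Fintype.card (InfinitePlace L)) * Bc y.2 := by
    refine mul_le_mul ?_ ?_ (finprod_nonneg fun v => (locM_pos v hη0 _).le) (by positivity)
    · rw [pow_mul, ← Finset.card_univ, ← Finset.prod_const]
      refine Finset.prod_le_prod (fun w _ => ?_) fun w _ => ?_
      · exact pow_nonneg (archQ_pos (fun h => hη0 (funext fun i =>
          (map_eq_zero w.embedding).mp (congrFun h i))) _).le _
      · rw [IsTotallyComplex.mult_eq]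
        exact pow_le_pow_left₀ (archQ_pos (fun h => hη0 (funext fun i =>
          (map_eq_zero w.embedding).mp (congrFun h i))) _).le ((hξ w).trans (le_max_left _ _)) 2
    · refine finprod_le_finprod (Space.hasFiniteMulSupport_locM hη0 y)
        (fun v => (locM_pos v hη0 _).le)
        (Set.Finite.subset (eventually_cofinite.mp y.2.2) fun v hv hv' => hv (by simp [hv']))
        fun v => ?_
      by_cases hv : y.2.1 v = QuotientGroup.mk 1
      · rw [hv, if_pos rfl, max_self, ← map_one ProjGenLinGroup.mk, locM_mk, locMGL]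
        simp only [Units.val_one, Matrix.vecMul_one, Matrix.det_one, map_one, div_one]
        refine pow_le_one₀ (le_max_of_le_left (AbsoluteValue.nonneg _ _)) (max_le ?_ ?_) <;>
          exact HeightOneSpectrum.adicAbv_coe_le_one v (HeightOneSpectrum.one_lt_absNorm_nnreal v) _
      · rw [if_neg hv]
        refine le_trans ?_ (le_max_right _ _)
        have e : y.2.1 v = QuotientGroup.mk (ProjGenLinGroup.mk (g y.2 v).out) :=
          ((hg y.2 v).symm.trans (by rw [show ProjGenLinGroup.mk (g y.2 v).out = g y.2 v from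
            Quotient.out_eq (g y.2 v)]))
        rw [e, locM_mk, locMGL, gNorm]
        set h := (g y.2 v).out
        refine div_le_div_of_nonneg_right (pow_le_pow_left₀
          (le_max_of_le_left (AbsoluteValue.nonneg _ _)) ?_ 2) (AbsoluteValue.nonneg _ _)
        refine max_le ?_ ?_ <;>
        · simp only [Matrix.vecMul, dotProduct, Fin.sum_univ_two]
          refine (absV_add_le v _ _).trans (max_le ?_ ?_) <;> rw [map_mul] <;>
            exact le_trans (mul_le_of_le_one_left (AbsoluteValue.nonneg _ _)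
              (HeightOneSpectrum.adicAbv_coe_le_one v
                (HeightOneSpectrum.one_lt_absNorm_nnreal v) _))
              (entry_le_max v h _ _)
  obtain ⟨δ, hδ⟩ : ∃ δ : GL (Fin 2) L, δ.val 1 = η := by
    by_cases h0 : η 1 = 0
    · have h1 : η 0 ≠ 0 := fun h1 => hη0 (funext fun i => by fin_cases i <;> simp [h0, h1])
      exact ⟨GeneralLinearGroup.mkOfDetNeZero !![0, 1; η 0, η 1] (by simp [Matrix.det_fin_two, h1]),
        funext fun i => by fin_cases i <;> simp [GeneralLinearGroup.mkOfDetNeZero]⟩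
    · exact ⟨GeneralLinearGroup.mkOfDetNeZero !![1, 0; η 0, η 1] (by simp [Matrix.det_fin_two, h0]),
        funext fun i => by fin_cases i <;> simp [GeneralLinearGroup.mkOfDetNeZero]⟩
  obtain ⟨b', hb', hb'C⟩ := hC ((ProjGenLinGroup.mk δ : G2 L) • y).2
  refine ⟨ProjGenLinGroup.mk b' * (ProjGenLinGroup.mk δ * ProjGenLinGroup.mk b), ?_, ?_⟩
  · rw [mul_smul, mul_smul, Prod.smul_snd]
    exact hb'C
  · rw [mul_smul, mul_smul, M_e1_smul_upper hb', Space.M_smul e1_ne_zero,
      show (e1 : Fin 2 → L) ᵥ* δ.val = η by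
        rw [← hδ]; funext i; simp [e1, Matrix.vecMul, dotProduct, Fin.sum_univ_two]]
    refine hM.trans (mul_le_mul_of_nonneg_left ?_ (by positivity))
    exact Finset.single_le_sum (fun c _ => hBc0 c) hb

/-- **Reduction theory**: every `PGL₂(L)`-orbit meets a Siegel set. -/
theorem exists_siegel (hU : U.IsCongr) :
    ∃ (C : Finset (FinCoset U)) (B c : ℝ), 0 < B ∧ 0 < c ∧
      ∀ x : Space U, ∃ γ : G2 L, γ • x ∈ siegelSet U C B c := by
  classical
  obtain ⟨C, R, hR⟩ := exists_short_rep hU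
  obtain ⟨d, hd0, hd⟩ := exists_modulus hU C
  obtain ⟨B₀, hB₀⟩ := exists_balancing_unit hd0
  have hdL : (d : L) ≠ 0 := by simpa using hd0
  let μd : InfinitePlace L → ℝ := fun w => ‖w.embedding (d : L)‖
  let B₁ := (∑ w, μd w) * ∑ i, ‖infBasis L i‖
  let n := Fintype.card (InfinitePlace L)
  let S := fun c : FinCoset U => ∏ᶠ v : HeightOneSpectrum (𝓞 L), locM v e1 (c.1 v)
  have hS : ∀ c, 0 < S c := fun c => finprod_induction (fun y : ℝ => 0 < y) one_pos
    (fun _ _ => mul_pos) fun v => locM_pos v e1_ne_zero _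
  obtain ⟨s, hs0, hs⟩ : ∃ s : ℝ, 0 < s ∧ ∀ c ∈ C, ∀ T : ℝ, 0 < T → (T⁻¹) ^ 2 * S c ≤ R → s ≤ T := by
    obtain ⟨ε, hε0, hε⟩ : ∃ ε : ℝ, 0 < ε ∧ ∀ c ∈ C, ε ≤ S c := by
      rcases C.eq_empty_or_nonempty with h | h
      · exact ⟨1, one_pos, by simp [h]⟩
      · exact ⟨C.inf' h S, (Finset.lt_inf'_iff h).mpr fun c _ => hS c,
          fun c hc => Finset.inf'_le S hc⟩
    refine ⟨Real.sqrt (ε / max R 1), Real.sqrt_pos.mpr (div_pos hε0 (by positivity)),
      fun c hc T hT h => ?_⟩
    rw [Real.sqrt_le_iff]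
    refine ⟨hT.le, ?_⟩
    rw [inv_pow, inv_mul_le_iff₀ (pow_pos hT 2)] at h
    rw [div_le_iff₀ (by positivity)]
    calc ε ≤ S c := hε c hc
      _ ≤ T ^ 2 * R := h
      _ ≤ T ^ 2 * max R 1 := mul_le_mul_of_nonneg_left (le_max_left _ _) (sq_nonneg _)
  refine ⟨C, max (Real.exp B₀) (B₁ + 1), min 1 s / Real.exp B₀, lt_max_of_lt_left (Real.exp_pos _),
    div_pos (lt_min one_pos hs0) (Real.exp_pos _), fun x => ?_⟩
  obtain ⟨γ₀, hγC, hγM⟩ := hR x
  set y := γ₀ • x
  obtain ⟨u, ⟨a, ha⟩, hu⟩ := hB₀ fun w => Real.log (y.1 w).t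
  have huL : (u : L) ≠ 0 := by simp
  let Z : InfinitePlace L → ℂ :=
    fun w => w.embedding (u : L) * (y.1 w).z / w.embedding (d : L)
  obtain ⟨β, hβ⟩ := (mem_span_infBasis L).mp (ZSpan.floor (infBasis L) Z).2
  let h : GL (Fin 2) L := GeneralLinearGroup.mkOfDetNeZero !![(u : L), -((d : L) * β); 0, 1]
    (by simp [Matrix.det_fin_two])
  have hfix : (ProjGenLinGroup.mk h : G2 L) • y.2 = y.2 := by
    refine hd h (fun v => ?_) (fun i j => ?_) _ hγC
    · have : h.val.det = (u : L) := by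
        simp [h, GeneralLinearGroup.mkOfDetNeZero, Matrix.det_fin_two]
      rw [this]
      show v.valuation L (algebraMap (𝓞 L) L u) = 1
      rw [HeightOneSpectrum.valuation_of_algebraMap]
      exact HeightOneSpectrum.intValuation_eq_one_iff.mpr fun hmem =>
        v.isPrime.ne_top (Ideal.eq_top_of_isUnit_mem _ hmem u.isUnit)
    · fin_cases i <;> fin_cases j
      · exact ⟨a, by simp [h, GeneralLinearGroup.mkOfDetNeZero, ← map_mul, ← ha]⟩
      · exact ⟨-β, by simp [h, GeneralLinearGroup.mkOfDetNeZero]⟩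
      · exact ⟨0, by simp [h, GeneralLinearGroup.mkOfDetNeZero]⟩
      · exact ⟨0, by simp [h, GeneralLinearGroup.mkOfDetNeZero]⟩
  refine ⟨ProjGenLinGroup.mk h * γ₀, ?_⟩
  rw [mul_smul]
  have ht : ∀ w, (((ProjGenLinGroup.mk h : G2 L) • y).1 w).t = w (u : L) * (y.1 w).t := by
    intro w
    rw [Prod.smul_fst, infPts_smul_apply, ProjGenLinGroup.map_mk, H3.mk_smul, H3.t_smul]
    simp [h, GeneralLinearGroup.mkOfDetNeZero, H3.den, Matrix.det_fin_two,
      InfinitePlace.norm_embedding_eq]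
  have hz : ∀ w, (((ProjGenLinGroup.mk h : G2 L) • y).1 w).z =
      w.embedding (d : L) * (ZSpan.fract (infBasis L) Z) w := by
    intro w
    rw [Prod.smul_fst, infPts_smul_apply, ProjGenLinGroup.map_mk, H3.mk_smul, H3.smul_def]
    have hdw : w.embedding (d : L) ≠ 0 := by simpa using hdL
    have hfl : ((ZSpan.floor (infBasis L) Z : InfinitePlace L → ℂ)) w = w.embedding (β : L) := by
      rw [← hβ]; rfl
    simp only [ZSpan.fract_apply, Pi.sub_apply, hfl, mul_sub]
    simp [h, GeneralLinearGroup.mkOfDetNeZero, H3.act, H3.den, Z]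
    field_simp
    ring
  have hℓ : ∀ w, Real.log (y.1 w).t + Real.log (w (u : L)) =
      Real.log (((ProjGenLinGroup.mk h : G2 L) • y).1 w).t := fun w => by
    rw [ht, Real.log_mul (InfinitePlace.pos_iff.mpr huL).ne' (y.1 w).t_pos.ne', add_comm]
  have hratio : ∀ w w', (((ProjGenLinGroup.mk h : G2 L) • y).1 w).t ≤
      Real.exp B₀ * (((ProjGenLinGroup.mk h : G2 L) • y).1 w').t := fun w w' => by
    have := (abs_le.mp (hu w w')).2
    rw [hℓ, hℓ] at this
    rw [← Real.log_le_log_iff (H3.t_pos _) (mul_pos (Real.exp_pos _) (H3.t_pos _)),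
      Real.log_mul (Real.exp_pos _).ne' (H3.t_pos _).ne', Real.log_exp]
    linarith
  refine ⟨fun w => ⟨?_, ?_, fun w' => ?_⟩, ?_⟩
  · rw [hz, norm_mul]
    refine le_trans ?_ ((le_add_of_nonneg_right zero_le_one).trans (le_max_right _ _))
    exact mul_le_mul (Finset.single_le_sum (f := μd) (fun w _ => norm_nonneg _) (Finset.mem_univ w))
      ((norm_le_pi_norm _ w).trans (ZSpan.norm_fract_le (infBasis L) Z)) (norm_nonneg _)
      (Finset.sum_nonneg fun w _ => norm_nonneg _)
  · by_contra hlt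
    rw [not_le, lt_div_iff₀ (Real.exp_pos _)] at hlt
    set P := ∏ w', (((ProjGenLinGroup.mk h : G2 L) • y).1 w').t
    have hP : 0 < P := Finset.prod_pos fun w' _ => H3.t_pos _
    have hM : Space.M e1 ((ProjGenLinGroup.mk h : G2 L) • y) ≤ R := by
      rw [M_e1_smul_upper (by simp [h, GeneralLinearGroup.mkOfDetNeZero])]
      exact hγM
    rw [M_e1_eq, Finset.prod_pow, Finset.prod_inv_distrib, Prod.smul_snd, hfix] at hM
    have h1 := hs _ hγC P hP hM
    have hsmall : ∀ w', (((ProjGenLinGroup.mk h : G2 L) • y).1 w').t ≤ min 1 s := fun w' =>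
      (hratio w' w).trans (by rw [mul_comm]; exact hlt.le)
    have h2 : P < s := by
      rw [show P = _ from (Finset.mul_prod_erase _ _ (Finset.mem_univ w)).symm]
      refine lt_of_le_of_lt (mul_le_of_le_one_right (H3.t_pos _).le
        (Finset.prod_le_one (fun w' _ => (H3.t_pos _).le)
          fun w' _ => (hsmall w').trans (min_le_left _ _))) ?_
      refine lt_of_lt_of_le (lt_of_le_of_lt ?_ hlt) (min_le_right _ _)
      exact le_mul_of_one_le_right (H3.t_pos _).le (Real.one_le_exp (by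
        have := (abs_le.mp (hu w w)).2
        simpa using this))
    linarith
  · exact (hratio w w').trans (mul_le_mul_of_nonneg_right (le_max_left _ _) (H3.t_pos _).le)
  · rw [Prod.smul_snd, hfix]
    exact hγC

namespace H3

/-- The height has finite mass over a box. -/
lemma lintegral_t_lt_top (B : ℝ) {c : ℝ} (hc : 0 < c) :
    ∫⁻ p, {p : H3 | ‖p.z‖ ≤ B ∧ c ≤ p.t}.indicator (fun p => ENNReal.ofReal p.t) p ∂vol < ⊤ := by
  have hm : MeasurableSet {p : H3 | ‖p.z‖ ≤ B ∧ c ≤ p.t} :=
    ((isClosed_le continuous_z.norm continuous_const).inter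
      (isClosed_le continuous_const continuous_t)).measurableSet
  have hf := continuous_t.measurable.ennreal_ofReal.indicator hm
  rw [lintegral_vol hf]
  let T : Set (ℂ × ℝ) := Metric.closedBall 0 B ×ˢ Set.Ici c
  refine lt_of_le_of_lt (le_trans (lintegral_mono' Measure.restrict_le_self le_rfl) ?_)
    (b := ∫⁻ a : ℂ × ℝ, T.indicator (fun a => ENNReal.ofReal (a.2⁻¹ ^ 2)) a) ?_
  · rw [vol3]
    refine ((lintegral_map (measurable_dens.mul (hf.comp measurable_ofCoord))
      (WithLp.prod_continuous_toLp 2 ℂ ℝ).measurable).le.trans ?_)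
    refine lintegral_mono fun a => ?_
    by_cases h : ofCoord (WithLp.toLp 2 a) ∈ {p : H3 | ‖p.z‖ ≤ B ∧ c ≤ p.t}
    · show dens (WithLp.toLp 2 a) * {p : H3 | ‖p.z‖ ≤ B ∧ c ≤ p.t}.indicator
        (fun p => ENNReal.ofReal p.t) (ofCoord (WithLp.toLp 2 a)) ≤ _
      rw [Set.indicator_of_mem h]
      by_cases ha : 0 < a.2
      · have e : ofCoord (WithLp.toLp 2 a) = ⟨a.1, a.2, ha⟩ := dif_pos ha
        rw [e] at h ⊢
        have haT : a ∈ T := ⟨by simpa using h.1, h.2⟩
        rw [Set.indicator_of_mem haT]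
        show ENNReal.ofReal (a.2⁻¹ ^ 3) * ENNReal.ofReal a.2 ≤ _
        rw [← ENNReal.ofReal_mul (by positivity)]
        refine le_of_eq (congrArg _ ?_)
        field_simp
      · rw [show dens (WithLp.toLp 2 a) = 0 from ENNReal.ofReal_eq_zero.mpr
          ((Odd.pow_nonpos_iff (by decide : Odd 3)).mpr (inv_nonpos.mpr (not_lt.mp ha))), zero_mul]
        exact zero_le
    · simp [Set.indicator_of_notMem h]
  · rw [lintegral_indicator (measurableSet_closedBall.prod measurableSet_Ici)]
    have hint : IntegrableOn (fun a : ℂ × ℝ => a.2⁻¹ ^ 2) T := by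
      have h1 : IntegrableOn (fun t : ℝ => t⁻¹ ^ 2) (Set.Ici c) := by
        rw [integrableOn_Ici_iff_integrableOn_Ioi]
        refine (integrableOn_Ioi_rpow_of_lt (by norm_num : (-2 : ℝ) < -1) hc).congr_fun
          (fun t ht => ?_) measurableSet_Ioi
        show t ^ (-2 : ℝ) = t⁻¹ ^ 2
        rw [Real.rpow_neg (hc.trans ht).le, inv_pow, ← Real.rpow_natCast t 2]
        norm_num
      have h0 : IntegrableOn (fun _ : ℂ => (1 : ℝ)) (Metric.closedBall 0 B) :=
        integrableOn_const (isCompact_closedBall _ _).measure_lt_top.ne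
      have := h0.mul_prod h1
      simp only [one_mul] at this
      rw [IntegrableOn, Measure.volume_eq_prod, ← Measure.prod_restrict]
      exact this
    exact hint.setLIntegral_lt_top

/-- Boxes away from zero have finite volume. -/
lemma vol_box_lt_top (B : ℝ) {c : ℝ} (hc : 0 < c) : vol {p | ‖p.z‖ ≤ B ∧ c ≤ p.t} < ⊤ := by
  set A := {p : H3 | ‖p.z‖ ≤ B ∧ c ≤ p.t}
  have hm : MeasurableSet A := ((isClosed_le continuous_z.norm continuous_const).inter
    (isClosed_le continuous_const continuous_t)).measurableSet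
  rw [← lintegral_indicator_one hm]
  refine lt_of_le_of_lt (lintegral_mono fun p => ?_)
    (lt_of_eq_of_lt (lintegral_const_mul (ENNReal.ofReal c⁻¹)
      (continuous_t.measurable.ennreal_ofReal.indicator hm))
      (ENNReal.mul_lt_top ENNReal.ofReal_lt_top (lintegral_t_lt_top B hc)))
  by_cases hp : p ∈ A
  · rw [Set.indicator_of_mem hp, Set.indicator_of_mem hp, Pi.one_apply,
      ← ENNReal.ofReal_mul (inv_nonneg.2 hc.le), ENNReal.one_le_ofReal]
    exact (one_le_inv_mul₀ hc).2 hp.2
  · simp [Set.indicator_of_notMem hp]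

end H3

/-- **Finite volume**: a fundamental domain of `PGL₂(L)` on the adelic space of a congruence level
has finite volume. -/
theorem measure_fundamentalDomain_lt_top (hU : U.IsCongr) {s : Set (Space U)}
    (hs : IsFundamentalDomain (G2 L) s (Space.vol U)) : Space.vol U s < ⊤ := by
  classical
  obtain ⟨C, B, c, -, hc, hSieg⟩ := exists_siegel hU
  set T := siegelSet U C B c
  have hcover : s ⊆ ⋃ γ : G2 L, s ∩ γ • T := fun x hx => by
    obtain ⟨γ, hγ⟩ := hSieg x
    exact Set.mem_iUnion.mpr ⟨γ⁻¹, hx, Set.mem_smul_set_iff_inv_smul_mem.mpr (by rwa [inv_inv])⟩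
  have hle : Space.vol U s ≤ Space.vol U T := by
    rw [hs.measure_eq_tsum T]
    refine (measure_mono hcover).trans ((measure_iUnion_le _).trans (le_of_eq ?_))
    exact tsum_congr fun γ => by rw [Set.inter_comm]
  refine hle.trans_lt ?_
  refine lt_of_le_of_lt (measure_mono (t := (Set.univ.pi fun _ : InfinitePlace L =>
    {p : H3 | ‖p.z‖ ≤ B ∧ c ≤ p.t}) ×ˢ (C : Set (FinCoset U)))
    fun y hy => ⟨fun w _ => ⟨(hy.1 w).1, (hy.1 w).2.1⟩, hy.2⟩) ?_
  rw [Space.vol, Measure.prod_prod, Measure.pi_pi, Measure.count_apply_finset]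
  exact ENNReal.mul_lt_top (ENNReal.prod_lt_top fun w _ => H3.vol_box_lt_top B hc)
    (ENNReal.natCast_lt_top _)

end FermatAgent.LT
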