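import Mathlib
import Fermat.Agent.LT.Base.Siegel
import Fermat.Agent.LT.Base.Local

/-!
# Point kernels and their automorphisations

A point kernel is invariant under `PGL₂(L)` and supported near the diagonal.  Its automorphisation
`x, y ↦ ∑ γ, k x (γ • y)` is a finite sum at each pair of points.
-/

set_option autoImplicit false

noncomputable section

open Matrix IsDedekindDomain NumberField Filter MeasureTheory
open scoped MatrixGroups ENNReal ComplexConjugate

namespace FermatAgent.LT

namespace H3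

/-- The distance is symmetric. -/
lemma coshDist_comm (p q : H3) : coshDist p q = coshDist q p := by
  simp only [coshDist]
  rw [← Complex.normSq_neg (p.z - q.z), neg_sub]
  ring

/-- The bound at the base point. -/
lemma bnd_base : bnd base = 3 := by norm_num [bnd, base]

/-- Nearby points have comparable coordinates. -/
lemma coord_bounds_of_coshDist {ρ : ℝ} {p q : H3} (h : coshDist p q ≤ ρ) :
    q.t ≤ (2 * ρ + 2) * p.t ∧ p.t ≤ (2 * ρ + 2) * q.t ∧
      Complex.normSq (p.z - q.z) ≤ 2 * ρ * (p.t * q.t) := by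
  have hp := p.t_pos
  have hq := q.t_pos
  have hn := Complex.normSq_nonneg (p.z - q.z)
  have h' : (Complex.normSq (p.z - q.z) + (p.t - q.t) ^ 2) ≤ (ρ - 1) * (2 * p.t * q.t) := by
    have : (Complex.normSq (p.z - q.z) + (p.t - q.t) ^ 2) / (2 * p.t * q.t) ≤ ρ - 1 := by
      unfold coshDist at h; linarith
    rwa [div_le_iff₀ (by positivity)] at this
  have hρ : 1 ≤ ρ := le_trans (le_add_of_nonneg_right (by positivity)) h
  refine ⟨?_, ?_, ?_⟩
  · by_contra hc
    rw [not_le] at hc
    nlinarith [mul_pos hp hq, sq_nonneg p.t]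
  · by_contra hc
    rw [not_le] at hc
    nlinarith [mul_pos hp hq, sq_nonneg q.t]
  · nlinarith [sq_nonneg (p.t - q.t), mul_pos hp hq]

/-- The constant controlling nearby points. -/
def nearC (ρ : ℝ) : ℝ := 4 * (2 * ρ + 2) + 4 * ρ * (2 * ρ + 2) ^ 2

/-- Nearby points have comparable bounds. -/
lemma bnd_le_of_coshDist {ρ : ℝ} {p q : H3} (h : coshDist p q ≤ ρ) :
    bnd q ≤ nearC ρ * bnd p := by
  obtain ⟨h1, h2, h3⟩ := coord_bounds_of_coshDist h
  have hp := p.t_pos
  have hq := q.t_pos
  have hnp := Complex.normSq_nonneg p.z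
  have hρ : 1 ≤ ρ := le_trans (le_add_of_nonneg_right (by
    have := Complex.normSq_nonneg (p.z - q.z)
    positivity)) h
  set Λ := 2 * ρ + 2 with hΛ
  have hΛ0 : 0 < Λ := by rw [hΛ]; linarith
  have hz : Complex.normSq q.z ≤ 2 * Complex.normSq p.z + 2 * Complex.normSq (p.z - q.z) := by
    simp only [Complex.normSq_apply, Complex.sub_re, Complex.sub_im]
    nlinarith [sq_nonneg (p.z.re + (p.z.re - q.z.re)), sq_nonneg (p.z.im + (p.z.im - q.z.im))]
  have e1 : (2 * Complex.normSq q.z + 2) / q.t ≤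
      (4 * Complex.normSq p.z + 2) / q.t + 8 * ρ * p.t := by
    rw [div_add' _ _ _ hq.ne', div_le_div_iff_of_pos_right hq]
    nlinarith
  have e2 : (4 * Complex.normSq p.z + 2) / q.t ≤ Λ * ((4 * Complex.normSq p.z + 2) / p.t) := by
    rw [mul_div_assoc', div_le_div_iff₀ hq hp]
    nlinarith [mul_le_mul_of_nonneg_left h2 (by positivity : (0 : ℝ) ≤ 4 * Complex.normSq p.z + 2)]
  unfold bnd nearC
  rw [← hΛ]
  have e4 : 0 ≤ (2 * Complex.normSq p.z + 2) / p.t := by positivity
  have e5 : (4 * Complex.normSq p.z + 2) / p.t ≤ 2 * ((2 * Complex.normSq p.z + 2) / p.t) := by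
    rw [mul_div_assoc', div_le_div_iff_of_pos_right hp]; linarith
  nlinarith [mul_le_mul_of_nonneg_left e5 hΛ0.le, mul_nonneg (sq_nonneg Λ) hp.le,
    mul_nonneg (mul_nonneg hΛ0.le hΛ0.le) e4]

/-- Nearby points have comparable heights. -/
lemma archQ_le_of_coshDist {ρ : ℝ} {p q : H3} (h : coshDist p q ≤ ρ) (ξ : Fin 2 → ℂ) :
    archQ ξ q ≤ 3 * nearC ρ * archQ ξ p := by
  obtain ⟨g, rfl, -⟩ := exists_smul_base p
  obtain ⟨r, rfl⟩ : ∃ r, g • r = q := ⟨g⁻¹ • q, smul_inv_smul g q⟩
  rw [coshDist_smul] at h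
  rw [archQ_smul, archQ_smul, ← mul_div_assoc]
  refine div_le_div_of_nonneg_right ?_ (norm_nonneg _)
  refine (archQ_le _ r).trans ?_
  have h1 := bnd_le_of_coshDist h
  rw [bnd_base] at h1
  have h2 : archQ (ξ ᵥ* g.val) base =
      Complex.normSq ((ξ ᵥ* g.val) 0) + Complex.normSq ((ξ ᵥ* g.val) 1) := by simp [archQ, base]
  rw [h2]
  exact mul_le_mul_of_nonneg_right (by linarith) (add_nonneg (Complex.normSq_nonneg _)
    (Complex.normSq_nonneg _))

/-- The distance is continuous. -/
lemma continuous_coshDist (p : H3) : Continuous fun q : H3 => coshDist p q := by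
  unfold coshDist
  refine continuous_const.add (Continuous.div ?_ (continuous_const.mul continuous_t) fun q => ?_)
  · exact ((Complex.continuous_normSq.comp (continuous_const.sub continuous_z))).add
      ((continuous_const.sub continuous_t).pow 2)
  · have := p.t_pos; have := q.t_pos; positivity

end H3

variable {L : Type*} [Field L] [NumberField L]

/-- A `PGL₂(L)`-invariant kernel supported near the diagonal. -/
structure PtKer (U : Level L) where
  /-- the kernel -/
  k : Space U → Space U → ℂ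
  meas : Measurable (Function.uncurry k)
  inv : ∀ (g : G2 L) x y, k (g • x) (g • y) = k x y
  /-- a bound -/
  C : ℝ
  C_nonneg : 0 ≤ C
  bound : ∀ x y, ‖k x y‖ ≤ C
  /-- the radius -/
  ρ : ℝ
  /-- the finite neighbourhoods -/
  nbr : FinCoset U → Finset (FinCoset U)
  supp : ∀ x y, k x y ≠ 0 → (∀ w, H3.coshDist (x.1 w) (y.1 w) ≤ ρ) ∧ y.2 ∈ nbr x.2

/-- Right translation multiplies a height by at most the size of the translation. -/
lemma locMGL_mul_le (v : HeightOneSpectrum (𝓞 L)) (ξ : Fin 2 → L) (g k : GL (Fin 2) L) :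
    locMGL v ξ (g * k) ≤ gNorm v k * locMGL v ξ g := by
  unfold locMGL gNorm
  rw [Units.val_mul, ← Matrix.vecMul_vecMul, Matrix.det_mul, map_mul, div_mul_div_comm,
    ← mul_pow, mul_comm (absV v k.val.det)]
  refine div_le_div_of_nonneg_right (pow_le_pow_left₀
    (le_max_of_le_left (AbsoluteValue.nonneg _ _)) ?_ 2)
    (mul_nonneg (AbsoluteValue.nonneg _ _) (AbsoluteValue.nonneg _ _))
  have key : ∀ (η : Fin 2 → L) (j : Fin 2), absV v ((η ᵥ* k.val) j) ≤
      max (vecAbs v (k.val 0)) (vecAbs v (k.val 1)) * vecAbs v η := by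
    intro η j
    simp only [Matrix.vecMul, dotProduct, Fin.sum_univ_two]
    refine (absV_add_le v _ _).trans (max_le ?_ ?_) <;> rw [map_mul, mul_comm]
    · exact mul_le_mul (entry_le_max v k _ _) (le_max_left _ _) (AbsoluteValue.nonneg _ _)
        (max_rows_nonneg v k)
    · exact mul_le_mul (entry_le_max v k _ _) (le_max_right _ _) (AbsoluteValue.nonneg _ _)
        (max_rows_nonneg v k)
  exact max_le (key _ 0) (key _ 1)

namespace PtKer

variable {U : Level L} (k : PtKer U)

/-- The automorphisation. -/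
def aut (x y : Space U) : ℂ := ∑' γ : G2 L, k.k x (γ • y)

/-- A bound for bounded points. -/
lemma exists_finite_support (Cx Cy : Finset (FinCoset U)) (B : ℝ) :
    ∃ s : Finset (G2 L), ∀ x y : Space U, x.2 ∈ Cx → y.2 ∈ Cy → (∀ w, H3.bnd (x.1 w) ≤ B) →
      (∀ w, H3.bnd (y.1 w) ≤ B) → ∀ γ, k.k x (γ • y) ≠ 0 → γ ∈ s := by
  classical
  set D := Cx.biUnion k.nbr
  set B' := max B (H3.nearC k.ρ * B)
  let S : Set (G2 L) := ⋃ c ∈ Cy, ⋃ d ∈ D, {γ : G2 L | γ • c = d ∧
    ∃ p : InfPts L, ∀ w, H3.bnd (p w) ≤ B' ∧ H3.bnd ((γ • p) w) ≤ B'}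
  have hS : S.Finite := Cy.finite_toSet.biUnion fun c _ => D.finite_toSet.biUnion fun d _ =>
    finite_moving c d B'
  refine ⟨hS.toFinset, fun x y hx hy hxB hyB γ hγ => hS.mem_toFinset.mpr ?_⟩
  obtain ⟨h1, h2⟩ := k.supp x (γ • y) hγ
  refine Set.mem_iUnion₂.mpr ⟨y.2, hy, Set.mem_iUnion₂.mpr ⟨_, Finset.mem_biUnion.mpr ⟨x.2, hx, h2⟩,
    (Prod.smul_snd γ y).symm, y.1, fun w => ⟨(hyB w).trans (le_max_left _ _), ?_⟩⟩⟩
  refine (H3.bnd_le_of_coshDist (h1 w)).trans (le_trans ?_ (le_max_right _ _))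
  refine mul_le_mul_of_nonneg_left (hxB w) ?_
  have : 1 ≤ k.ρ := le_trans (le_add_of_nonneg_right (by
    have := Complex.normSq_nonneg ((x.1 w).z - ((γ • y).1 w).z)
    have := (x.1 w).t_pos
    have := ((γ • y).1 w).t_pos
    positivity)) (h1 w)
  unfold H3.nearC
  positivity

/-- Only finitely many translates meet the support. -/
lemma finite_support (x y : Space U) : {γ : G2 L | k.k x (γ • y) ≠ 0}.Finite := by
  obtain ⟨B, hB⟩ := ((Set.finite_range fun w => H3.bnd (x.1 w)).union
    (Set.finite_range fun w => H3.bnd (y.1 w))).bddAbove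
  obtain ⟨s, hs⟩ := k.exists_finite_support {x.2} {y.2} B
  exact s.finite_toSet.subset fun γ hγ => hs x y (Finset.mem_singleton_self _)
    (Finset.mem_singleton_self _) (fun w => hB (Or.inl ⟨w, rfl⟩))
    (fun w => hB (Or.inr ⟨w, rfl⟩)) γ hγ

/-- The automorphisation converges. -/
lemma summable_aut (x y : Space U) : Summable fun γ : G2 L => k.k x (γ • y) :=
  summable_of_hasFiniteSupport (k.finite_support x y)

/-- The automorphisation is invariant in the second variable. -/
lemma aut_smul_right (g : G2 L) (x y : Space U) : k.aut x (g • y) = k.aut x y := by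
  unfold aut
  rw [← (Equiv.mulRight g).tsum_eq fun γ => k.k x (γ • y)]
  simp [mul_smul]

/-- The automorphisation is invariant in the first variable. -/
lemma aut_smul_left (g : G2 L) (x y : Space U) : k.aut (g • x) y = k.aut x y := by
  unfold aut
  rw [← (Equiv.mulLeft g).tsum_eq fun γ => k.k (g • x) (γ • y)]
  simp [mul_smul, k.inv]

lemma measurable_term (γ : G2 L) : Measurable fun p : Space U × Space U => k.k p.1 (γ • p.2) :=
  k.meas.comp (measurable_fst.prodMk ((measurable_const_smul γ).comp measurable_snd))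

/-- The automorphisation is measurable. -/
lemma measurable_aut : Measurable (Function.uncurry k.aut) := by
  obtain ⟨e, he⟩ := exists_surjective_nat (G2 L)
  classical
  refine measurable_of_tendsto_metrizable
    (f := fun n (p : Space U × Space U) => ∑ γ ∈ (Finset.range n).image e, k.k p.1 (γ • p.2))
    (fun n => Finset.measurable_sum _ fun γ _ => k.measurable_term γ) ?_
  rw [tendsto_pi_nhds]
  intro p
  have h : Tendsto (fun n => (Finset.range n).image e) atTop atTop :=
    tendsto_atTop_finset_of_monotone (fun m n h => Finset.image_subset_image (Finset.range_mono h))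
      fun γ => by
        obtain ⟨n, rfl⟩ := he γ
        exact ⟨n + 1, Finset.mem_image_of_mem e (Finset.mem_range.mpr (Nat.lt_succ_self n))⟩
  exact (k.summable_aut p.1 p.2).hasSum.comp h

/-- Local comparison of heights between neighbours. -/
lemma exists_height_ratio (Cx : Finset (FinCoset U)) :
    ∃ Λ : ℝ, 1 ≤ Λ ∧ ∀ x y : Space U, x.2 ∈ Cx → k.k x y ≠ 0 → ∀ ξ : Fin 2 → L, ξ ≠ 0 →
      Space.M ξ y ≤ Λ * Space.M ξ x ∧ Space.M ξ x ≤ Λ * Space.M ξ y := by
  classical
  choose g hg using fun (c : FinCoset U) (v : HeightOneSpectrum (𝓞 L)) =>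
    (QuotientGroup.mk_surjective (c.1 v)).imp fun _ h => h
  let F : FinCoset U → FinCoset U → HeightOneSpectrum (𝓞 L) → ℝ := fun c d v =>
    if c.1 v = d.1 v then 1 else gNorm v ((g c v).out⁻¹ * (g d v).out)
  have hF : ∀ c d, Function.HasFiniteMulSupport (F c d) := fun c d =>
    Set.Finite.subset (eventually_cofinite.mp (c.2.and d.2)) fun v hv h => hv (by
      simp [F, h.1, h.2])
  have hF0 : ∀ c d v, 0 ≤ F c d v := fun c d v => by
    simp only [F]; split_ifs; exacts [zero_le_one, gNorm_nonneg v _]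
  have hloc : ∀ c d v ξ, locM v ξ (d.1 v) ≤ F c d v * locM v ξ (c.1 v) := by
    intro c d v ξ
    simp only [F]
    split_ifs with h
    · rw [h, one_mul]
    · have hc : c.1 v = QuotientGroup.mk (ProjGenLinGroup.mk (g c v).out) :=
        ((hg c v).symm.trans (by rw [show ProjGenLinGroup.mk (g c v).out = g c v from
          Quotient.out_eq (g c v)]))
      have hd : d.1 v = QuotientGroup.mk (ProjGenLinGroup.mk (g d v).out) :=
        ((hg d v).symm.trans (by rw [show ProjGenLinGroup.mk (g d v).out = g d v from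
          Quotient.out_eq (g d v)]))
      rw [hc, hd, locM_mk, locM_mk]
      set a := (g c v).out
      set b := (g d v).out
      conv_lhs => rw [show b = a * (a⁻¹ * b) by group]
      exact locMGL_mul_le v ξ _ _
  let P : FinCoset U → ℝ := fun c => ∑ d ∈ k.nbr c, (∏ᶠ v, F c d v + ∏ᶠ v, F d c v)
  have hP0 : ∀ c, 0 ≤ P c := fun c => Finset.sum_nonneg fun d _ =>
    add_nonneg (finprod_nonneg (hF0 c d)) (finprod_nonneg (hF0 d c))
  set A := (max 1 (3 * H3.nearC k.ρ)) ^ (∑ w : InfinitePlace L, w.mult)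
  refine ⟨1 + A * ∑ c ∈ Cx, P c, le_add_of_nonneg_right (mul_nonneg (by positivity)
    (Finset.sum_nonneg fun c _ => hP0 c)), fun x y hx hk ξ hξ => ?_⟩
  obtain ⟨h1, h2⟩ := k.supp x y hk
  have key : ∀ a b : Space U, (∀ w, H3.coshDist (a.1 w) (b.1 w) ≤ k.ρ) →
      Space.M ξ b ≤ A * (∏ᶠ v, F a.2 b.2 v) * Space.M ξ a := by
    intro a b hab
    have hne : ∀ w : InfinitePlace L, (fun i => w.embedding (ξ i)) ≠ 0 := fun w h0 =>
      hξ (funext fun i => (map_eq_zero w.embedding).mp (congrFun h0 i))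
    unfold Space.M
    rw [mul_mul_mul_comm]
    refine mul_le_mul ?_ ?_ (finprod_nonneg fun v => (locM_pos v hξ _).le) ?_
    · simp only [A]
      rw [← Finset.prod_pow_eq_pow_sum, ← Finset.prod_mul_distrib]
      refine Finset.prod_le_prod (fun w _ => pow_nonneg (archQ_pos (hne w) _).le _) fun w _ => ?_
      rw [← mul_pow]
      refine pow_le_pow_left₀ (archQ_pos (hne w) _).le
        ((H3.archQ_le_of_coshDist (hab w) _).trans ?_) _
      exact mul_le_mul_of_nonneg_right (le_max_right _ _) (archQ_pos (hne w) _).le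
    · rw [← finprod_mul_distrib (hF a.2 b.2) (Space.hasFiniteMulSupport_locM hξ a)]
      exact finprod_le_finprod (Space.hasFiniteMulSupport_locM hξ b) (fun v => (locM_pos v hξ _).le)
        (Set.Finite.subset ((hF a.2 b.2).union (Space.hasFiniteMulSupport_locM hξ a))
          (Function.mulSupport_mul _ _)) fun v => hloc _ _ v ξ
    · exact mul_nonneg (by positivity) (Finset.prod_nonneg fun w _ =>
        pow_nonneg (archQ_pos (hne w) _).le _)
  have hle : ∀ r, r ≤ P x.2 → A * r ≤ 1 + A * ∑ c ∈ Cx, P c := fun r hr =>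
    le_add_of_nonneg_of_le zero_le_one (mul_le_mul_of_nonneg_left
      (hr.trans (Finset.single_le_sum (fun c _ => hP0 c) hx)) (by positivity))
  refine ⟨(key x y h1).trans (mul_le_mul_of_nonneg_right (hle _ ?_) (Space.M_pos hξ x).le),
    (key y x fun w => by rw [H3.coshDist_comm]; exact h1 w).trans
      (mul_le_mul_of_nonneg_right (hle _ ?_) (Space.M_pos hξ y).le)⟩
  · refine le_trans (le_add_of_nonneg_right (finprod_nonneg (hF0 y.2 x.2))) ?_
    exact Finset.single_le_sum (f := fun d => ∏ᶠ v, F x.2 d v + ∏ᶠ v, F d x.2 v)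
      (fun d _ => add_nonneg (finprod_nonneg (hF0 _ d)) (finprod_nonneg (hF0 d _))) h2
  · refine le_trans (le_add_of_nonneg_left (finprod_nonneg (hF0 x.2 y.2))) ?_
    exact Finset.single_le_sum (f := fun d => ∏ᶠ v, F x.2 d v + ∏ᶠ v, F d x.2 v)
      (fun d _ => add_nonneg (finprod_nonneg (hF0 _ d)) (finprod_nonneg (hF0 d _))) h2

end PtKer

end FermatAgent.LT
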