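import Mathlib
import Fermat.Agent.LT.Base.PointKer

/-!
# Automorphised kernels in a cusp

High in a cusp only upper triangular elements contribute, with finitely many diagonal parts, so
an automorphised kernel is bounded as soon as its translation sums are.
-/

set_option autoImplicit false

noncomputable section

open Matrix IsDedekindDomain NumberField Filter MeasureTheory Module
open scoped MatrixGroups ENNReal ContDiff

namespace FermatAgent.LT

variable {L : Type*} [Field L] [NumberField L]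

/-- Translations. -/
def uB (β : L) : GL (Fin 2) L :=
  GeneralLinearGroup.mkOfDetNeZero !![1, β; 0, 1] (by simp [Matrix.det_fin_two])

/-- The matrix of a translation. -/
@[simp] lemma uB_val (β : L) : (uB β).val = !![1, β; 0, 1] := rfl

/-- Translations add. -/
lemma uB_add (a b : L) : uB (a + b) = uB a * uB b := by
  apply Units.ext
  ext i j
  fin_cases i <;> fin_cases j <;> simp [add_comm]

/-- Integral translations are locally integral. -/
lemma uB_mem_locGL {v : HeightOneSpectrum (𝓞 L)} {x : L} (hx : v.valuation L x ≤ 1) :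
    uB x ∈ locGL v := by
  refine ⟨fun i j => ?_, by simp [Matrix.det_fin_two]⟩
  fin_cases i <;> fin_cases j <;> simp [hx]

/-- Diagonal matrices. -/
def dB (α : Lˣ) : GL (Fin 2) L :=
  GeneralLinearGroup.mkOfDetNeZero !![(α : L), 0; 0, 1] (by simp [Matrix.det_fin_two])

omit [NumberField L] in
@[simp] lemma dB_val (α : Lˣ) : (dB α).val = !![(α : L), 0; 0, 1] := rfl

/-- The normal form of an upper triangular class. -/
lemma exists_upper_form {g : GL (Fin 2) L} (hg : g.val 1 0 = 0) :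
    ∃ (α : Lˣ) (β : L), (ProjGenLinGroup.mk g : G2 L) = ProjGenLinGroup.mk (uB β * dB α) := by
  have h1 : g.val 1 1 ≠ 0 := fun h => (GeneralLinearGroup.det g).ne_zero (by
    show g.val.det = 0
    simp [Matrix.det_fin_two, h, hg])
  have h0 : g.val 0 0 ≠ 0 := fun h => (GeneralLinearGroup.det g).ne_zero (by
    show g.val.det = 0
    simp [Matrix.det_fin_two, h, hg])
  refine ⟨Units.mk0 _ (div_ne_zero h0 h1), g.val 0 1 / g.val 1 1, ?_⟩
  rw [Matrix.ProjGenLinGroup.mk_eq_mk_iff]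
  refine ⟨Units.mk0 (g.val 1 1)⁻¹ (inv_ne_zero h1), ?_⟩
  apply Units.ext
  ext i j
  fin_cases i <;> fin_cases j <;>
    simp [GeneralLinearGroup.coe_scalar, hg, Matrix.mul_apply, Fin.sum_univ_two] <;> field_simp

/-- Translation-diagonal pairs give distinct classes. -/
lemma mk_upper_injective :
    Function.Injective fun p : Lˣ × L => (ProjGenLinGroup.mk (uB p.2 * dB p.1) : G2 L) := by
  rintro ⟨α, β⟩ ⟨α', β'⟩ h
  simp only [Matrix.ProjGenLinGroup.mk_eq_mk_iff] at h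
  obtain ⟨u, hu⟩ := h
  have e := congrArg Units.val hu
  have e11 := congrFun (congrFun e 1) 1
  have e00 := congrFun (congrFun e 0) 0
  have e01 := congrFun (congrFun e 0) 1
  simp [GeneralLinearGroup.coe_scalar, Matrix.mul_apply, Fin.sum_univ_two] at e11 e00 e01
  subst e11
  simp only [Prod.mk.injEq]
  exact ⟨Units.ext (by simpa using e00), by simpa using e01⟩

variable {U : Level L}

/-- The action of translations at infinity. -/
lemma uB_smul_inf (β : L) (q : InfPts L) (w : InfinitePlace L) :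
    (((ProjGenLinGroup.mk (uB β) : G2 L) • q) w).t = (q w).t ∧
      (((ProjGenLinGroup.mk (uB β) : G2 L) • q) w).z = (q w).z + w.embedding β := by
  rw [infPts_smul_apply, ProjGenLinGroup.map_mk, H3.mk_smul, H3.smul_def]
  constructor <;> simp [H3.act, H3.den, Matrix.det_fin_two]

variable [IsTotallyComplex L]

/-- A bound on the heights along a Siegel set. -/
lemma exists_M_e1_bound (C₀ : Finset (FinCoset U)) {c₀ : ℝ} (hc₀ : 0 < c₀) :
    ∃ R₀, 0 < R₀ ∧ ∀ y : Space U, y.2 ∈ C₀ → (∀ w, c₀ ≤ (y.1 w).t) → Space.M e1 y ≤ R₀ := by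
  let S := fun c : FinCoset U => ∏ᶠ v : HeightOneSpectrum (𝓞 L), locM v e1 (c.1 v)
  have hS : ∀ c, 0 ≤ S c := fun c => finprod_nonneg fun v => (locM_pos v e1_ne_zero _).le
  refine ⟨1 + (∏ _w : InfinitePlace L, (c₀⁻¹) ^ 2) * ∑ c ∈ C₀, S c,
    add_pos_of_pos_of_nonneg one_pos (mul_nonneg (by positivity)
      (Finset.sum_nonneg fun c _ => hS c)), fun y hy hy' => ?_⟩
  rw [M_e1_eq]
  refine le_add_of_nonneg_of_le zero_le_one ?_
  refine mul_le_mul (Finset.prod_le_prod (fun w _ => sq_nonneg _) fun w _ =>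
    pow_le_pow_left₀ (inv_nonneg.mpr (y.1 w).t_pos.le) (inv_anti₀ hc₀ (hy' w)) 2)
    (Finset.single_le_sum (fun c _ => hS c) hy) (hS _) (by positivity)

/-- Low points of a Siegel set are bounded. -/
lemma exists_bnd_bound (C₀ : Finset (FinCoset U)) (B : ℝ) {c₀ ε : ℝ} (hc₀ : 0 < c₀) (hε : 0 < ε) :
    ∃ B', ∀ y : Space U, y ∈ siegelSet U C₀ B c₀ → ε ≤ Space.M e1 y →
      ∀ w, H3.bnd (y.1 w) ≤ B' := by
  classical
  let S := fun c : FinCoset U => ∏ᶠ v : HeightOneSpectrum (𝓞 L), locM v e1 (c.1 v)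
  have hS : ∀ c, 0 ≤ S c := fun c => finprod_nonneg fun v => (locM_pos v e1_ne_zero _).le
  set Sg := ∑ c ∈ C₀, S c
  set Q := 1 + Sg / ε / (c₀ ^ 2) ^ (Fintype.card (InfinitePlace L) - 1)
  refine ⟨Q + (2 * B ^ 2 + 2) / c₀, fun y hy hε' w => ?_⟩
  have ht : ((y.1 w).t) ^ 2 * (c₀ ^ 2) ^ (Fintype.card (InfinitePlace L) - 1) ≤ Sg / ε := by
    rw [M_e1_eq, Finset.prod_pow, Finset.prod_inv_distrib, inv_pow] at hε'
    have hP : 0 < (∏ w, (y.1 w).t) ^ 2 := pow_pos (Finset.prod_pos fun w _ => H3.t_pos _) 2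
    rw [inv_mul_eq_div, le_div_iff₀ hP] at hε'
    rw [le_div_iff₀' hε]
    refine le_trans ?_ (hε'.trans (Finset.single_le_sum (fun c _ => hS c) hy.2))
    refine mul_le_mul_of_nonneg_left ?_ hε.le
    rw [← Finset.mul_prod_erase Finset.univ _ (Finset.mem_univ w), mul_pow, ← Finset.prod_pow]
    refine mul_le_mul_of_nonneg_left ?_ (sq_nonneg _)
    rw [← Finset.card_univ, ← Finset.card_erase_of_mem (Finset.mem_univ w), ← Finset.prod_const]
    exact Finset.prod_le_prod (fun _ _ => sq_nonneg _) fun w' _ =>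
      pow_le_pow_left₀ hc₀.le (hy.1 w').2.1 2
  rw [← le_div_iff₀ (by positivity)] at ht
  have h1 : (y.1 w).t ≤ Q := by nlinarith [sq_nonneg ((y.1 w).t - 1)]
  unfold H3.bnd
  refine add_le_add h1 (div_le_div₀ (by positivity) ?_ hc₀ (hy.1 w).2.1)
  have hz := (hy.1 w).1
  rw [Complex.normSq_eq_norm_sq]
  nlinarith [norm_nonneg (y.1 w).z]

/-- Translation sums are bounded in the cusp. -/
def PtKer.HasTransBound (k : PtKer U) : Prop :=
  ∀ (c d : FinCoset U) (tmin : ℝ), 0 < tmin → ∀ Λ : ℝ, ∃ B, ∀ p q : InfPts L,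
    (∀ w, tmin ≤ (p w).t ∧ ∀ w', (p w).t ≤ Λ * (p w').t) →
      ‖∑' β : L, k.k (p, c) ((ProjGenLinGroup.mk (uB β) : G2 L) • ((q, d) : Space U))‖ ≤ B

/-- Heights bounded below, with bounded ratios. -/
def InCusp (c₀ Bz : ℝ) (p : InfPts L) : Prop := ∀ w, c₀ ≤ (p w).t ∧ ∀ w', (p w).t ≤ Bz * (p w').t

omit [IsTotallyComplex L] in
lemma inCusp_of_mem_siegelSet {C₀ : Finset (FinCoset U)} {c₀ Bz : ℝ} {x : Space U}
    (hx : x ∈ siegelSet U C₀ Bz c₀) : InCusp c₀ Bz x.1 := fun w => ⟨(hx.1 w).2.1, (hx.1 w).2.2⟩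

/-- The diagonal parts of contributing upper triangular elements form a finite set. -/
theorem PtKer.exists_alpha_set (k : PtKer U) (C₀ : Finset (FinCoset U)) (Bz c₀ : ℝ) :
    ∃ A : Finset Lˣ, ∀ x y : Space U, x.2 ∈ C₀ → y.2 ∈ C₀ → InCusp c₀ Bz x.1 →
      InCusp c₀ Bz y.1 → ∀ α β,
        k.k x ((ProjGenLinGroup.mk (uB β * dB α) : G2 L) • y) ≠ 0 → α ∈ A := by
  classical
  obtain ⟨Λ, hΛ1, hΛ⟩ := k.exists_height_ratio C₀
  have hΛ0 : 0 < Λ := one_pos.trans_le hΛ1
  choose Cf hCf1 hCf using fun (c d : FinCoset U) => exists_gNorm_bound c d (U := U)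
  let D := C₀.biUnion k.nbr
  let C : HeightOneSpectrum (𝓞 L) → ℝ := fun v => ∑ c ∈ C₀, ∑ d ∈ D, max 0 (Cf c d v)
  obtain ⟨bad, hbad⟩ : ∃ bad : Finset (HeightOneSpectrum (𝓞 L)), ∀ v ∉ bad,
      ∀ c ∈ C₀, ∀ d ∈ D, Cf c d v ≤ 1 :=
    ⟨(eventually_cofinite.mp ((C₀.eventually_all).mpr fun c _ => (D.eventually_all).mpr
      fun d _ => hCf1 c d)).toFinset, fun v hv => by simpa using hv⟩
  let C' : HeightOneSpectrum (𝓞 L) → ℝ := fun v => if v ∈ bad then C v else 1
  let S := fun c : FinCoset U => ∏ᶠ v : HeightOneSpectrum (𝓞 L), locM v e1 (c.1 v)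
  have hS : ∀ c, 0 < S c := fun c => finprod_induction (fun y : ℝ => 0 < y) one_pos
    (fun _ _ => mul_pos) fun v => locM_pos v e1_ne_zero _
  let Kq : ℝ := 1 + Λ * ∑ c ∈ C₀, ∑ c' ∈ C₀, S c / S c'
  let W : ℝ := max (2 * k.ρ + 2) 0 * (max Bz 0 * max Bz 0 * Kq)
  have hfin : {x : L | (∀ v, absV v x ≤ C' v) ∧ ∀ w : InfinitePlace L, w x ≤ W}.Finite := by
    refine finite_of_bounded C' ?_ W
    filter_upwards [bad.finite_toSet.compl_mem_cofinite] with v hv
    exact le_of_eq (if_neg hv)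
  refine ⟨(hfin.preimage Units.val_injective.injOn).toFinset, fun x y hx hy hxc hyc α β hk => ?_⟩
  rw [Set.Finite.mem_toFinset]
  obtain ⟨hd, hn⟩ := k.supp x _ hk
  refine ⟨fun v => ?_, fun w => ?_⟩
  · have h1 := (absV_adCoord_le v (uB β * dB α) ((0, 0), (0, 0))).trans
      (hCf y.2 _ (uB β * dB α) (Prod.smul_snd _ y).symm v)
    rw [show adCoord (uB β * dB α) ((0, 0), (0, 0)) = (α : L) by
      simp [adCoord, Matrix.det_fin_two, Matrix.mul_apply, Fin.sum_univ_two]] at h1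
    have hmem : ((ProjGenLinGroup.mk (uB β * dB α) : G2 L) • y).2 ∈ D :=
      Finset.mem_biUnion.mpr ⟨x.2, hx, hn⟩
    simp only [C']
    split_ifs with hv
    · refine h1.trans ((le_max_right 0 _).trans ?_)
      refine le_trans ?_ (Finset.single_le_sum (f := fun c => ∑ d ∈ D, max 0 (Cf c d v))
        (fun c _ => Finset.sum_nonneg fun d _ => le_max_left _ _) hy)
      exact Finset.single_le_sum (f := fun d => max 0 (Cf y.2 d v))
        (fun d _ => le_max_left _ _) hmem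
    · exact h1.trans (hbad v hv _ hy _ hmem)
  · -- the archimedean bound
    set γy := (ProjGenLinGroup.mk (uB β * dB α) : G2 L) • y
    have ht : ∀ w', (γy.1 w').t = w' (α : L) * (y.1 w').t := fun w' => by
      simp only [γy, Prod.smul_fst, infPts_smul_apply, ProjGenLinGroup.map_mk, H3.mk_smul,
        H3.t_smul]
      simp [H3.den, Matrix.det_fin_two, Matrix.mul_apply, Fin.sum_univ_two,
        InfinitePlace.norm_embedding_eq]
    have hM : Space.M e1 y ≤ Λ * Space.M e1 x := by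
      rw [← M_e1_smul_upper (b := uB β * dB α) (by
        simp [Matrix.mul_apply, Fin.sum_univ_two]) y]
      exact (hΛ x _ hx hk e1 e1_ne_zero).1
    rw [M_e1_eq, M_e1_eq, Finset.prod_pow, Finset.prod_pow, Finset.prod_inv_distrib,
      Finset.prod_inv_distrib] at hM
    obtain ⟨w', -, hw'⟩ : ∃ w' ∈ (Finset.univ : Finset (InfinitePlace L)),
        (x.1 w').t ≤ Kq * (y.1 w').t := by
      by_contra hcon
      push Not at hcon
      have hK1 : 1 ≤ Kq := le_add_of_nonneg_right (mul_nonneg hΛ0.le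
        (Finset.sum_nonneg fun c _ => Finset.sum_nonneg fun c' _ => (div_pos (hS c) (hS c')).le))
      have hPy : 0 < ∏ w', (y.1 w').t := Finset.prod_pos fun w' _ => H3.t_pos _
      have hPx : 0 < ∏ w', (x.1 w').t := Finset.prod_pos fun w' _ => H3.t_pos _
      have h2 : Kq * ∏ w', (y.1 w').t ≤ ∏ w', (x.1 w').t := by
        calc Kq * ∏ w', (y.1 w').t ≤ Kq ^ (Finset.univ : Finset (InfinitePlace L)).card *
              ∏ w', (y.1 w').t := mul_le_mul_of_nonneg_right
                (le_self_pow₀ hK1 (Finset.card_ne_zero.mpr Finset.univ_nonempty)) hPy.le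
          _ = ∏ w', Kq * (y.1 w').t := by rw [Finset.prod_mul_distrib, Finset.prod_const]
          _ ≤ _ := Finset.prod_le_prod (fun w' _ => mul_nonneg (by linarith) (H3.t_pos _).le)
              fun w' hw' => (hcon w' hw').le
      have hsum : S x.2 / S y.2 ≤ ∑ c ∈ C₀, ∑ c' ∈ C₀, S c / S c' :=
        le_trans (Finset.single_le_sum (f := fun c' => S x.2 / S c')
          (fun c' _ => (div_pos (hS _) (hS c')).le) hy)
          (Finset.single_le_sum (f := fun c => ∑ c' ∈ C₀, S c / S c')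
            (fun c _ => Finset.sum_nonneg fun c' _ => (div_pos (hS c) (hS c')).le) hx)
      have h3 : Λ * (S x.2 / S y.2) < Kq := by
        have := mul_le_mul_of_nonneg_left hsum hΛ0.le
        simp only [Kq]
        linarith
      rw [mul_div_assoc', div_lt_iff₀ (hS _)] at h3
      set Py := ∏ w', (y.1 w').t
      set Px := ∏ w', (x.1 w').t
      rw [inv_pow, inv_pow, inv_mul_eq_div, inv_mul_eq_div, mul_div_assoc',
        div_le_div_iff₀ (by positivity) (by positivity)] at hM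
      have h4 := pow_le_pow_left₀ (by positivity) h2 2
      have h5 : S y.2 * (Kq * Py) ^ 2 ≤ Λ * S x.2 * Py ^ 2 :=
        (mul_le_mul_of_nonneg_left h4 (hS _).le).trans (le_of_le_of_eq hM (by ring))
      have h6 : S y.2 * Kq ^ 2 ≤ Λ * S x.2 := by
        refine le_of_mul_le_mul_right ?_ (pow_pos hPy 2)
        calc S y.2 * Kq ^ 2 * Py ^ 2 = S y.2 * (Kq * Py) ^ 2 := by ring
          _ ≤ _ := h5
      have h7 := mul_le_mul_of_nonneg_left (le_self_pow₀ hK1 two_ne_zero) (hS y.2).le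
      linarith
    have h7 := (H3.coord_bounds_of_coshDist (hd w)).1
    rw [ht] at h7
    have hB0 : 0 ≤ max Bz 0 := le_max_right _ _
    have hK0 : 0 ≤ Kq := by
      have : 0 ≤ Λ * ∑ c ∈ C₀, ∑ c' ∈ C₀, S c / S c' := mul_nonneg hΛ0.le
        (Finset.sum_nonneg fun c _ => Finset.sum_nonneg fun c' _ => (div_pos (hS c) (hS c')).le)
      simp only [Kq]; linarith
    have h8 : (x.1 w).t ≤ max Bz 0 * max Bz 0 * Kq * (y.1 w).t := by
      calc (x.1 w).t ≤ Bz * (x.1 w').t := (hxc w).2 w'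
        _ ≤ max Bz 0 * (Kq * (y.1 w').t) :=
          mul_le_mul (le_max_left _ _) hw' (H3.t_pos _).le hB0
        _ ≤ max Bz 0 * (Kq * (max Bz 0 * (y.1 w).t)) := by
          refine mul_le_mul_of_nonneg_left (mul_le_mul_of_nonneg_left ?_ hK0) hB0
          exact ((hyc w').2 w).trans (mul_le_mul_of_nonneg_right (le_max_left _ _)
            (H3.t_pos _).le)
        _ = _ := by ring
    refine le_of_mul_le_mul_right ?_ (y.1 w).t_pos
    refine h7.trans ((mul_le_mul (le_max_left _ 0) h8 (H3.t_pos _).le (le_max_right _ _)).trans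
      (le_of_eq ?_))
    simp only [W]
    ring

omit [IsTotallyComplex L] in
private lemma e1_vecMul_ne_zero (γ : GL (Fin 2) L) : (e1 : Fin 2 → L) ᵥ* γ.val ≠ 0 := fun h0 =>
  e1_ne_zero (by
    have := congrArg (fun x => x ᵥ* (γ⁻¹).val) h0
    simpa [Matrix.vecMul_vecMul, ← Units.val_mul] using this)

omit [IsTotallyComplex L] in
/-- Short lines are unique: a transform that keeps the first line short is upper triangular. -/
private lemma eq_zero_of_M_mul_lt_one {γ : GL (Fin 2) L} {y : Space U}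
    (hlt : Space.M ((e1 : Fin 2 → L) ᵥ* γ.val) y * Space.M e1 y < 1) : γ.val 1 0 = 0 := by
  by_contra h10
  refine absurd (Space.one_le_M_mul ?_ y) (not_le.mpr hlt)
  simpa [e1, Matrix.vecMul, dotProduct, Fin.sum_univ_two] using h10

omit [IsTotallyComplex L] in
/-- A point that pairs with a low point is itself low. -/
private lemma le_M_e1_of_height_ratio {Λ R₀ ε : ℝ} (hΛ1 : 1 ≤ Λ) (hR₀ : 0 < R₀)
    (hεR : ε * (Λ * R₀) = 1 / 2) {γ : G2 L} {x y : Space U}
    (hM : ∀ ξ : Fin 2 → L, ξ ≠ 0 →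
      Space.M ξ (γ • y) ≤ Λ * Space.M ξ x ∧ Space.M ξ x ≤ Λ * Space.M ξ (γ • y))
    (hxR : Space.M e1 x ≤ R₀) (hlow : ε ≤ Space.M e1 x) : ε / Λ ≤ Space.M e1 y := by
  by_contra hyhigh
  have hΛ0 : 0 < Λ := one_pos.trans_le hΛ1
  rw [not_le] at hyhigh
  obtain ⟨g, rfl⟩ := ProjGenLinGroup.mk_surjective γ
  have h1 := hM _ (e1_vecMul_ne_zero g⁻¹)
  rw [Space.M_smul (e1_vecMul_ne_zero g⁻¹), Matrix.vecMul_vecMul, ← Units.val_mul, inv_mul_cancel,
    Units.val_one, Matrix.vecMul_one] at h1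
  have h3 : Space.M ((e1 : Fin 2 → L) ᵥ* (g⁻¹).val) x * Space.M e1 x < 1 := by
    refine lt_of_le_of_lt (mul_le_mul h1.2 hxR (Space.M_pos e1_ne_zero x).le
      (mul_nonneg hΛ0.le (Space.M_pos e1_ne_zero y).le)) ?_
    have := mul_lt_mul_of_pos_left hyhigh hΛ0
    rw [mul_div_cancel₀ _ hΛ0.ne'] at this
    nlinarith [mul_lt_mul_of_pos_right this hR₀]
  have h4 := eq_zero_of_M_mul_lt_one h3
  have h5 : (e1 : Fin 2 → L) ᵥ* (g⁻¹).val = (g⁻¹).val 1 1 • e1 := by
    funext i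
    fin_cases i <;>
      simp [e1, Matrix.vecMul, dotProduct, Fin.sum_univ_two, -Matrix.coe_units_inv, h4]
  have h11 : (g⁻¹).val 1 1 ≠ 0 := fun h => e1_vecMul_ne_zero g⁻¹ (by rw [h5, h, zero_smul])
  rw [h5, Space.M_smul_vec e1_ne_zero h11] at h1
  have := mul_lt_mul_of_pos_left hyhigh hΛ0
  rw [mul_div_cancel₀ _ hΛ0.ne'] at this
  linarith [h1.2]

/-- Sums over a set are bounded on Siegel sets if the sums over the diagonal parts of their
translation sums are. -/
theorem PtKer.bounded_sum_siegel (k : PtKer U) (S₀ : Set (G2 L)) (C₀ : Finset (FinCoset U))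
    (Bz : ℝ) {c₀ : ℝ} (hc₀ : 0 < c₀) (A : Finset Lˣ)
    (hA : ∀ x y : Space U, x.2 ∈ C₀ → y.2 ∈ C₀ → InCusp c₀ Bz x.1 →
      InCusp c₀ Bz y.1 → ∀ α β,
        k.k x ((ProjGenLinGroup.mk (uB β * dB α) : G2 L) • y) ≠ 0 → α ∈ A)
    (hB : ∀ c ∈ C₀, ∀ d ∈ C₀, ∃ B : ℝ, ∀ p q : InfPts L, InCusp c₀ Bz p → InCusp c₀ Bz q →
      ‖∑ α ∈ A, ∑' β : L, S₀.indicator (fun γ => k.k (p, c) (γ • ((q, d) : Space U)))
        (ProjGenLinGroup.mk (uB β * dB α))‖ ≤ B) :
    ∃ B, ∀ x ∈ siegelSet U C₀ Bz c₀, ∀ y ∈ siegelSet U C₀ Bz c₀,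
      ‖∑' γ : G2 L, S₀.indicator (fun γ => k.k x (γ • y)) γ‖ ≤ B := by
  classical
  obtain ⟨Λ, hΛ1, hΛ⟩ := k.exists_height_ratio C₀
  obtain ⟨R₀, hR₀, hR₀b⟩ := exists_M_e1_bound C₀ hc₀
  set ε := 1 / (2 * Λ * R₀) with hεdef
  have hΛ0 : 0 < Λ := one_pos.trans_le hΛ1
  have hε : 0 < ε := by positivity
  choose! Bt hBt using hB
  -- bounded points
  obtain ⟨B', hB'⟩ := exists_bnd_bound C₀ Bz hc₀ (by positivity : 0 < ε / Λ)
  obtain ⟨s, hs⟩ := k.exists_finite_support C₀ C₀ B'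
  refine ⟨s.card * k.C + ∑ c ∈ C₀, ∑ d ∈ C₀, max 0 (Bt c d), fun x hx y hy => ?_⟩
  set F : G2 L → ℂ := S₀.indicator fun γ => k.k x (γ • y) with hF
  have hFk : ∀ γ, F γ ≠ 0 → k.k x (γ • y) ≠ 0 := fun γ h => by
    simp only [F, Set.indicator_apply] at h
    split_ifs at h with h1
    · exact h
    · exact absurd rfl h
  have hFb : ∀ γ, ‖F γ‖ ≤ k.C := fun γ => by
    simp only [F, Set.indicator_apply]
    split_ifs
    · exact k.bound _ _
    · simpa using k.C_nonneg
  have hxR := hR₀b x hx.2 fun w => (hx.1 w).2.1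
  have hyR := hR₀b y hy.2 fun w => (hy.1 w).2.1
  have hεR : ε * (Λ * R₀) = 1 / 2 := by
    simp only [hεdef]
    field_simp
  by_cases hlow : ε ≤ Space.M e1 x
  · -- both points are bounded
    refine (le_trans ?_ (le_add_of_nonneg_right (Finset.sum_nonneg
      fun c _ => Finset.sum_nonneg fun d _ => le_max_left _ _)))
    by_cases hzero : ∀ γ : G2 L, k.k x (γ • y) = 0
    · rw [tsum_congr fun γ => (show F γ = 0 from by_contra fun h => hFk γ h (hzero γ)),
        tsum_zero, norm_zero]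
      exact mul_nonneg (Nat.cast_nonneg _) k.C_nonneg
    push Not at hzero
    obtain ⟨γ, hγ⟩ := hzero
    have hylow : ε / Λ ≤ Space.M e1 y :=
      le_M_e1_of_height_ratio hΛ1 hR₀ hεR (hΛ x _ hx.2 hγ) hxR hlow
    have hx' := hB' x hx ((div_le_self hε.le hΛ1).trans hlow)
    rw [tsum_eq_sum (s := s) fun γ' hγ' => by
      by_contra h
      exact hγ' (hs x y hx.2 hy.2 hx' (hB' y hy hylow) γ' (hFk γ' h))]
    refine (norm_sum_le _ _).trans ((Finset.sum_le_card_nsmul _ _ _ fun γ' _ => hFb γ').trans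
      (le_of_eq ?_))
    rw [nsmul_eq_mul]
  · -- only upper triangular elements contribute
    rw [not_le] at hlow
    refine le_trans ?_ (le_add_of_nonneg_left (mul_nonneg (Nat.cast_nonneg _) k.C_nonneg))
    let Φ : Lˣ × L → G2 L := fun p => ProjGenLinGroup.mk (uB p.2 * dB p.1)
    have hsub : Function.support F ⊆ Set.range Φ := by
      intro γ hγ'
      have hγ := hFk γ hγ'
      obtain ⟨g, rfl⟩ := ProjGenLinGroup.mk_surjective γ
      have h1 := (hΛ x _ hx.2 hγ e1 e1_ne_zero).1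
      rw [Space.M_smul e1_ne_zero] at h1
      have h10 : g.val 1 0 = 0 := eq_zero_of_M_mul_lt_one (lt_of_le_of_lt (mul_le_mul h1 hyR
        (Space.M_pos e1_ne_zero y).le (mul_nonneg hΛ0.le (Space.M_pos e1_ne_zero x).le)) (by
          nlinarith [mul_lt_mul_of_pos_right (mul_lt_mul_of_pos_left hlow hΛ0) hR₀]))
      obtain ⟨α, β, h⟩ := exists_upper_form h10
      exact ⟨(α, β), h.symm⟩
    have hsumF : Summable F := summable_of_hasFiniteSupport
      ((k.finite_support x y).subset fun γ h => hFk γ h)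
    have hsum := hsumF.comp_injective (i := Φ) mk_upper_injective
    rw [← mk_upper_injective.tsum_eq hsub,
      show (∑' p : Lˣ × L, F (Φ p)) = ∑' p, (F ∘ Φ) p from rfl,
      Summable.tsum_prod hsum]
    rw [tsum_eq_sum (s := A) fun α hα => by
      refine (tsum_congr fun β => ?_).trans tsum_zero
      by_contra h
      exact hα (hA x y hx.2 hy.2 (inCusp_of_mem_siegelSet hx) (inCusp_of_mem_siegelSet hy) α β
        (hFk _ h))]
    refine le_trans ?_ (Finset.single_le_sum (f := fun c => ∑ d ∈ C₀, max 0 (Bt c d))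
      (fun c _ => Finset.sum_nonneg fun d _ => le_max_left _ _) hx.2)
    refine le_trans ?_ (Finset.single_le_sum (f := fun d => max 0 (Bt x.2 d))
      (fun d _ => le_max_left _ _) hy.2)
    exact (hBt x.2 hx.2 y.2 hy.2 x.1 y.1 (inCusp_of_mem_siegelSet hx)
      (inCusp_of_mem_siegelSet hy)).trans (le_max_right _ _)

/-- **Boundedness in the cusp**: the kernel summed over a set whose upper triangular part is a
union of translation orbits is bounded on Siegel sets, the translation sums being bounded. -/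
theorem PtKer.bounded_sum_of (k : PtKer U) {S₀ : Set (G2 L)}
    (htb : (∃ α : Lˣ, (ProjGenLinGroup.mk (dB α) : G2 L) ∈ S₀) → k.HasTransBound)
    (C₀ : Finset (FinCoset U)) (Bz : ℝ) {c₀ : ℝ} (hc₀ : 0 < c₀)
    (hS₀ : ∀ (α : Lˣ) (β : L), (ProjGenLinGroup.mk (uB β * dB α) : G2 L) ∈ S₀ ↔
      (ProjGenLinGroup.mk (dB α) : G2 L) ∈ S₀) :
    ∃ B, ∀ x ∈ siegelSet U C₀ Bz c₀, ∀ y ∈ siegelSet U C₀ Bz c₀,
      ‖∑' γ : G2 L, S₀.indicator (fun γ => k.k x (γ • y)) γ‖ ≤ B := by
  classical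
  obtain ⟨A, hA⟩ := k.exists_alpha_set C₀ Bz c₀
  have hex : ∀ c d, ∃ B : ℝ, (∃ α : Lˣ, (ProjGenLinGroup.mk (dB α) : G2 L) ∈ S₀) →
      ∀ p q : InfPts L, InCusp c₀ Bz p →
        ‖∑' β : L, k.k (p, c) ((ProjGenLinGroup.mk (uB β) : G2 L) • (q, d))‖ ≤ B := fun c d => by
    by_cases h : ∃ α : Lˣ, (ProjGenLinGroup.mk (dB α) : G2 L) ∈ S₀
    · exact (htb h c d c₀ hc₀ Bz).imp fun B hB _ => hB
    · exact ⟨0, fun h' => absurd h' h⟩
  choose Bt hBt using hex
  refine k.bounded_sum_siegel S₀ C₀ Bz hc₀ A hA fun c _ d _ => ⟨∑ α ∈ A,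
    max 0 (Bt c ((ProjGenLinGroup.mk (dB α) : G2 L) • d)), fun p q hp _ => ?_⟩
  refine (norm_sum_le _ _).trans (Finset.sum_le_sum fun α _ => ?_)
  by_cases hαS : (ProjGenLinGroup.mk (dB α) : G2 L) ∈ S₀
  swap
  · rw [tsum_congr fun β => Set.indicator_of_notMem (fun h => hαS ((hS₀ α β).mp h)) _,
      tsum_zero, norm_zero]
    exact le_max_left _ _
  refine le_trans (le_of_eq ?_) ((hBt c ((ProjGenLinGroup.mk (dB α) : G2 L) • d) ⟨α, hαS⟩ p
    ((ProjGenLinGroup.mk (dB α) : G2 L) • q) hp).trans (le_max_right _ _))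
  congr 1
  refine tsum_congr fun β => ?_
  rw [Set.indicator_of_mem ((hS₀ α β).mpr hαS), map_mul, mul_smul]
  rfl

end FermatAgent.LT
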