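import Mathlib

/-!
# Integral operators with bounded kernels on a finite measure space
-/

set_option autoImplicit false

noncomputable section

open MeasureTheory Filter
open scoped ComplexConjugate InnerProductSpace ENNReal Topology

namespace FermatAgent.LT

variable {F : Type*} [MeasurableSpace F] (ν : Measure F) [IsFiniteMeasure ν]

/-- A bounded measurable kernel. -/
structure BKer (F : Type*) [MeasurableSpace F] where
  /-- the kernel -/
  k : F → F → ℂ
  meas : Measurable (Function.uncurry k)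
  /-- a bound -/
  C : ℝ
  C_nonneg : 0 ≤ C
  bound : ∀ x y, ‖k x y‖ ≤ C

namespace BKer

variable {ν}

/-- Rows of a kernel are measurable. -/
lemma meas_right (A : BKer F) (x : F) : Measurable (A.k x) :=
  A.meas.comp measurable_prodMk_left

/-- Conjugate transpose. -/
def adj (A : BKer F) : BKer F where
  k x y := conj (A.k y x)
  meas := Complex.continuous_conj.measurable.comp
    (A.meas.comp (measurable_snd.prodMk measurable_fst))
  C := A.C
  C_nonneg := A.C_nonneg
  bound x y := by simpa using A.bound y x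

/-- Linear combination. -/
def add (A B : BKer F) (c : ℂ) : BKer F where
  k x y := A.k x y + c * B.k x y
  meas := A.meas.add (B.meas.const_mul c)
  C := A.C + ‖c‖ * B.C
  C_nonneg := add_nonneg A.C_nonneg (mul_nonneg (norm_nonneg _) B.C_nonneg)
  bound x y := (norm_add_le _ _).trans (add_le_add (A.bound x y)
    (by rw [norm_mul]; exact mul_le_mul_of_nonneg_left (B.bound x y) (norm_nonneg _)))

/-- Precompose the first variable with a measurable map. -/
def compLeft (A : BKer F) (σ : F → F) (hσ : Measurable σ) : BKer F where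
  k x y := A.k (σ x) y
  meas := A.meas.comp ((hσ.comp measurable_fst).prodMk measurable_snd)
  C := A.C
  C_nonneg := A.C_nonneg
  bound x y := A.bound (σ x) y

variable (ν) in
/-- The function `x ↦ ∫ A(x,y) f(y)`. -/
def applyFun (A : BKer F) (f : F → ℂ) (x : F) : ℂ := ∫ y, A.k x y * f y ∂ν

omit [IsFiniteMeasure ν] in
/-- Rows times integrable functions are integrable. -/
lemma integrable_mul (A : BKer F) (x : F) {f : F → ℂ} (hf : Integrable f ν) :
    Integrable (fun y => A.k x y * f y) ν :=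
  hf.bdd_mul (A.meas_right x).aestronglyMeasurable (c := A.C) (ae_of_all _ (A.bound x))

/-- The sup bound of the integral operator. -/
lemma norm_applyFun_le (A : BKer F) (f : Lp ℂ 2 ν) (x : F) :
    ‖applyFun ν A f x‖ ≤ A.C * ∫ y, ‖f y‖ ∂ν := by
  unfold applyFun
  refine (norm_integral_le_integral_norm _).trans ?_
  rw [← integral_const_mul]
  have hf : Integrable f ν := (Lp.memLp f).integrable one_le_two
  refine integral_mono (A.integrable_mul x hf).norm (hf.norm.const_mul _) fun y => ?_
  rw [norm_mul]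
  exact mul_le_mul_of_nonneg_right (A.bound x y) (norm_nonneg _)

/-- The integral operator gives measurable functions. -/
lemma measurable_applyFun (A : BKer F) (f : Lp ℂ 2 ν) :
    StronglyMeasurable (applyFun ν A f) := by
  have h : StronglyMeasurable (Function.uncurry fun x y => A.k x y * f y) :=
    A.meas.stronglyMeasurable.mul ((Lp.stronglyMeasurable f).comp_measurable measurable_snd)
  exact h.integral_prod_right

/-- The integral operator maps into all `Lᵖ`. -/
lemma memLp_applyFun (A : BKer F) (f : Lp ℂ 2 ν) (p : ℝ≥0∞) :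
    MemLp (applyFun ν A f) p ν :=
  MemLp.of_bound (measurable_applyFun A f).aestronglyMeasurable _
    (ae_of_all _ (norm_applyFun_le A f))

lemma integral_norm_le (f : Lp ℂ 2 ν) :
    ∫ y, ‖f y‖ ∂ν ≤ (ν.real Set.univ) ^ (1 / 2 : ℝ) * ‖f‖ := by
  have h1 : ∫ y, ‖f y‖ ∂ν = (eLpNorm f 1 ν).toReal := by
    rw [eLpNorm_one_eq_lintegral_enorm, integral_norm_eq_lintegral_enorm
      (Lp.aestronglyMeasurable f)]
  have h2 := eLpNorm_le_eLpNorm_mul_rpow_measure_univ (μ := ν) (f := (f : F → ℂ))
    (p := 1) (q := 2) one_le_two (Lp.aestronglyMeasurable f)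
  rw [h1, mul_comm, Lp.norm_def, Measure.real, ENNReal.toReal_rpow, ← ENNReal.toReal_mul]
  refine ENNReal.toReal_mono (ENNReal.mul_ne_top (Lp.eLpNorm_ne_top f)
    (ENNReal.rpow_ne_top_of_nonneg (by norm_num) (measure_ne_top _ _))) (h2.trans (le_of_eq ?_))
  norm_num

variable (ν) in
/-- The integral operator. -/
def op (A : BKer F) : Lp ℂ 2 ν →L[ℂ] Lp ℂ 2 ν :=
  LinearMap.mkContinuous
    { toFun := fun f => (memLp_applyFun A f 2).toLp _
      map_add' := fun f g => by
        refine Lp.ext ?_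
        filter_upwards [(memLp_applyFun A (f + g) 2).coeFn_toLp,
          (memLp_applyFun A f 2).coeFn_toLp, (memLp_applyFun A g 2).coeFn_toLp,
          Lp.coeFn_add ((memLp_applyFun A f 2).toLp _) ((memLp_applyFun A g 2).toLp _)]
          with x h1 h2 h3 h4
        rw [h1, h4, Pi.add_apply, h2, h3]
        show ∫ y, _ ∂ν = (∫ y, _ ∂ν) + ∫ y, _ ∂ν
        rw [← integral_add (A.integrable_mul x ((Lp.memLp f).integrable one_le_two))
          (A.integrable_mul x ((Lp.memLp g).integrable one_le_two))]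
        refine integral_congr_ae ?_
        filter_upwards [Lp.coeFn_add f g] with y hy
        rw [hy, Pi.add_apply, mul_add]
      map_smul' := fun c f => by
        refine Lp.ext ?_
        filter_upwards [(memLp_applyFun A (c • f) 2).coeFn_toLp,
          (memLp_applyFun A f 2).coeFn_toLp,
          Lp.coeFn_smul c ((memLp_applyFun A f 2).toLp _)] with x h1 h2 h3
        rw [h1]
        simp only [RingHom.id_apply]
        rw [h3, Pi.smul_apply, h2]
        show ∫ y, _ ∂ν = c • ∫ y, _ ∂ν
        rw [← integral_smul]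
        refine integral_congr_ae ?_
        filter_upwards [Lp.coeFn_smul c f] with y hy
        rw [hy, Pi.smul_apply, smul_eq_mul, smul_eq_mul]
        ring }
    ((ν.real Set.univ) ^ (1 / 2 : ℝ) * (A.C * (ν.real Set.univ) ^ (1 / 2 : ℝ)))
    fun f => by
      have hb : ∀ᵐ x ∂ν, ‖((memLp_applyFun A f 2).toLp _ : Lp ℂ 2 ν) x‖ ≤
          A.C * ((ν.real Set.univ) ^ (1 / 2 : ℝ) * ‖f‖) := by
        filter_upwards [(memLp_applyFun A f 2).coeFn_toLp] with x hx
        rw [hx]
        exact (norm_applyFun_le A f x).trans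
          (mul_le_mul_of_nonneg_left (integral_norm_le f) A.C_nonneg)
      have := Lp.norm_le_of_ae_bound (f := ((memLp_applyFun A f 2).toLp _ : Lp ℂ 2 ν))
        (mul_nonneg A.C_nonneg (by positivity)) hb
      refine this.trans (le_of_eq ?_)
      simp only [measureUnivNNReal, ENNReal.toReal_ofNat, Measure.real]
      rw [ENNReal.coe_toNNReal_eq_toReal]
      norm_num
      ring

/-- The operator is the integral operator. -/
lemma op_apply_ae (A : BKer F) (f : Lp ℂ 2 ν) : op ν A f =ᵐ[ν] applyFun ν A f :=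
  (memLp_applyFun A f 2).coeFn_toLp

/-- The function `y ↦ conj (A(x,y))` as an element of `L²`. -/
def row (A : BKer F) (x : F) : Lp ℂ 2 ν :=
  (MemLp.of_bound (Complex.continuous_conj.measurable.comp (A.meas_right x)).aestronglyMeasurable
    A.C (ae_of_all _ fun y => by simpa using A.bound x y)).toLp _

/-- The integral operator as an inner product with rows. -/
lemma inner_row (A : BKer F) (x : F) (f : Lp ℂ 2 ν) :
    ⟪A.row x, f⟫_ℂ = applyFun ν A f x := by
  rw [L2.inner_def]
  refine integral_congr_ae ?_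
  filter_upwards [MemLp.coeFn_toLp (MemLp.of_bound
    (Complex.continuous_conj.measurable.comp (A.meas_right x)).aestronglyMeasurable
    A.C (ae_of_all _ fun y => by simpa using A.bound x y) : MemLp _ 2 ν)] with y hy
  unfold row
  rw [RCLike.inner_apply, hy]
  simp [mul_comm]

/-- The norm of a row. -/
lemma norm_row_sq (A : BKer F) (x : F) :
    ‖(A.row x : Lp ℂ 2 ν)‖ ^ 2 = ∫ y, ‖A.k x y‖ ^ 2 ∂ν := by
  have h : ((‖(A.row x : Lp ℂ 2 ν)‖ : ℂ)) ^ 2 = ⟪(A.row x : Lp ℂ 2 ν), A.row x⟫_ℂ := by
    rw [inner_self_eq_norm_sq_to_K]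
    rfl
  rw [inner_row] at h
  have h' : applyFun ν A (A.row x : Lp ℂ 2 ν) x = ∫ y, ((‖A.k x y‖ ^ 2 : ℝ) : ℂ) ∂ν := by
    refine integral_congr_ae ?_
    filter_upwards [MemLp.coeFn_toLp (MemLp.of_bound
      (Complex.continuous_conj.measurable.comp (A.meas_right x)).aestronglyMeasurable
      A.C (ae_of_all _ fun y => by simpa using A.bound x y) : MemLp _ 2 ν)] with y hy
    unfold row
    rw [hy]
    simp [Complex.mul_conj, Complex.normSq_eq_norm_sq]
  rw [h', integral_complex_ofReal] at h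
  exact_mod_cast h

/-- The adjoint kernel gives the adjoint operator. -/
lemma op_adj (A : BKer F) (f g : Lp ℂ 2 ν) : ⟪op ν A.adj g, f⟫_ℂ = ⟪g, op ν A f⟫_ℂ := by
  rw [L2.inner_def, L2.inner_def]
  have e1 : ∀ᵐ x ∂ν, ⟪op ν A.adj g x, f x⟫_ℂ = ∫ y, A.k y x * (conj (g y) * f x) ∂ν := by
    filter_upwards [op_apply_ae A.adj g] with x hx
    rw [RCLike.inner_apply, hx, applyFun, ← integral_conj, ← integral_const_mul]
    refine integral_congr_ae (ae_of_all _ fun y => ?_)
    simp [adj]
    ring
  have e2 : ∀ᵐ y ∂ν, ⟪g y, op ν A f y⟫_ℂ = ∫ x, A.k y x * (conj (g y) * f x) ∂ν := by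
    filter_upwards [op_apply_ae A f] with y hy
    rw [RCLike.inner_apply, hy, applyFun, ← integral_mul_const]
    refine integral_congr_ae (ae_of_all _ fun x => ?_)
    ring
  rw [integral_congr_ae e1, integral_congr_ae e2]
  refine integral_integral_swap ?_
  have hf : Integrable f ν := (Lp.memLp f).integrable one_le_two
  have hg : Integrable (fun y => conj (g y)) ν :=
    (RCLike.conjLIE (K := ℂ)).toContinuousLinearEquiv.toContinuousLinearMap.integrable_comp
      ((Lp.memLp g).integrable one_le_two)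
  have hp : Integrable (fun z : F × F => f z.1 * conj (g z.2)) (ν.prod ν) := hf.mul_prod hg
  have := hp.bdd_mul (A.meas.comp (measurable_snd.prodMk measurable_fst)).aestronglyMeasurable
    (c := A.C) (ae_of_all _ fun z => A.bound z.2 z.1)
  refine this.congr (ae_of_all _ fun z => ?_)
  simp only [Function.uncurry, Function.comp]
  ring

/-- Symmetric kernels give self-adjoint operators. -/
lemma isSymmetric_op {A : BKer F} (h : ∀ x y, conj (A.k y x) = A.k x y) :
    ((op ν A : Lp ℂ 2 ν →L[ℂ] Lp ℂ 2 ν) : Lp ℂ 2 ν →ₗ[ℂ] Lp ℂ 2 ν).IsSymmetric := by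
  intro f g
  have hA : (op ν A.adj) f = op ν A f := by
    refine Lp.ext ?_
    filter_upwards [op_apply_ae A.adj f, op_apply_ae A f] with x h1 h2
    rw [h1, h2]
    simp [applyFun, adj, h]
  show ⟪op ν A f, g⟫_ℂ = ⟪f, op ν A g⟫_ℂ
  rw [← op_adj A g f, hA]

/-- The operator is Hilbert–Schmidt. -/
lemma sum_norm_sq_op_le (A : BKer F) {ι : Type*} {e : ι → Lp ℂ 2 ν} (he : Orthonormal ℂ e)
    (s : Finset ι) : ∑ i ∈ s, ‖op ν A (e i)‖ ^ 2 ≤ A.C ^ 2 * (ν.real Set.univ) ^ 2 := by
  have hn : ∀ i, ‖op ν A (e i)‖ ^ 2 = ∫ x, ‖⟪A.row x, e i⟫_ℂ‖ ^ 2 ∂ν := fun i => by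
    have h1 : ((‖op ν A (e i)‖ : ℂ)) ^ 2 = ∫ x, ((‖⟪A.row x, e i⟫_ℂ‖ ^ 2 : ℝ) : ℂ) ∂ν := by
      rw [show ((‖op ν A (e i)‖ : ℂ)) ^ 2 = ⟪op ν A (e i), op ν A (e i)⟫_ℂ by
        rw [inner_self_eq_norm_sq_to_K]; rfl, L2.inner_def]
      refine integral_congr_ae ?_
      filter_upwards [op_apply_ae A (e i)] with x hx
      rw [inner_self_eq_norm_sq_to_K, hx, inner_row]
      simp
    rw [integral_complex_ofReal] at h1
    exact_mod_cast h1
  have hint : ∀ i, Integrable (fun x => ‖⟪A.row x, e i⟫_ℂ‖ ^ 2) ν := fun i => by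
    have h2 : MemLp (applyFun ν A (e i)) ((2 : ℕ) : ℝ≥0∞) ν := memLp_applyFun A (e i) _
    have h3 := h2.integrable_norm_pow two_ne_zero
    simp only [inner_row]
    exact h3
  simp only [hn]
  rw [← integral_finsetSum s fun i _ => hint i]
  have hle : ∀ x, ∑ i ∈ s, ‖⟪A.row x, e i⟫_ℂ‖ ^ 2 ≤ A.C ^ 2 * ν.real Set.univ := fun x => by
    have := he.sum_inner_products_le (s := s) (A.row x : Lp ℂ 2 ν)
    refine le_trans (le_of_eq (Finset.sum_congr rfl fun i _ => ?_)) (this.trans ?_)
    · rw [norm_inner_symm]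
    · rw [norm_row_sq]
      have hi : Integrable (fun y => ‖A.k x y‖ ^ 2) ν :=
        Integrable.of_bound ((A.meas_right x).norm.pow_const 2).aestronglyMeasurable (A.C ^ 2)
          (ae_of_all _ fun y => by simpa using pow_le_pow_left₀ (norm_nonneg _) (A.bound x y) 2)
      calc ∫ y, ‖A.k x y‖ ^ 2 ∂ν ≤ ∫ _y, A.C ^ 2 ∂ν :=
            integral_mono hi (integrable_const _) fun y =>
              pow_le_pow_left₀ (norm_nonneg _) (A.bound x y) 2
        _ = A.C ^ 2 * ν.real Set.univ := by simp [mul_comm]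
  calc ∫ x, ∑ i ∈ s, ‖⟪A.row x, e i⟫_ℂ‖ ^ 2 ∂ν ≤ ∫ _x, A.C ^ 2 * ν.real Set.univ ∂ν :=
        integral_mono (integrable_finsetSum s fun i _ => hint i) (integrable_const _) hle
    _ = A.C ^ 2 * (ν.real Set.univ) ^ 2 := by simp; ring

end BKer

end FermatAgent.LT
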