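import Mathlib
import Fermat.Agent.LT.Base.Kernel

/-!
# Composition, compactness and trace of integral operators with bounded kernels

Operators with bounded kernels on a finite measure space compose by composing kernels, are compact
with bounded Hilbert–Schmidt norm, and `⟪A e, B e⟫` summed over a Hilbert basis is an integral of
the two kernels (`pair`).
-/

set_option autoImplicit false

noncomputable section

open MeasureTheory Filter
open scoped ComplexConjugate InnerProductSpace ENNReal Topology

namespace FermatAgent.LT.BKer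

variable {F : Type*} [MeasurableSpace F] {ν : Measure F} [IsFiniteMeasure ν]

variable (ν) in
/-- Composition of kernels. -/
def comp (A B : BKer F) : BKer F where
  k x z := ∫ y, A.k x y * B.k y z ∂ν
  meas := by
    have h : StronglyMeasurable (Function.uncurry fun (p : F × F) y => A.k p.1 y * B.k y p.2) :=
      ((A.meas.comp ((measurable_fst.comp measurable_fst).prodMk measurable_snd)).mul
        (B.meas.comp
          (measurable_snd.prodMk (measurable_snd.comp measurable_fst)))).stronglyMeasurable
    exact h.integral_prod_right.measurable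
  C := A.C * B.C * ν.real Set.univ
  C_nonneg := mul_nonneg (mul_nonneg A.C_nonneg B.C_nonneg) measureReal_nonneg
  bound x z := by
    refine norm_integral_le_of_norm_le_const (ae_of_all _ fun y => ?_)
    rw [norm_mul]
    exact mul_le_mul (A.bound x y) (B.bound y z) (norm_nonneg _) A.C_nonneg

/-- Composed kernels give composed operators. -/
lemma op_comp (A B : BKer F) : op ν (comp ν A B) = (op ν A).comp (op ν B) := by
  refine ContinuousLinearMap.ext fun f => Lp.ext ?_
  filter_upwards [op_apply_ae (comp ν A B) f, op_apply_ae A (op ν B f)] with x h1 h2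
  rw [ContinuousLinearMap.comp_apply, h1, h2]
  have hf : Integrable f ν := (Lp.memLp f).integrable one_le_two
  show ∫ z, (∫ y, A.k x y * B.k y z ∂ν) * f z ∂ν = ∫ y, A.k x y * op ν B f y ∂ν
  have hR : ∫ y, A.k x y * op ν B f y ∂ν = ∫ y, ∫ z, A.k x y * B.k y z * f z ∂ν ∂ν := by
    refine integral_congr_ae ?_
    filter_upwards [op_apply_ae B f] with y hy
    rw [hy, applyFun, ← integral_const_mul]
    simp [mul_assoc]
  rw [hR, integral_integral_swap]
  · simp [integral_mul_const]
  · have hp : Integrable (fun p : F × F => (1 : ℂ) * f p.2) (ν.prod ν) :=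
      (integrable_const (1 : ℂ)).mul_prod hf
    have := hp.bdd_mul (f := fun p : F × F => A.k x p.1 * B.k p.1 p.2)
      ((((A.meas_right x).comp measurable_fst).mul B.meas).aestronglyMeasurable)
      (c := A.C * B.C) (ae_of_all _ fun p => by
        rw [norm_mul]; exact mul_le_mul (A.bound x p.1) (B.bound p.1 p.2)
          (norm_nonneg _) A.C_nonneg)
    exact this.congr (ae_of_all _ fun p => by simp only [Function.uncurry]; ring)

lemma norm_op_sq (A : BKer F) (f : Lp ℂ 2 ν) :
    ‖op ν A f‖ ^ 2 = ∫ x, ‖⟪A.row x, f⟫_ℂ‖ ^ 2 ∂ν := by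
  have h1 : ((‖op ν A f‖ : ℂ)) ^ 2 = ∫ x, ((‖⟪A.row x, f⟫_ℂ‖ ^ 2 : ℝ) : ℂ) ∂ν := by
    rw [show ((‖op ν A f‖ : ℂ)) ^ 2 = ⟪op ν A f, op ν A f⟫_ℂ by
      rw [inner_self_eq_norm_sq_to_K]; rfl, L2.inner_def]
    refine integral_congr_ae ?_
    filter_upwards [op_apply_ae A f] with x hx
    rw [inner_self_eq_norm_sq_to_K, hx, inner_row]
    simp
  rw [integral_complex_ofReal] at h1
  exact_mod_cast h1

variable (ν) in
/-- The squared Hilbert–Schmidt norm. -/
def hsSq (A : BKer F) : ℝ := ∫ x, ∫ y, ‖A.k x y‖ ^ 2 ∂ν ∂ν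

lemma hasSum_norm_op_sq (A : BKer F) {ι : Type*} [Countable ι]
    (b : HilbertBasis ι ℂ (Lp ℂ 2 ν)) :
    HasSum (fun i => ‖op ν A (b i)‖ ^ 2) (hsSq ν A) := by
  have hpt : ∀ x : F, HasSum (fun i => ‖⟪(A.row x : Lp ℂ 2 ν), b i⟫_ℂ‖ ^ 2)
      (∫ y, ‖A.k x y‖ ^ 2 ∂ν) := fun x => by
    rw [← norm_row_sq]
    have h := RCLike.hasSum_re ℂ
      (b.hasSum_inner_mul_inner (A.row x : Lp ℂ 2 ν) (A.row x))
    rw [inner_self_eq_norm_sq] at h
    refine h.congr_fun fun i => ?_
    rw [← inner_conj_symm (b i) (A.row x : Lp ℂ 2 ν), RCLike.mul_conj]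
    norm_cast
  have hint : ∀ i, Integrable (fun x => ‖⟪(A.row x : Lp ℂ 2 ν), b i⟫_ℂ‖ ^ 2) ν := fun i => by
    have h2 : MemLp (applyFun ν A (b i)) ((2 : ℕ) : ℝ≥0∞) ν := memLp_applyFun A (b i) _
    have h3 := h2.integrable_norm_pow two_ne_zero
    simp only [inner_row]
    exact h3
  have hs : Summable fun i => ∫ x, ‖⟪(A.row x : Lp ℂ 2 ν), b i⟫_ℂ‖ ^ 2 ∂ν := by
    refine summable_of_sum_le (fun i => integral_nonneg fun x => by positivity)
      (c := A.C ^ 2 * (ν.real Set.univ) ^ 2) fun s => ?_
    simp only [← norm_op_sq]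
    exact sum_norm_sq_op_le A b.orthonormal s
  have hs' : Summable fun i => ∫ x, ‖‖⟪(A.row x : Lp ℂ 2 ν), b i⟫_ℂ‖ ^ 2‖ ∂ν :=
    hs.congr fun i => by simp
  have := MeasureTheory.hasSum_integral_of_summable_integral_norm hint hs'
  simp only [(hpt _).tsum_eq] at this
  simpa [norm_op_sq, hsSq] using this

variable (ν) in
/-- The integral formula for the trace of a product. -/
def pair (A B : BKer F) : ℂ := ∫ x, ∫ y, conj (A.k x y) * B.k x y ∂ν ∂ν

/-- The operator is linear in the kernel. -/
lemma op_add (A B : BKer F) (c : ℂ) (f : Lp ℂ 2 ν) :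
    op ν (A.add B c) f = op ν A f + c • op ν B f := by
  refine Lp.ext ?_
  filter_upwards [op_apply_ae (A.add B c) f, op_apply_ae A f, op_apply_ae B f,
    Lp.coeFn_add (op ν A f) (c • op ν B f), Lp.coeFn_smul c (op ν B f)] with x h1 h2 h3 h4 h5
  rw [h1, h4, Pi.add_apply, h5, Pi.smul_apply, h2, h3]
  have hf : Integrable f ν := (Lp.memLp f).integrable one_le_two
  show ∫ y, (A.k x y + c * B.k x y) * f y ∂ν = _
  rw [applyFun, applyFun, smul_eq_mul, ← integral_const_mul,
    ← integral_add (A.integrable_mul x hf) ((B.integrable_mul x hf).const_mul c)]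
  exact integral_congr_ae (ae_of_all _ fun y => by ring)

lemma hsSq_add (A B : BKer F) (c : ℂ) :
    (hsSq ν (A.add B c) : ℂ) =
      hsSq ν A + c * conj c * hsSq ν B + c * pair ν A B + conj c * conj (pair ν A B) := by
  simp only [hsSq, pair, ← integral_conj, ← integral_complex_ofReal, ← integral_const_mul]
  have hb : ∀ G : F → F → ℂ, Measurable (Function.uncurry G) → ∀ C : ℝ,
      (∀ x y, ‖G x y‖ ≤ C) → (∀ x, Integrable (G x) ν) ∧
        Integrable (fun x => ∫ y, G x y ∂ν) ν := fun G hG C hC =>
    ⟨fun x => Integrable.of_bound (hG.comp measurable_prodMk_left).aestronglyMeasurable C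
      (ae_of_all _ (hC x)),
    Integrable.of_bound hG.stronglyMeasurable.integral_prod_right.aestronglyMeasurable
      (C * ν.real Set.univ) (ae_of_all _ fun x =>
        norm_integral_le_of_norm_le_const (ae_of_all _ (hC x)))⟩
  have hAA := hb (fun x y => ((‖A.k x y‖ ^ 2 : ℝ) : ℂ))
    (Complex.measurable_ofReal.comp (A.meas.norm.pow_const 2)) (A.C ^ 2) fun x y => by
      simpa using pow_le_pow_left₀ (norm_nonneg _) (A.bound x y) 2
  have hBB := hb (fun x y => c * conj c * ((‖B.k x y‖ ^ 2 : ℝ) : ℂ))
    ((Complex.measurable_ofReal.comp (B.meas.norm.pow_const 2)).const_mul _)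
    (‖c * conj c‖ * B.C ^ 2) fun x y => by
      rw [norm_mul]
      exact mul_le_mul_of_nonneg_left (by
        simpa using pow_le_pow_left₀ (norm_nonneg _) (B.bound x y) 2)
        (norm_nonneg _)
  have hAB := hb (fun x y => c * (conj (A.k x y) * B.k x y))
    (((Complex.continuous_conj.measurable.comp A.meas).mul B.meas).const_mul c)
    (‖c‖ * (A.C * B.C)) fun x y => by
      simp only [norm_mul, Complex.norm_conj]
      exact mul_le_mul_of_nonneg_left (mul_le_mul (A.bound x y) (B.bound x y) (norm_nonneg _)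
        A.C_nonneg) (norm_nonneg _)
  have hBA := hb (fun x y => conj c * conj (conj (A.k x y) * B.k x y))
    ((Complex.continuous_conj.measurable.comp
      ((Complex.continuous_conj.measurable.comp A.meas).mul B.meas)).const_mul _)
    (‖conj c‖ * (A.C * B.C)) fun x y => by
      simp only [norm_mul, Complex.norm_conj]
      exact mul_le_mul_of_nonneg_left (mul_le_mul (A.bound x y) (B.bound x y) (norm_nonneg _)
        A.C_nonneg) (norm_nonneg _)
  rw [← integral_add hAA.2 hBB.2, ← integral_add (f := fun x => _ + _) (hAA.2.add hBB.2) hAB.2,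
    ← integral_add (f := fun x => _ + _ + _) ((hAA.2.add hBB.2).add hAB.2) hBA.2]
  refine integral_congr_ae (ae_of_all _ fun x => ?_)
  dsimp only
  rw [← integral_add (hAA.1 x) (hBB.1 x), ← integral_add (f := fun y => _ + _)
      ((hAA.1 x).add (hBB.1 x)) (hAB.1 x),
    ← integral_add (f := fun y => _ + _ + _) (((hAA.1 x).add (hBB.1 x)).add (hAB.1 x)) (hBA.1 x)]
  refine integral_congr_ae (ae_of_all _ fun y => ?_)
  dsimp only [add]
  push_cast
  rw [← Complex.conj_mul', ← Complex.conj_mul', ← Complex.conj_mul']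
  simp only [map_add, map_mul, Complex.conj_conj]
  ring

/-- The trace of a product as a series. -/
lemma hasSum_inner_op (A B : BKer F) {ι : Type*} [Countable ι]
    (b : HilbertBasis ι ℂ (Lp ℂ 2 ν)) :
    HasSum (fun i => ⟪op ν A (b i), op ν B (b i)⟫_ℂ) (pair ν A B) := by
  have key : ∀ c : ℂ, HasSum (fun i => c * ⟪op ν A (b i), op ν B (b i)⟫_ℂ +
      conj c * conj ⟪op ν A (b i), op ν B (b i)⟫_ℂ)
      (c * pair ν A B + conj c * conj (pair ν A B)) := fun c => by
    have h := ((Complex.hasSum_ofReal.mpr (hasSum_norm_op_sq (A.add B c) b)).sub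
      (Complex.hasSum_ofReal.mpr (hasSum_norm_op_sq A b))).sub
      ((Complex.hasSum_ofReal.mpr (hasSum_norm_op_sq B b)).mul_left (c * conj c))
    rw [hsSq_add] at h
    have hv : c * pair ν A B + conj c * conj (pair ν A B) =
        (hsSq ν A : ℂ) + c * conj c * hsSq ν B + c * pair ν A B + conj c * conj (pair ν A B) -
          hsSq ν A - c * conj c * hsSq ν B := by ring
    rw [hv]
    refine h.congr_fun fun i => ?_
    · push_cast
      rw [op_add]
      have h1 : ∀ v : Lp ℂ 2 ν, ((‖v‖ : ℂ)) ^ 2 = ⟪v, v⟫_ℂ := fun v => by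
        rw [inner_self_eq_norm_sq_to_K]; rfl
      rw [h1, h1, h1, inner_add_left, inner_add_right, inner_add_right, inner_smul_left,
        inner_smul_left, inner_smul_right, inner_smul_right,
        ← inner_conj_symm (op ν B (b i)) (op ν A (b i))]
      ring
  have h1 := key 1
  have h2 := key Complex.I
  have := (h1.add (h2.mul_left (-Complex.I))).mul_left (1 / 2 : ℂ)
  have hI : Complex.I * Complex.I = -1 := Complex.I_mul_I
  have hv : pair ν A B = 1 / 2 * (1 * pair ν A B + conj 1 * conj (pair ν A B) +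
      -Complex.I * (Complex.I * pair ν A B + conj Complex.I * conj (pair ν A B))) := by
    simp only [map_one, Complex.conj_I]
    linear_combination (1 / 2) * (pair ν A B - conj (pair ν A B)) * hI
  rw [hv]
  refine this.congr_fun fun i => ?_
  simp only [map_one, Complex.conj_I]
  linear_combination (1 / 2) * (⟪op ν A (b i), op ν B (b i)⟫_ℂ -
    conj ⟪op ν A (b i), op ν B (b i)⟫_ℂ) * hI

/-- The operator is compact. -/
lemma isCompactOperator_op (A : BKer F) :
    IsCompactOperator (op ν A) := by
  classical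
  obtain ⟨w, b, -⟩ := exists_hilbertBasis ℂ (Lp ℂ 2 ν)
  have hsum : Summable fun i => ‖op ν A.adj (b i)‖ ^ 2 :=
    summable_of_sum_le (fun i => by positivity) (sum_norm_sq_op_le A.adj b.orthonormal)
  let T : Finset w → (Lp ℂ 2 ν →L[ℂ] Lp ℂ 2 ν) := fun s =>
    ∑ i ∈ s, ((innerSL ℂ (b i)).comp (op ν A)).smulRight (b i)
  have hT : ∀ s, IsCompactOperator (T s) := fun s => by
    simp only [T]
    induction s using Finset.cons_induction with
    | empty => simpa using isCompactOperator_zero
    | cons i s hi ih =>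
      rw [Finset.sum_cons]
      refine IsCompactOperator.add ?_ ih
      exact (isCompactOperator_of_locallyCompactSpace_dom
        (T := (innerSL ℂ (b i)).comp (op ν A))).clm_comp
          ((ContinuousLinearMap.id ℂ ℂ).smulRight (b i))
  have hbound : ∀ s f, ‖(op ν A - T s) f‖ ^ 2 ≤
      (∑' i : w, (if i ∈ s then 0 else ‖op ν A.adj (b i)‖ ^ 2)) * ‖f‖ ^ 2 := by
    intro s f
    classical
    have hcoef : ∀ j, ⟪b j, (op ν A - T s) f⟫_ℂ =
        if j ∈ s then 0 else ⟪op ν A.adj (b j), f⟫_ℂ := by
      intro j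
      simp only [sub_apply, T, sum_apply,
        ContinuousLinearMap.smulRight_apply, ContinuousLinearMap.comp_apply, innerSL_apply_apply,
        inner_sub_right, inner_sum, inner_smul_right,
        orthonormal_iff_ite.mp b.orthonormal, mul_ite, mul_one, mul_zero, Finset.sum_ite_eq]
      rw [op_adj]
      split_ifs <;> simp
    have h := RCLike.hasSum_re ℂ (b.hasSum_inner_mul_inner ((op ν A - T s) f) ((op ν A - T s) f))
    rw [inner_self_eq_norm_sq] at h
    rw [← h.tsum_eq, ← tsum_mul_right]
    refine h.summable.tsum_le_tsum (fun j => ?_) ?_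
    · rw [← inner_conj_symm _ (b j), RCLike.conj_mul, hcoef]
      split_ifs
      · simp
      · norm_cast
        rw [← mul_pow]
        exact pow_le_pow_left₀ (norm_nonneg _) (norm_inner_le_norm _ _) 2
    · exact (Summable.of_nonneg_of_le (fun i => by split_ifs <;> positivity)
        (fun i => by split_ifs <;> simp) hsum).mul_right _
  refine isCompactOperator_of_tendsto (l := (atTop : Filter (Finset w))) ?_
    (Eventually.of_forall hT)
  rw [tendsto_iff_norm_sub_tendsto_zero]
  classical
  have htail : Tendsto (fun s : Finset w => Real.sqrt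
      (∑' i : w, (if i ∈ s then 0 else ‖op ν A.adj (b i)‖ ^ 2))) atTop (𝓝 0) := by
    have h0 : Tendsto (fun s : Finset w => ∑' i : w, (if i ∈ s then 0 else ‖op ν A.adj (b i)‖ ^ 2))
        atTop (𝓝 0) := by
      have := tendsto_tsum_compl_atTop_zero fun i => ‖op ν A.adj (b i)‖ ^ 2
      refine this.congr fun s => ?_
      rw [← tsum_subtype_eq_of_support_subset
        (f := fun i => if i ∈ s then 0 else ‖op ν A.adj (b i)‖ ^ 2) (s := {i | i ∉ s})
        (fun i hi => by simp only [Function.mem_support] at hi; by_contra h; simp_all)]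
      exact tsum_congr fun i => by
        have := i.2
        simp_all
    simpa [Function.comp_def] using (Real.continuous_sqrt.tendsto 0).comp h0
  refine squeeze_zero (fun s => norm_nonneg _) (fun s => ?_) htail
  rw [norm_sub_rev]
  refine ContinuousLinearMap.opNorm_le_bound _ (Real.sqrt_nonneg _) fun f => ?_
  refine le_of_pow_le_pow_left₀ two_ne_zero (by positivity) ?_
  rw [mul_pow, Real.sq_sqrt (tsum_nonneg fun i => by split_ifs <;> positivity)]
  exact hbound s f

end FermatAgent.LT.BKer
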