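import Mathlib
import Fermat.Agent.LT.Base.Tame

/-!
# Maps between adelic spaces induced by field homomorphisms

A homomorphism `φ : K →+* L` together with a map `below` on finite places, compatible with the
levels, gives an equivariant map of adelic spaces.  An automorphism fixing the level is an example.
-/

set_option autoImplicit false

noncomputable section

open Matrix IsDedekindDomain NumberField Filter MeasureTheory
open scoped MatrixGroups

namespace FermatAgent.LT

variable {K L : Type*} [Field K] [NumberField K] [Field L] [NumberField L]

/-- Compatibility of levels along a field homomorphism. -/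
structure LevelHom (φ : K →+* L) (UK : Level K) (UL : Level L) where
  /-- the place below -/
  below : HeightOneSpectrum (𝓞 L) → HeightOneSpectrum (𝓞 K)
  tendsto : Tendsto below cofinite cofinite
  mem_iff : ∀ w g, g2Map φ g ∈ UL.loc w ↔ g ∈ UK.loc (below w)

namespace LevelHom

variable {φ : K →+* L} {UK : Level K} {UL : Level L} (h : LevelHom φ UK UL)

/-- The map on local cosets. -/
def locMap (w : HeightOneSpectrum (𝓞 L)) : G2 K ⧸ UK.loc (h.below w) → G2 L ⧸ UL.loc w :=
  Quotient.map' (g2Map φ) fun a b hab => by
    rw [QuotientGroup.leftRel_apply] at hab ⊢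
    rw [← map_inv, ← map_mul]
    exact (h.mem_iff w _).mpr hab

@[simp] lemma locMap_mk (w : HeightOneSpectrum (𝓞 L)) (g : G2 K) :
    h.locMap w (QuotientGroup.mk g) = QuotientGroup.mk (g2Map φ g) := rfl

/-- The map on finite coset spaces. -/
def finMap (x : FinCoset UK) : FinCoset UL :=
  ⟨fun w => h.locMap w (x.1 (h.below w)), by
    filter_upwards [h.tendsto.eventually x.2] with w hw
    rw [hw, locMap_mk, map_one]⟩

/-- The map on infinite points. -/
def infMap (φ : K →+* L) (y : InfPts K) : InfPts L := fun w => twistPt φ w (y (w.comap φ))

/-- The map on adelic spaces. -/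
def map (x : Space UK) : Space UL := (infMap φ x.1, h.finMap x.2)

/-- The map of spaces is equivariant. -/
lemma map_smul (g : G2 K) (x : Space UK) : h.map (g • x) = g2Map φ g • h.map x := by
  induction g using Matrix.ProjGenLinGroup.induction_on with | mk g =>
  refine Prod.ext (funext fun w => ?_) (FinCoset.ext fun w => ?_)
  · show twistPt φ w ((ProjGenLinGroup.mk g • x.1) (w.comap φ)) = _
    rw [Prod.smul_fst, infPts_smul_apply, infPts_smul_apply, ProjGenLinGroup.map_mk,
      ProjGenLinGroup.map_mk, ProjGenLinGroup.map_mk, H3.mk_smul, H3.mk_smul]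
    refine ((twistPt_twistPt_symm φ w _).symm.trans (congrArg (twistPt φ w) ?_)).symm
    rw [twistPt_smul, show (h.map x).1 w = twistPt φ w (x.1 (w.comap φ)) from rfl,
      twistPt_twistPt_symm]
  · show h.locMap w (ProjGenLinGroup.mk g • x.2.1 (h.below w)) = _
    rw [Prod.smul_snd, FinCoset.smul_apply]
    show _ = g2Map φ _ • h.locMap w _
    induction x.2.1 (h.below w) using QuotientGroup.induction_on with | H a =>
    simp [MulAction.Quotient.smul_mk, smul_eq_mul]

/-- The map of spaces is measurable. -/
lemma measurable_map : Measurable h.map := by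
  refine (measurable_pi_lambda _ fun w => ?_).prodMk
    ((measurable_of_countable h.finMap).comp measurable_snd)
  exact (measurePreserving_twistPt φ w).measurable.comp
    ((measurable_pi_apply _).comp measurable_fst)

end LevelHom

section Aut

variable {τ : L ≃+* L} {U : Level L}

omit [NumberField L] in
/-- Automorphisms act bijectively on classes. -/
lemma bijective_g2Map (τ : L ≃+* L) : Function.Bijective (g2Map (τ : L →+* L)) := by
  have key : ∀ (τ : L ≃+* L) (g : G2 L), g2Map (τ.symm : L →+* L) (g2Map (τ : L →+* L) g) = g := by
    intro τ g
    induction g using Matrix.ProjGenLinGroup.induction_on with | mk g =>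
    simp only [ProjGenLinGroup.map_mk]
    congr 1
    apply Units.ext
    ext i j
    simp
  exact ⟨fun a b e => by rw [← key τ a, e, key], fun g => ⟨g2Map (τ.symm : L →+* L) g,
    by simpa using key τ.symm g⟩⟩

omit [NumberField L] in
/-- Automorphisms permute infinite places. -/
lemma bijective_comap_inf (τ : L ≃+* L) :
    Function.Bijective fun w : InfinitePlace L => w.comap (τ : L →+* L) := by
  refine Function.bijective_iff_has_inverse.mpr ⟨fun w => w.comap (τ.symm : L →+* L), ?_, ?_⟩ <;>
  · intro w
    ext x
    simp

variable (hU : ∀ w g, g2Map (τ : L →+* L) g ∈ U.loc w ↔ g ∈ U.loc ((placeMap τ).symm w))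

/-- The level map of an automorphism fixing the level. -/
def LevelHom.ofAut : LevelHom (τ : L →+* L) U U where
  below := (placeMap τ).symm
  tendsto := (placeMap τ).symm.injective.tendsto_cofinite
  mem_iff := hU

end Aut

end FermatAgent.LT
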