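import Mathlib

/-!
# Isolating an eigenspace of a compact symmetric operator from a family of trace identities

If the traces of `X_N p(T) T²` are known for all polynomials `p`, then polynomials peaking at an
eigenvalue `μ` give in the limit `μ²` times the trace of `X_N` on the `μ`-eigenspace, uniformly in
`N` (`eventually_dist_trace_le`).
-/

set_option autoImplicit false

noncomputable section

open Filter
open scoped ComplexConjugate InnerProductSpace Topology

namespace FermatAgent.LT.Isolation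

variable {H : Type*} [NormedAddCommGroup H] [InnerProductSpace ℂ H] [CompleteSpace H]

omit [CompleteSpace H] in
lemma countable_of_orthonormal [SecondCountableTopology H] {ι : Type*} {e : ι → H}
    (he : Orthonormal ℂ e) : Countable ι := by
  have hd : ∀ i j, i ≠ j → (1 : ℝ) ≤ dist (e i) (e j) := fun i j hij => by
    have h2 : ‖e i - e j‖ ^ 2 = 2 := by
      rw [norm_sub_sq (𝕜 := ℂ), he.1 i, he.1 j, he.2 hij]
      norm_num
    rw [dist_eq_norm]
    nlinarith [norm_nonneg (e i - e j)]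
  obtain ⟨s, hsc, hsd⟩ := TopologicalSpace.exists_countable_dense H
  have : ∀ i, ∃ y ∈ s, dist (e i) y < 1 / 2 := fun i => hsd.exists_dist_lt (e i) one_half_pos
  choose y hy hyd using this
  have := hsc.to_subtype
  refine Function.Injective.countable (f := fun i => (⟨y i, hy i⟩ : s)) fun i j h => ?_
  by_contra hij
  have h' : y i = y j := congrArg Subtype.val h
  have := dist_triangle_right (e i) (e j) (y i)
  linarith [hd i j hij, hyd i, h' ▸ hyd j]

variable (T : H →L[ℂ] H)

/-- The eigenspace as a submodule. -/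
abbrev eig (μ : ℂ) : Submodule ℂ H := Module.End.eigenspace (T : H →ₗ[ℂ] H) μ

instance (μ : ℂ) : CompleteSpace (eig T μ) := by
  have h : IsClosed ((eig T μ : Submodule ℂ H) : Set H) := by
    have : ((eig T μ : Submodule ℂ H) : Set H) = {v | T v = μ • v} := by
      ext v; simp [eig]
    rw [this]
    exact isClosed_eq T.continuous (continuous_id.const_smul μ)
  exact h.completeSpace_coe

omit [CompleteSpace H] in
lemma aeval_apply {v : H} {μ : ℂ} (hv : T v = μ • v) (p : Polynomial ℂ) :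
    Polynomial.aeval T p v = p.eval μ • v := by
  induction p using Polynomial.induction_on' with
  | add p q hp hq => simp [hp, hq, add_smul]
  | monomial n a =>
    have hn : ∀ n : ℕ, (T ^ n) v = μ ^ n • v := by
      intro n
      induction n with
      | zero => simp
      | succ k ih => rw [pow_succ', mul_apply_eq_comp, ih, map_smul, hv, smul_smul,
          pow_succ]
    simp [hn, Algebra.algebraMap_eq_smul_one, smul_smul, Polynomial.aeval_monomial]

variable {T}

omit [CompleteSpace H] in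
/-- Eigenvalues of symmetric operators are real. -/
lemma eigen_real (hs : (T : H →ₗ[ℂ] H).IsSymmetric) {μ : ℂ} {v : H} (hv : v ∈ eig T μ)
    (hv0 : v ≠ 0) : conj μ = μ :=
  hs.conj_eigenvalue_eq_self (Module.End.hasEigenvalue_of_hasEigenvector ⟨hv, hv0⟩)

/-- The operator cut down to an eigenspace. -/
def cutTo (T : H →L[ℂ] H) (μ : ℂ) (X : H →L[ℂ] H) [FiniteDimensional ℂ (eig T μ)] :
    Module.End ℂ (eig T μ) :=
  ((eig T μ).orthogonalProjectionOnto : H →ₗ[ℂ] eig T μ) ∘ₗ (X : H →ₗ[ℂ] H) ∘ₗ (eig T μ).subtype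

/-- Hilbert bases of the eigenspaces together span a dense subspace. -/
private lemma span_eigen_orthogonal_eq_bot (hc : IsCompactOperator T)
    (hs : (T : H →ₗ[ℂ] H).IsSymmetric) {w : ∀ ν : ℂ, Set (eig T ν)}
    (b : ∀ ν, HilbertBasis (w ν) ℂ (eig T ν)) :
    (Submodule.span ℂ
      (Set.range fun a : Σ ν : ℂ, w ν => ((b a.1 a.2 : eig T a.1) : H)))ᗮ = ⊥ := by
  rw [eq_bot_iff, ← ContinuousLinearMap.orthogonalComplement_iSup_eigenspaces_eq_bot hc hs]
  intro v hv
  rw [← Submodule.iInf_orthogonal, Submodule.mem_iInf]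
  intro ν u hu
  have h0 : ∀ i, ⟪b ν i, (eig T ν).orthogonalProjectionOnto v⟫_ℂ = 0 := fun i => by
    rw [Submodule.inner_orthogonalProjectionOnto_eq_of_mem_left]
    exact hv _ (Submodule.subset_span ⟨⟨ν, i⟩, rfl⟩)
  have h1 : (eig T ν).orthogonalProjectionOnto v = 0 := by
    have := (b ν).hasSum_inner_mul_inner ((eig T ν).orthogonalProjectionOnto v)
      ((eig T ν).orthogonalProjectionOnto v)
    simp only [h0, mul_zero] at this
    exact inner_self_eq_zero.mp (this.unique hasSum_zero)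
  have h2 := Submodule.inner_orthogonalProjectionOnto_eq_of_mem_left (K := eig T ν) ⟨u, hu⟩ v
  rw [h1, inner_zero_right] at h2
  exact h2.symm

omit [CompleteSpace H] in
/-- A bound on the Hilbert–Schmidt norm bounds the sum of the squares over an eigenfamily. -/
private lemma summable_sq_eigenvalues {B : ℝ}
    (hHS : ∀ {ι : Type} (e : ι → H), Orthonormal ℂ e → ∀ s : Finset ι,
      ∑ i ∈ s, ‖T (e i)‖ ^ 2 ≤ B)
    {α : Type*} {e : α → H} {μ : α → ℂ} (he : Orthonormal ℂ e) (hTe : ∀ a, ‖T (e a)‖ = ‖μ a‖) :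
    Summable fun a => ‖μ a‖ ^ 2 := by
  classical
  refine summable_of_sum_le (fun a => by positivity) (c := B) fun s => ?_
  let f : Fin s.card → H := fun i => e (s.equivFin.symm i).1
  have hf : Orthonormal ℂ f := he.comp _ (Subtype.val_injective.comp s.equivFin.symm.injective)
  refine le_trans (le_of_eq ?_) (hHS f hf Finset.univ)
  rw [← Finset.sum_coe_sort s, ← s.equivFin.symm.sum_comp]
  exact Finset.sum_congr rfl fun i _ => by simp only [f]; rw [hTe]

/-- **Isolation**: along polynomials tending to the indicator of `μ` on the spectrum the trace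
terms tend to `μ²` times the trace on the eigenspace, uniformly in the operator. -/
theorem eventually_dist_trace_le [SecondCountableTopology H] (hc : IsCompactOperator T)
    (hs : (T : H →ₗ[ℂ] H).IsSymmetric) {B : ℝ}
    (hHS : ∀ {ι : Type} (e : ι → H), Orthonormal ℂ e → ∀ s : Finset ι,
      ∑ i ∈ s, ‖T (e i)‖ ^ 2 ≤ B)
    (X : ℕ → H →L[ℂ] H) {M : ℝ}
    (hX : ∀ N (ν : ℂ), ν ≠ 0 → ∀ e ∈ eig T ν, ‖e‖ = 1 → ‖⟪e, X N e⟫_ℂ‖ ≤ M)
    {μ : ℝ} [FiniteDimensional ℂ (eig T μ)]
    (t : ℕ → Polynomial ℂ → ℂ)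
    (ht : ∀ N (p : Polynomial ℂ) {w : Set H} [Countable w] (b : HilbertBasis w ℂ H),
      HasSum (fun i => ⟪T (b i), X N (Polynomial.aeval T p (T (b i)))⟫_ℂ) (t N p))
    (q : ℕ → Polynomial ℂ)
    (hq : ∀ n (x : ℝ), |x| ≤ ‖T‖ → ‖(q n).eval (x : ℂ)‖ ≤ 1)
    (hlim : ∀ x : ℝ, |x| ≤ ‖T‖ →
      Tendsto (fun n => (q n).eval (x : ℂ)) atTop (𝓝 (if x = μ then 1 else 0))) :
    ∀ ε > 0, ∀ᶠ n in atTop, ∀ N,
      ‖t N (q n) - (μ : ℂ) ^ 2 * LinearMap.trace ℂ (eig T μ) (cutTo T μ (X N))‖ ≤ ε := by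
  classical
  intro ε hε
  choose w b hb using fun ν : ℂ => exists_hilbertBasis ℂ (eig T ν)
  have horth := hs.orthogonalFamily_eigenspaces
  set e : (Σ ν : ℂ, w ν) → H := fun a => ((b a.1 a.2 : eig T a.1) : H) with he_def
  have he : Orthonormal ℂ e := horth.orthonormal_sigma_orthonormal fun ν => (b ν).orthonormal
  have hperp : (Submodule.span ℂ (Set.range e))ᗮ = ⊥ := span_eigen_orthogonal_eq_bot hc hs b
  have : Countable (Σ ν : ℂ, w ν) := countable_of_orthonormal he
  have hinj : Function.Injective e := he.linearIndependent.injective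
  let eqv : (Σ ν : ℂ, w ν) ≃ Set.range e := Equiv.ofInjective e hinj
  have he' : Orthonormal ℂ (fun i : Set.range e => (i : H)) := by
    have := he.comp eqv.symm eqv.symm.injective
    convert this using 1
    funext i
    exact (congrArg Subtype.val (eqv.apply_symm_apply i)).symm
  have : Countable (Set.range e) := (Set.countable_range e).to_subtype
  let B' := HilbertBasis.mkOfOrthogonalEqBot he' (by rw [Subtype.range_coe]; exact hperp)
  have hTe : ∀ a, T (e a) = a.1 • e a := fun a => Module.End.mem_eigenspace_iff.mp (b a.1 a.2).2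
  have hsum : ∀ N (p : Polynomial ℂ),
      HasSum (fun a => p.eval a.1 * (a.1 ^ 2 * ⟪e a, X N (e a)⟫_ℂ)) (t N p) := by
    intro N p
    have h := (eqv.hasSum_iff).mpr (ht N p B')
    refine h.congr_fun fun a => ?_
    have hBa : B' (eqv a) = e a := by simp [B', eqv, HilbertBasis.coe_mkOfOrthogonalEqBot]
    simp only [Function.comp, hBa]
    rw [hTe, map_smul, aeval_apply T (hTe a), map_smul, map_smul, inner_smul_left,
      inner_smul_right, inner_smul_right, eigen_real hs (b a.1 a.2).2 (he.ne_zero a)]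
    ring
  have hreal : ∀ a : Σ ν : ℂ, w ν, ∃ x : ℝ, a.1 = x ∧ |x| ≤ ‖T‖ := by
    intro a
    obtain ⟨x, hx⟩ := Complex.conj_eq_iff_real.mp
      (eigen_real hs (b a.1 a.2).2 (he.ne_zero a))
    refine ⟨x, hx, ?_⟩
    have := T.le_opNorm (e a)
    rw [hTe, norm_smul, he.1 a, mul_one, mul_one, hx, Complex.norm_real] at this
    exact this
  have hT2 : Summable fun a : Σ ν : ℂ, w ν => ‖a.1‖ ^ 2 :=
    summable_sq_eigenvalues hHS he fun a => by rw [hTe, norm_smul, he.1 a, mul_one]
  set M' := max M 0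
  have hterm : ∀ N a, ‖a.1 ^ 2 * ⟪e a, X N (e a)⟫_ℂ‖ ≤ ‖a.1‖ ^ 2 * M' := fun N a => by
    rw [norm_mul, norm_pow]
    rcases eq_or_ne a.1 0 with h0 | h0
    · simp [h0]
    · exact mul_le_mul_of_nonneg_left
        ((hX N a.1 h0 (e a) (b a.1 a.2).2 (he.1 a)).trans (le_max_left _ _)) (by positivity)
  set ind : (Σ ν : ℂ, w ν) → ℂ := fun a => if a.1 = (μ : ℂ) then 1 else 0
  -- the error terms
  set err : ℕ → (Σ ν : ℂ, w ν) → ℝ := fun n a => ‖(q n).eval a.1 - ind a‖ * (‖a.1‖ ^ 2 * M')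
  have herr : ∀ n a, ‖err n a‖ ≤ 2 * (‖a.1‖ ^ 2 * M') := fun n a => by
    obtain ⟨x, hx, hxb⟩ := hreal a
    rw [Real.norm_of_nonneg (mul_nonneg (norm_nonneg _) (by positivity))]
    refine mul_le_mul_of_nonneg_right ?_ (by positivity)
    refine (norm_sub_le _ _).trans (by
      have h1 := hq n x hxb
      have h2 : ‖ind a‖ ≤ 1 := by simp only [ind]; split_ifs <;> simp
      rw [hx]
      linarith)
  have hkey : Tendsto (fun n => ∑' a, err n a) atTop (𝓝 0) := by
    have h := tendsto_tsum_of_dominated_convergence (𝓕 := atTop) (f := err) (g := fun _ => (0 : ℝ))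
      ((hT2.mul_right M').mul_left 2) (fun a => ?_) (Eventually.of_forall fun n a => herr n a)
    · simpa using h
    · obtain ⟨x, hx, hxb⟩ := hreal a
      have h1 : Tendsto (fun n => (q n).eval a.1) atTop (𝓝 (ind a)) := by
        rw [show ind a = if x = μ then 1 else 0 by simp [ind, hx], hx]
        exact hlim x hxb
      simpa [err] using (tendsto_iff_norm_sub_tendsto_zero.mp h1).mul_const (‖a.1‖ ^ 2 * M')
  have : Finite (w (μ : ℂ)) := (b (μ : ℂ)).orthonormal.linearIndependent.finite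
  have := Fintype.ofFinite (w (μ : ℂ))
  have hinjσ : Function.Injective fun i : w (μ : ℂ) => (⟨(μ : ℂ), i⟩ : Σ ν : ℂ, w ν) :=
    fun i j h => eq_of_heq (Sigma.mk.inj_iff.mp h).2
  let ob : OrthonormalBasis (w (μ : ℂ)) ℂ (eig T (μ : ℂ)) :=
    OrthonormalBasis.mk (b (μ : ℂ)).orthonormal (by
      rw [← (Submodule.closed_of_finiteDimensional
        (Submodule.span ℂ (Set.range (b (μ : ℂ))))).submodule_topologicalClosure_eq,
        (b (μ : ℂ)).dense_span])
  have htrace : ∀ N, HasSum (fun a => ind a * (a.1 ^ 2 * ⟪e a, X N (e a)⟫_ℂ))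
      ((μ : ℂ) ^ 2 * LinearMap.trace ℂ (eig T μ) (cutTo T μ (X N))) := fun N => by
    rw [LinearMap.trace_eq_sum_inner _ ob, Finset.mul_sum]
    refine (hinjσ.hasSum_iff fun a ha => ?_).mp ?_
    · obtain ⟨ν, i⟩ := a
      by_cases h : ν = (μ : ℂ)
      · subst h; exact absurd ⟨i, rfl⟩ ha
      · simp [ind, h]
    · convert hasSum_fintype (α := ℂ) _ using 1
      refine Finset.sum_congr rfl fun i _ => ?_
      have hob : ob i = b (μ : ℂ) i := by simp [ob]
      rw [hob]
      simp [e, ind, cutTo]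
  filter_upwards [hkey.eventually (eventually_le_nhds hε)] with n hn N
  have hd := (hsum N (q n)).sub (htrace N)
  rw [← hd.tsum_eq]
  refine (tsum_of_norm_bounded (g := err n) ?_ fun a => ?_).trans hn
  · exact (Summable.of_norm_bounded ((hT2.mul_right M').mul_left 2) (herr n)).hasSum
  · rw [← sub_mul, norm_mul]
    exact mul_le_mul_of_nonneg_left (hterm N a) (norm_nonneg _)

/-- The polynomials isolating `μ` on `[-R, R]`. -/
def peak (μ R : ℝ) (n : ℕ) : Polynomial ℂ :=
  (1 - Polynomial.C (((|μ| + R + 1) ^ 2)⁻¹ : ℂ) * (Polynomial.X - Polynomial.C (μ : ℂ)) ^ 2) ^ n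

lemma peak_eval (μ R x : ℝ) (n : ℕ) :
    (peak μ R n).eval (x : ℂ) = (((1 - ((|μ| + R + 1) ^ 2)⁻¹ * (x - μ) ^ 2) ^ n : ℝ) : ℂ) := by
  simp [peak]

lemma peak_base {μ R x : ℝ} (hx : |x| ≤ R) :
    0 ≤ 1 - ((|μ| + R + 1) ^ 2)⁻¹ * (x - μ) ^ 2 ∧
      (x ≠ μ → 1 - ((|μ| + R + 1) ^ 2)⁻¹ * (x - μ) ^ 2 < 1) := by
  have hR : 0 ≤ R := (abs_nonneg x).trans hx
  have hpos : 0 < (|μ| + R + 1) ^ 2 := by positivity
  constructor
  · rw [sub_nonneg, inv_mul_le_iff₀ hpos, mul_one, sq_le_sq,
      abs_of_nonneg (by positivity : (0:ℝ) ≤ |μ| + R + 1)]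
    exact le_trans (abs_sub x μ) (by linarith)
  · intro hne
    have : 0 < ((|μ| + R + 1) ^ 2)⁻¹ * (x - μ) ^ 2 := by
      have := sub_ne_zero.mpr hne
      positivity
    linarith

/-- The peak polynomials are bounded by one on the spectrum. -/
lemma norm_peak_le {μ R x : ℝ} (n : ℕ) (hx : |x| ≤ R) : ‖(peak μ R n).eval (x : ℂ)‖ ≤ 1 := by
  rw [peak_eval, Complex.norm_real, Real.norm_eq_abs, abs_pow]
  refine pow_le_one₀ (abs_nonneg _) (abs_le.mpr ⟨by linarith [(peak_base (μ := μ) hx).1], ?_⟩)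
  have : 0 ≤ ((|μ| + R + 1) ^ 2)⁻¹ * (x - μ) ^ 2 := by positivity
  linarith

/-- The peak polynomials tend to the indicator of the eigenvalue. -/
lemma tendsto_peak {μ R x : ℝ} (hx : |x| ≤ R) :
    Tendsto (fun n => (peak μ R n).eval (x : ℂ)) atTop (𝓝 (if x = μ then 1 else 0)) := by
  simp only [peak_eval]
  split_ifs with h
  · simp [h]
  · have := (tendsto_pow_atTop_nhds_zero_of_lt_one (peak_base (μ := μ) hx).1
      ((peak_base (μ := μ) hx).2 h))
    simpa [Function.comp_def] using (Complex.continuous_ofReal.tendsto 0).comp this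

end FermatAgent.LT.Isolation
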