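import Mathlib

/-!
# Periodisations of smooth functions vary little

If `P` is periodic with respect to `ℤ^ι` then its oscillation is bounded by any derivative.
Consequently two translated lattice sums of a smooth compactly supported function differ by at
most the size of a high derivative times the number of lattice points in its support.
-/

set_option autoImplicit false

noncomputable section

open Filter
open scoped Topology ContDiff

namespace FermatAgent.LT.Periodic

variable {ι : Type} [Fintype ι]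

/-- Integral vectors. -/
def ivec (n : ι → ℤ) : ι → ℝ := fun i => (n i : ℝ)

/-- The oscillation of a periodic function is bounded by each of its derivatives. -/
theorem osc_le : ∀ (N : ℕ) {F : Type} [NormedAddCommGroup F] [NormedSpace ℝ F] (P : (ι → ℝ) → F),
    ContDiff ℝ (N + 1 : ℕ) P → (∀ x n, P (x + ivec n) = P x) → ∀ C : ℝ,
    (∀ x, ‖iteratedFDeriv ℝ (N + 1) P x‖ ≤ C) →
      ∀ x y, ‖P x - P y‖ ≤ (Fintype.card ι : ℝ) ^ N * C := by
  classical
  intro N
  induction N with
  | zero =>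
    intro F _ _ P hP hper C hC x y
    rw [pow_zero, one_mul]
    have hd : Differentiable ℝ P := hP.differentiable (by simp)
    have hb : ∀ z, ‖fderiv ℝ P z‖ ≤ C := fun z => by
      rw [← norm_iteratedFDeriv_one]; exact hC z
    obtain ⟨n, hn⟩ : ∃ n : ι → ℤ, ‖x - (y + ivec n)‖ ≤ 1 := by
      refine ⟨fun i => ⌊x i - y i⌋, (pi_norm_le_iff_of_nonneg zero_le_one).mpr fun i => ?_⟩
      simp only [Pi.sub_apply, Pi.add_apply, ivec, Real.norm_eq_abs]
      rw [abs_le]
      constructor <;> linarith [Int.floor_le (x i - y i), Int.lt_floor_add_one (x i - y i)]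
    rw [← hper y n]
    have hC0 : 0 ≤ C := (norm_nonneg _).trans (hb x)
    refine ((convex_univ).norm_image_sub_le_of_norm_fderiv_le (fun z _ => hd z) (fun z _ => hb z)
      (Set.mem_univ (y + ivec n)) (Set.mem_univ x)).trans ?_
    exact mul_le_of_le_one_right hC0 hn
  | succ N ih =>
    intro F _ _ P hP hper C hC x y
    have hd : Differentiable ℝ P := hP.differentiable (by simp)
    have hDper : ∀ z n, fderiv ℝ P (z + ivec n) = fderiv ℝ P z := fun z n => by
      conv_rhs => rw [show P = fun w => P (w + ivec n) from funext fun w => (hper w n).symm]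
      rw [fderiv_comp_add_right]
    have hDP : ContDiff ℝ (N + 1 : ℕ) (fderiv ℝ P) := hP.fderiv_right (by push_cast; rfl)
    have hosc := ih (fderiv ℝ P) hDP hDper C fun z => by
      rw [norm_iteratedFDeriv_fderiv]; exact hC z
    set D : ℝ := (Fintype.card ι : ℝ) ^ N * C
    have hD : 0 ≤ D := (norm_nonneg _).trans (hosc x x)
    have hei : ∀ z i, ‖fderiv ℝ P z (Pi.single i 1)‖ ≤ D := by
      intro z i
      let e : ι → ℝ := Pi.single i 1
      have he : ‖e‖ ≤ 1 := (pi_norm_le_iff_of_nonneg zero_le_one).mpr fun j => by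
        by_cases h : j = i <;> simp [e, h]
      let φ : ℝ → F := fun s => P (z + s • e) - s • fderiv ℝ P z e
      have hder : ∀ s, HasDerivAt φ (fderiv ℝ P (z + s • e) e - fderiv ℝ P z e) s := by
        intro s
        have h1 : HasDerivAt (fun s : ℝ => z + s • e) e s := by
          simpa using ((hasDerivAt_id s).smul_const e).const_add z
        have h2 : HasDerivAt (fun s : ℝ => s • fderiv ℝ P z e) (fderiv ℝ P z e) s := by
          simpa using (hasDerivAt_id s).smul_const (fderiv ℝ P z e)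
        exact ((hd _).hasFDerivAt.comp_hasDerivAt s h1).sub h2
      have h := (convex_univ).norm_image_sub_le_of_norm_deriv_le (f := φ)
        (fun s _ => (hder s).differentiableAt) (C := D) (fun s _ => by
          rw [(hder s).deriv, ← sub_apply]
          exact ((fderiv ℝ P _ - fderiv ℝ P z).le_opNorm e).trans
            ((mul_le_of_le_one_right (norm_nonneg _) he).trans (hosc _ _)))
        (Set.mem_univ 0) (Set.mem_univ 1)
      have hz : P (z + e) = P z := by
        have := hper z (Pi.single i 1)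
        rwa [show ivec (Pi.single i 1) = e by
          funext j; by_cases h : j = i <;> simp [ivec, e, h]] at this
      simpa [φ, hz] using h
    have hnorm : ∀ z, ‖fderiv ℝ P z‖ ≤ (Fintype.card ι : ℝ) * D := fun z => by
      refine ContinuousLinearMap.opNorm_le_bound _ (by positivity) fun v => ?_
      have hv : v = ∑ i, v i • (Pi.single i 1 : ι → ℝ) := by
        funext j; simp [Finset.sum_apply, Pi.single_apply]
      conv_lhs => rw [hv, map_sum]
      refine (norm_sum_le _ _).trans ?_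
      refine (Finset.sum_le_card_nsmul _ _ (D * ‖v‖) fun i _ => ?_).trans (le_of_eq ?_)
      · rw [map_smul, norm_smul, mul_comm]
        exact mul_le_mul (hei z i) (norm_le_pi_norm v i) (norm_nonneg _) hD
      · rw [nsmul_eq_mul, Finset.card_univ]; ring
    obtain ⟨n, hn⟩ : ∃ n : ι → ℤ, ‖x - (y + ivec n)‖ ≤ 1 := by
      refine ⟨fun i => ⌊x i - y i⌋, (pi_norm_le_iff_of_nonneg zero_le_one).mpr fun i => ?_⟩
      simp only [Pi.sub_apply, Pi.add_apply, ivec, Real.norm_eq_abs]
      rw [abs_le]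
      constructor <;> linarith [Int.floor_le (x i - y i), Int.lt_floor_add_one (x i - y i)]
    rw [← hper y n]
    refine ((convex_univ).norm_image_sub_le_of_norm_fderiv_le (fun z _ => hd z)
      (fun z _ => hnorm z) (Set.mem_univ (y + ivec n)) (Set.mem_univ x)).trans ?_
    refine (mul_le_of_le_one_right (by positivity) hn).trans (le_of_eq ?_)
    rw [pow_succ]; ring

/-- The integers in a ball of radius `ρ` around a point. -/
lemma finite_near (c : ι → ℝ) (ρ : ℝ) :
    ∃ s : Finset (ι → ℤ), (∀ n, ‖ivec n - c‖ ≤ ρ → n ∈ s) ∧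
      (0 ≤ ρ → (s.card : ℝ) ≤ (2 * ρ + 2) ^ Fintype.card ι) := by
  classical
  refine ⟨Fintype.piFinset fun i => Finset.Icc ⌈c i - ρ⌉ ⌊c i + ρ⌋, fun n hn => ?_, fun hρ => ?_⟩
  · rw [Fintype.mem_piFinset]
    intro i
    have hi := (norm_le_pi_norm (ivec n - c) i).trans hn
    simp only [Pi.sub_apply, ivec, Real.norm_eq_abs, abs_le] at hi
    rw [Finset.mem_Icc, Int.ceil_le, Int.le_floor]
    constructor <;> linarith
  · rw [Fintype.card_piFinset, Nat.cast_prod, ← Finset.card_univ, ← Finset.prod_const]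
    refine Finset.prod_le_prod (fun i _ => Nat.cast_nonneg _) fun i _ => ?_
    rw [Int.card_Icc]
    have h1 := Int.le_ceil (c i - ρ)
    have h2 := Int.floor_le (c i + ρ)
    rcases le_total (⌊c i + ρ⌋ + 1 - ⌈c i - ρ⌉) 0 with h | h
    · rw [Int.toNat_of_nonpos h, Nat.cast_zero]; linarith
    · rw [show (((⌊c i + ρ⌋ + 1 - ⌈c i - ρ⌉).toNat : ℕ) : ℝ) =
        (((⌊c i + ρ⌋ + 1 - ⌈c i - ρ⌉).toNat : ℤ) : ℝ) by push_cast; rfl, Int.toNat_of_nonneg h]
      push_cast
      linarith

variable {E : Type*} [NormedAddCommGroup E] [NormedSpace ℝ E]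

/-- **Two translated lattice sums differ little**: by at most a high derivative of the function
times the number of lattice points in its support. -/
theorem lattice_sum_sub_le (A : (ι → ℝ) ≃L[ℝ] E) (G : E → ℂ) (N : ℕ)
    (hG : ContDiff ℝ (N + 1 : ℕ) G) {R : ℝ} (hR : 0 ≤ R) (hsupp : ∀ e, G e ≠ 0 → ‖e‖ ≤ R)
    {M : ℝ} (hM : ∀ e, ‖iteratedFDeriv ℝ (N + 1) G e‖ ≤ M) (a b : E) :
    ‖(∑' n : ι → ℤ, G (A (ivec n) + a)) - ∑' n : ι → ℤ, G (A (ivec n) + b)‖ ≤
      (Fintype.card ι : ℝ) ^ N *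
        ((2 * (‖(A.symm : E →L[ℝ] ι → ℝ)‖ * R + 1) + 2) ^ Fintype.card ι *
          (M * ‖(A : (ι → ℝ) →L[ℝ] E)‖ ^ (N + 1))) := by
  classical
  set ρ := ‖(A.symm : E →L[ℝ] ι → ℝ)‖ * R
  have hρ : 0 ≤ ρ := mul_nonneg (norm_nonneg _) hR
  let f : (ι → ℝ) → ℂ := fun x => G (A x + a)
  let P : (ι → ℝ) → ℂ := fun x => ∑' n : ι → ℤ, f (x + ivec n)
  have hf : ContDiff ℝ (N + 1 : ℕ) f := hG.comp ((A : (ι → ℝ) →L[ℝ] E).contDiff.add contDiff_const)
  have hfsupp : ∀ x, f x ≠ 0 → ‖x + A.symm a‖ ≤ ρ := fun x hx => by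
    have h1 := (A.symm : E →L[ℝ] ι → ℝ).le_opNorm (A x + a)
    rw [ContinuousLinearEquiv.coe_coe, map_add, A.symm_apply_apply] at h1
    exact h1.trans (mul_le_mul_of_nonneg_left (hsupp _ hx) (norm_nonneg _))
  have hloc : ∀ x₀ : ι → ℝ, ∃ s : Finset (ι → ℤ),
      ((s.card : ℝ) ≤ (2 * (ρ + 1) + 2) ^ Fintype.card ι) ∧
      ∀ x, ‖x - x₀‖ ≤ 1 → P x = ∑ n ∈ s, f (x + ivec n) := by
    intro x₀
    obtain ⟨s, hs, hcard⟩ := finite_near (-(x₀ + A.symm a)) (ρ + 1)
    refine ⟨s, hcard (by positivity), fun x hx => tsum_eq_sum fun n hn => ?_⟩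
    by_contra h
    apply hn
    apply hs
    calc ‖ivec n - -(x₀ + A.symm a)‖ = ‖(x + ivec n + A.symm a) - (x - x₀)‖ := by congr 1; abel
      _ ≤ ‖x + ivec n + A.symm a‖ + ‖x - x₀‖ := norm_sub_le _ _
      _ ≤ ρ + 1 := add_le_add (hfsupp _ h) hx
  have hfn : ∀ n, ContDiff ℝ (N + 1 : ℕ) fun x => f (x + ivec n) := fun n =>
    hf.comp (contDiff_id.add contDiff_const)
  have hev : ∀ x₀ : ι → ℝ, ∃ s : Finset (ι → ℤ),
      ((s.card : ℝ) ≤ (2 * (ρ + 1) + 2) ^ Fintype.card ι) ∧
      P =ᶠ[𝓝 x₀] fun x => ∑ n ∈ s, f (x + ivec n) := fun x₀ => by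
    obtain ⟨s, h1, h2⟩ := hloc x₀
    refine ⟨s, h1, Filter.eventually_of_mem (Metric.closedBall_mem_nhds x₀ one_pos) fun x hx =>
      h2 x ?_⟩
    simpa [dist_eq_norm] using hx
  have hP : ContDiff ℝ (N + 1 : ℕ) P := contDiff_iff_contDiffAt.mpr fun x₀ => by
    obtain ⟨s, -, h⟩ := hev x₀
    exact (ContDiff.sum fun n _ => hfn n).contDiffAt.congr_of_eventuallyEq h
  have hper : ∀ x m, P (x + ivec m) = P x := fun x m => by
    show ∑' n, f (x + ivec m + ivec n) = ∑' n, f (x + ivec n)
    rw [← (Equiv.addLeft m).tsum_eq fun n => f (x + ivec n)]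
    refine tsum_congr fun n => congrArg f ?_
    funext i
    simp [ivec]
    ring
  have hbound : ∀ x, ‖iteratedFDeriv ℝ (N + 1) P x‖ ≤
      (2 * (ρ + 1) + 2) ^ Fintype.card ι * (M * ‖(A : (ι → ℝ) →L[ℝ] E)‖ ^ (N + 1)) := by
    intro x
    obtain ⟨s, hcard, h⟩ := hev x
    rw [(h.iteratedFDeriv ℝ _).eq_of_nhds, iteratedFDeriv_sum (fun n _ => hfn n)]
    simp only [Finset.sum_apply]
    refine (norm_sum_le _ _).trans ((Finset.sum_le_card_nsmul _ _
      (M * ‖(A : (ι → ℝ) →L[ℝ] E)‖ ^ (N + 1)) fun n _ => ?_).trans ?_)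
    · rw [iteratedFDeriv_comp_add_right]
      have hGa : ContDiff ℝ (N + 1 : ℕ) fun e => G (e + a) :=
        hG.comp (contDiff_id.add contDiff_const)
      rw [show f = (fun e => G (e + a)) ∘ (A : (ι → ℝ) →L[ℝ] E) from rfl,
        ContinuousLinearMap.iteratedFDeriv_comp_right _ hGa _ le_rfl]
      refine (ContinuousMultilinearMap.norm_compContinuousLinearMap_le _ _).trans ?_
      rw [Finset.prod_const, Finset.card_univ, Fintype.card_fin]
      refine mul_le_mul_of_nonneg_right ?_ (by positivity)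
      rw [iteratedFDeriv_comp_add_right]
      exact hM _
    · rw [nsmul_eq_mul]
      exact mul_le_mul_of_nonneg_right hcard
        (mul_nonneg ((norm_nonneg _).trans (hM 0)) (by positivity))
  have key : ∀ c : E, ∑' n : ι → ℤ, G (A (ivec n) + c) = P (A.symm (c - a)) := fun c =>
    tsum_congr fun n => by
      show _ = G (A (A.symm (c - a) + ivec n) + a)
      rw [map_add, A.apply_symm_apply]
      congr 1
      abel
  rw [key a, key b]
  exact osc_le N P hP hper _ hbound _ _

/-- Derivatives of the slices of a smooth function are bounded over a compact parameter set. -/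
theorem exists_slice_bound {E' : Type*} [NormedAddCommGroup E'] [NormedSpace ℝ E']
    [ProperSpace E] (G : E' × E → ℂ) (N : ℕ) (hG : ContDiff ℝ (N : ℕ) G)
    {K : Set E'} (hK : IsCompact K)
    {R : ℝ} (hsupp : ∀ r ∈ K, ∀ e, G (r, e) ≠ 0 → ‖e‖ ≤ R) :
    ∃ M, ∀ r ∈ K, ∀ e, ‖iteratedFDeriv ℝ N (fun e => G (r, e)) e‖ ≤ M := by
  obtain ⟨M, hM⟩ := (hK.prod (isCompact_closedBall (0 : E) R)).exists_bound_of_continuousOn
    (f := iteratedFDeriv ℝ N G) (hG.continuous_iteratedFDeriv le_rfl).continuousOn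
  refine ⟨max M 0, fun r hr e => ?_⟩
  by_cases he : ‖e‖ ≤ R
  · have hc : ContDiff ℝ (N : ℕ) fun p => G ((r, 0) + p) := hG.comp (contDiff_const.add contDiff_id)
    rw [show (fun e => G (r, e)) = (fun p => G ((r, 0) + p)) ∘ (ContinuousLinearMap.inr ℝ E' E) by
      funext x; simp, ContinuousLinearMap.iteratedFDeriv_comp_right _ hc _ le_rfl,
      iteratedFDeriv_comp_add_left]
    refine (ContinuousMultilinearMap.norm_compContinuousLinearMap_le _ _).trans ?_
    refine (mul_le_of_le_one_right (norm_nonneg _) (Finset.prod_le_one (fun _ _ => norm_nonneg _)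
      fun _ _ => ContinuousLinearMap.norm_inr_le_one ℝ E' E)).trans (le_max_of_le_left ?_)
    have h := hM (r, e) ⟨hr, by simpa using he⟩
    simpa using h
  · have h0 : (fun x => G (r, x)) =ᶠ[𝓝 e] fun _ => 0 := by
      refine Filter.eventually_of_mem (((isOpen_lt continuous_const continuous_norm).mem_nhds
        (not_le.mp he))) fun x (hx : R < ‖x‖) => ?_
      by_contra h
      exact absurd (hsupp r hr x h) (not_le.mpr hx)
    rw [(h0.iteratedFDeriv ℝ N).eq_of_nhds, iteratedFDeriv_fun_zero]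
    simp

end FermatAgent.LT.Periodic
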