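import Mathlib

/-!
# Integer points, cubes and characters on euclidean space, for Poisson summation
-/

set_option autoImplicit false

noncomputable section

open MeasureTheory UnitAddTorus
open scoped FourierTransform SchwartzMap Real

namespace FermatAgent.LT.Poisson

variable {d : Type*}

/-- An integer vector as a point of euclidean space. -/
def intVec (n : d → ℤ) : (EuclideanSpace ℝ d) := WithLp.toLp 2 fun i => (n i : ℝ)

@[simp] lemma intVec_apply (n : d → ℤ) (i : d) : intVec n i = n i := rfl

lemma intVec_injective : Function.Injective (intVec : (d → ℤ) → (EuclideanSpace ℝ d)) := by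
  intro m n h
  funext i
  have := congrArg (fun x : (EuclideanSpace ℝ d) => x i) h
  simpa using this

variable [Fintype d]

/-- Lattice sums of high negative powers converge. -/
lemma summable_one_add_norm_rpow {k : ℕ} (hk : Fintype.card d < k) :
    Summable fun n : d → ℤ => (1 + ‖intVec n‖) ^ (-(k : ℝ)) := by
  let Λ : Submodule ℤ (EuclideanSpace ℝ d) :=
    Submodule.span ℤ (Set.range (EuclideanSpace.basisFun d ℝ).toBasis)
  have hmem : ∀ n : d → ℤ, intVec n ∈ Λ := fun n => by
    have : intVec n = ∑ i, n i • (EuclideanSpace.basisFun d ℝ).toBasis i := by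
      classical
      ext j
      simp [Finset.sum_apply, Pi.single_apply, mul_comm]
    rw [this]
    exact Submodule.sum_mem _ fun i _ => Submodule.smul_mem _ _ (Submodule.subset_span ⟨i, rfl⟩)
  have hr : Module.finrank ℤ Λ = Fintype.card d := by
    rw [ZLattice.rank ℝ Λ, finrank_euclideanSpace]
  have hs := (ZLattice.summable_norm_rpow Λ (-(k : ℝ)) (by rw [hr]; simpa using hk)).comp_injective
    (i := fun n => (⟨intVec n, hmem n⟩ : Λ)) fun m n h => intVec_injective (congrArg Subtype.val h)
  refine Summable.of_norm_bounded_eventually hs ?_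
  filter_upwards [(Set.finite_singleton (0 : d → ℤ)).compl_mem_cofinite] with n hn
  simp only [Function.comp]
  rw [Real.norm_of_nonneg (by positivity),
    show ‖(⟨intVec n, hmem n⟩ : Λ)‖ = ‖intVec n‖ from rfl]
  have hpos : 0 < ‖intVec n‖ := norm_pos_iff.mpr fun h => hn (intVec_injective (by
    exact h.trans (by ext i; simp)))
  rw [Real.rpow_neg (by positivity), Real.rpow_neg hpos.le]
  gcongr
  linarith

/-- Every real is a representative plus an integer. -/
lemma exists_equivIco (t : ℝ) :
    ∃ m : ℤ, t = (AddCircle.equivIco 1 0 (t : UnitAddCircle)).1 + m := by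
  refine ⟨⌊t⌋, ?_⟩
  rw [AddCircle.coe_equivIco_mk_apply, div_one, mul_one]
  exact (Int.fract_add_floor t).symm

/-- Fourier characters as exponentials. -/
lemma mFourier_neg_coe (k : d → ℤ) (x : d → ℝ) :
    mFourier (-k) (fun i => (x i : UnitAddCircle)) =
      Complex.exp (-2 * π * Complex.I * (∑ i, (k i : ℝ) * x i : ℝ)) := by
  simp only [mFourier, ContinuousMap.coe_mk, fourier_coe_apply, ← Complex.exp_sum]
  congr 1
  push_cast
  rw [Finset.mul_sum]
  refine Finset.sum_congr rfl fun i _ => ?_
  simp
  ring

omit [Fintype d] in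
/-- Unit cubes are disjoint. -/
lemma pairwise_disjoint_cubes : Pairwise (Function.onFun Disjoint
    fun n : d → ℤ => {x : d → ℝ | ∀ i, x i ∈ Set.Ioc (n i : ℝ) (n i + 1)}) := by
  intro m n hmn
  refine Set.disjoint_left.mpr fun x hm hn => hmn (funext fun i => ?_)
  simp only [Set.mem_ofPred_eq, Set.mem_Ioc] at hm hn
  have h1 := hm i
  have h2 := hn i
  have a : (m i : ℝ) < n i + 1 := by linarith
  have b : (n i : ℝ) < m i + 1 := by linarith
  have a' : m i < n i + 1 := by exact_mod_cast a
  have b' : n i < m i + 1 := by exact_mod_cast b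
  omega

omit [Fintype d] in
/-- Unit cubes cover space. -/
lemma iUnion_cubes :
    ⋃ n : d → ℤ, {x : d → ℝ | ∀ i, x i ∈ Set.Ioc (n i : ℝ) (n i + 1)} = Set.univ := by
  refine Set.eq_univ_of_forall fun x => Set.mem_iUnion.mpr ⟨fun i => ⌈x i⌉ - 1, fun i => ?_⟩
  simp only [Set.mem_Ioc, Int.cast_sub, Int.cast_one, sub_add_cancel]
  exact ⟨by linarith [Int.ceil_lt_add_one (x i)], Int.le_ceil _⟩

end FermatAgent.LT.Poisson
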