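import Fermat.Agent.LT.Base.Hyp3

/-!
# Real matrices and the planes `Im z = σ t` of hyperbolic space
-/

set_option autoImplicit false

noncomputable section

open Matrix
open scoped MatrixGroups UpperHalfPlane

namespace FermatAgent.LT.H3

/-- A real matrix of determinant one moves the point at fixed distance above a point of the real
plane as it moves that point. -/
lemma smul_plane (G : GL (Fin 2) ℂ) (g : SL(2, ℤ))
    (hG : ∀ i j, G.val i j = (((g.1 i j : ℤ) : ℝ) : ℂ)) (z : ℍ) {s C : ℝ} (hC' : 0 < C)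
    (hcs : C ^ 2 = s ^ 2 + 1) :
    G • (⟨⟨z.re, z.im * (s / C)⟩, z.im / C, div_pos z.im_pos hC'⟩ : H3) =
      ⟨⟨(g • z).re, (g • z).im * (s / C)⟩, (g • z).im / C, div_pos (g • z).im_pos hC'⟩ := by
  have hC := hC'.ne'
  set a : ℝ := ((g.1 0 0 : ℤ) : ℝ) with ha
  set b : ℝ := ((g.1 0 1 : ℤ) : ℝ) with hb
  set c : ℝ := ((g.1 1 0 : ℤ) : ℝ) with hc
  set d : ℝ := ((g.1 1 1 : ℤ) : ℝ) with hd
  have hdet : a * d - b * c = 1 := by
    have h := congrArg (fun n : ℤ => (n : ℝ)) g.det_coe
    simp only [Matrix.det_fin_two, Int.cast_sub, Int.cast_mul, Int.cast_one] at h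
    rw [ha, hb, hc, hd]; exact h
  have hden0 : 0 < (c * z.re + d) ^ 2 + (c * z.im) ^ 2 := by
    by_cases h0 : c = 0
    · have : d ≠ 0 := fun hd0 => by rw [h0, hd0] at hdet; simp at hdet
      rw [h0]; simp; positivity
    · have := mul_ne_zero h0 z.im_ne_zero
      positivity
  have hns : Complex.normSq ((c : ℂ) * z + d) = (c * z.re + d) ^ 2 + (c * z.im) ^ 2 := by
    rw [Complex.normSq_apply]; simp; ring
  have hz : (↑(g • z) : ℂ) = ((a : ℂ) * z + b) / ((c : ℂ) * z + d) := by
    rw [UpperHalfPlane.coe_specialLinearGroup_apply]; simp [ha, hb, hc, hd]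
  have hre : (g • z).re = ((a * z.re + b) * (c * z.re + d) + a * c * z.im ^ 2) /
      ((c * z.re + d) ^ 2 + (c * z.im) ^ 2) := by
    rw [← UpperHalfPlane.coe_re, hz, Complex.div_re, hns]
    simp
    field_simp
  have him : (g • z).im = z.im / ((c * z.re + d) ^ 2 + (c * z.im) ^ 2) := by
    rw [← UpperHalfPlane.coe_im, hz, Complex.div_im, hns]
    simp
    rw [← sub_div]
    congr 1
    linear_combination z.im * hdet
  have hdetG : G.val.det = 1 := by
    rw [Matrix.det_fin_two, hG, hG, hG, hG, ← ha, ← hb, ← hc, ← hd]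
    exact_mod_cast hdet
  set w : ℂ := ⟨z.re, z.im * (s / C)⟩ with hw
  have hden : den G.val ⟨w, z.im / C, div_pos z.im_pos hC'⟩ =
      (c * z.re + d) ^ 2 + (c * z.im) ^ 2 := by
    simp only [den, hG, ← hc, ← hd]
    rw [Complex.normSq_apply, Complex.normSq_ofReal]
    simp [w]
    field_simp
    linear_combination -c ^ 2 * z.im ^ 2 * hcs
  rw [smul_def]
  refine H3.ext ?_ ?_
  · simp only [act, hden, hG, ← ha, ← hb, ← hc, ← hd]
    refine Complex.ext ?_ ?_
    · rw [Complex.div_ofReal_re]
      show _ = (g • z).re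
      rw [hre]
      congr 1
      simp [w, ← Complex.ofReal_pow, -Complex.ofReal_div]
      field_simp
      linear_combination -(a * c * z.im ^ 2) * hcs
    · rw [Complex.div_ofReal_im]
      show _ = (g • z).im * (s / C)
      rw [him]
      simp [w, ← Complex.ofReal_pow, -Complex.ofReal_div]
      field_simp
      congr 1
      linear_combination s * hdet
  · simp only [act, hden, hdetG, norm_one, one_mul]
    rw [him]; field_simp

end FermatAgent.LT.H3
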